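import Mathlib

/-! G-D: eigenbasis of a permutation acting on functions. -/

open scoped Real
open Module Module.End

namespace FAGenus

/-- normalised argument in `[0,1)` -/
noncomputable def lamOf (μ : ℂ) : ℝ :=
  if 0 ≤ Complex.arg μ then Complex.arg μ / (2 * π) else Complex.arg μ / (2 * π) + 1

lemma lamOf_mem (μ : ℂ) : 0 ≤ lamOf μ ∧ lamOf μ < 1 := by
  have hπ := Real.pi_pos
  have h1 := Complex.neg_pi_lt_arg μ
  have h2 := Complex.arg_le_pi μ
  unfold lamOf
  split_ifs with h
  · refine ⟨by positivity, ?_⟩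
    rw [div_lt_one (by positivity)]
    linarith
  · rw [not_le] at h
    constructor
    · have : -1 ≤ Complex.arg μ / (2 * π) := by
        rw [le_div_iff₀ (by positivity)]
        linarith
      linarith
    · have : Complex.arg μ / (2 * π) < 0 := div_neg_of_neg_of_pos h (by positivity)
      linarith

lemma exp_lamOf {μ : ℂ} (hμ : ‖μ‖ = 1) : Complex.exp (2 * π * Complex.I * lamOf μ) = μ := by
  have hπ : (π : ℂ) ≠ 0 := by exact_mod_cast Real.pi_ne_zero
  have h0 : Complex.exp (Complex.arg μ * Complex.I) = μ := by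
    have := Complex.norm_mul_exp_arg_mul_I μ
    rwa [hμ, Complex.ofReal_one, one_mul] at this
  unfold lamOf
  split_ifs with h
  · conv_rhs => rw [← h0]
    congr 1
    push_cast
    field_simp
  · conv_rhs => rw [← h0]
    have : 2 * π * Complex.I * ((Complex.arg μ / (2 * π) + 1 : ℝ) : ℂ) =
        Complex.arg μ * Complex.I + 2 * π * Complex.I := by
      push_cast
      field_simp
    rw [this, Complex.exp_add, Complex.exp_two_pi_mul_I, mul_one]

lemma lamOf_eq_zero_iff {μ : ℂ} (hμ : ‖μ‖ = 1) : lamOf μ = 0 ↔ μ = 1 := by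
  constructor
  · intro h
    have := exp_lamOf hμ
    rw [h] at this
    simpa using this.symm
  · rintro rfl
    simp [lamOf]

/-- functions invariant under `σ` = functions on the orbit space -/
lemma finrank_eigenspace_one {X : Type} [Fintype X] [DecidableEq X] (σ : Equiv.Perm X) :
    finrank ℂ (Module.End.eigenspace (LinearMap.funLeft ℂ ℂ σ : Module.End ℂ (X → ℂ)) 1) =
      Nat.card (MulAction.orbitRel.Quotient (Subgroup.zpowers σ) X) := by
  classical
  set Q := MulAction.orbitRel.Quotient (Subgroup.zpowers σ) X with hQ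
  let mk : X → Q := Quotient.mk''
  have hmk : Function.Surjective mk := Quotient.mk''_surjective
  let Φ : (Q → ℂ) →ₗ[ℂ] (X → ℂ) := LinearMap.funLeft ℂ ℂ mk
  have hΦ : Function.Injective Φ := LinearMap.funLeft_injective_of_surjective ℂ ℂ mk hmk
  have hrange : LinearMap.range Φ =
      Module.End.eigenspace (LinearMap.funLeft ℂ ℂ σ : Module.End ℂ (X → ℂ)) 1 := by
    ext v
    rw [mem_eigenspace_iff, one_smul]
    constructor
    · rintro ⟨w, rfl⟩
      funext x
      show w (mk (σ x)) = w (mk x)
      congr 1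
      apply Quotient.sound
      exact ⟨⟨σ, Subgroup.mem_zpowers σ⟩, rfl⟩
    · intro hv
      have hv' : ∀ x, v (σ x) = v x := fun x => congrFun hv x
      let S : Subgroup (Equiv.Perm X) :=
        { carrier := {g | ∀ x, v (g x) = v x}
          mul_mem' := by
            intro a b ha hb x
            rw [Equiv.Perm.mul_apply, ha, hb]
          one_mem' := fun x => rfl
          inv_mem' := by
            intro a ha x
            have := ha (a⁻¹ x)
            rw [← Equiv.Perm.mul_apply, mul_inv_cancel, Equiv.Perm.one_apply] at this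
            exact this.symm }
      have hS : Subgroup.zpowers σ ≤ S := by
        rw [Subgroup.zpowers_le]
        exact hv'
      refine ⟨Quotient.lift v ?_, ?_⟩
      · rintro x y ⟨g, rfl⟩
        exact hS g.2 y
      · funext x
        rfl
  have : Fintype Q := Fintype.ofFinite Q
  rw [← hrange, LinearMap.finrank_range_of_inj hΦ, Module.finrank_fintype_fun_eq_card,
    Nat.card_eq_fintype_card]

/-- G-D -/
theorem exists_eigenbasis_perm {X : Type} [Fintype X] [DecidableEq X] (σ : Equiv.Perm X) :
    ∃ (b : Module.Basis X ℂ (X → ℂ)) (lam : X → ℝ), (∀ a, 0 ≤ lam a ∧ lam a < 1) ∧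
      (∀ a x, b a (σ x) = Complex.exp (2 * π * Complex.I * lam a) * b a x) ∧
      Nat.card {a // lam a = 0} =
        Nat.card (MulAction.orbitRel.Quotient (Subgroup.zpowers σ) X) := by
  classical
  let f : Module.End ℂ (X → ℂ) := LinearMap.funLeft ℂ ℂ σ
  set n := orderOf σ with hn'
  have hn : 0 < n := orderOf_pos σ
  have hpow : ∀ m : ℕ, ∀ (v : X → ℂ) x, (f ^ m) v x = v ((σ ^ m) x) := by
    intro m
    induction m with
    | zero => intro v x; rfl
    | succ m ih =>
      intro v x
      rw [pow_succ, Module.End.mul_apply, ih, pow_succ']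
      rfl
  have hfn : f ^ n = 1 := by
    refine LinearMap.ext fun v => funext fun x => ?_
    rw [hpow, pow_orderOf_eq_one]
    rfl
  have hss : f.IsSemisimple := by
    apply Module.End.isSemisimple_of_squarefree_aeval_eq_zero
      (p := (Polynomial.X ^ n - Polynomial.C 1 : Polynomial ℂ))
    · exact (Polynomial.separable_X_pow_sub_C 1 (by exact_mod_cast hn.ne') one_ne_zero).squarefree
    · simp [hfn]
  let dec := DirectSum.isInternal_submodule_of_iSupIndep_of_iSup_eq_top
    f.eigenspaces_iSupIndep hss.iSup_eigenspace_eq_top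
  let I := (ν : ℂ) × Fin (finrank ℂ (f.eigenspace ν))
  let v : Basis I ℂ (X → ℂ) := dec.collectedBasis fun μ ↦ finBasis ℂ (f.eigenspace μ)
  have hfv (i : I) : f (v i) = i.1 • v i :=
    mem_eigenspace_iff.mp (dec.collectedBasis_mem _ i)
  have hfvm (i : I) (m : ℕ) : (f ^ m) (v i) = i.1 ^ m • v i := by
    induction m with
    | zero => simp
    | succ m ih => rw [pow_succ', Module.End.mul_apply, ih, map_smul, hfv, smul_smul, pow_succ]
  have hμn (i : I) : i.1 ^ n = 1 := by
    have h1 := hfvm i n
    rw [hfn, Module.End.one_apply] at h1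
    have h2 : (i.1 ^ n - 1) • v i = 0 := by rw [sub_smul, ← h1, one_smul, sub_self]
    rcases smul_eq_zero.mp h2 with h | h
    · exact sub_eq_zero.mp h
    · exact absurd h (v.ne_zero i)
  have hnorm (i : I) : ‖i.1‖ = 1 := Complex.norm_eq_one_of_pow_eq_one (hμn i) hn.ne'
  let e : I ≃ X := v.indexEquiv (Pi.basisFun ℂ X)
  refine ⟨v.reindex e, fun a => lamOf (e.symm a).1, fun a => lamOf_mem _, ?_, ?_⟩
  · intro a x
    rw [Basis.reindex_apply, exp_lamOf (hnorm _)]
    exact congrFun (hfv (e.symm a)) x
  · have h1 : Nat.card {a // lamOf (e.symm a).1 = 0} = Nat.card {i : I // i.1 = 1} :=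
      Nat.card_congr (e.symm.subtypeEquiv (fun a => lamOf_eq_zero_iff (hnorm _)))
    have h2 : Nat.card {i : I // i.1 = 1} = finrank ℂ (f.eigenspace 1) := by
      rw [Nat.card_congr (Equiv.sigmaSubtype (β := fun ν : ℂ => Fin (finrank ℂ (f.eigenspace ν))) 1)]
      simp
    rw [h1, h2]
    exact finrank_eigenspace_one σ

end FAGenus
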