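import Mathlib

/-!
# Fixed points of elliptic elements on `SL(2,ℤ) ⧸ Γ₀(N)`

For `M = !![0,-1;1,t]` the fixed cosets are in bijection with the solutions of
`x² + t x + 1 = 0` in `ℤ/N`.
-/

open scoped MatrixGroups
open CongruenceSubgroup

namespace FAGenus

/-- lower-left entry of `g⁻¹ * h` -/
lemma inv_mul_one_zero (g h : SL(2, ℤ)) :
    (g⁻¹ * h) 1 0 = - g 1 0 * h 0 0 + g 0 0 * h 1 0 := by
  rw [Matrix.SpecialLinearGroup.coe_mul, Matrix.mul_apply, Fin.sum_univ_two,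
    Matrix.SpecialLinearGroup.SL2_inv_expl]
  simp

lemma det_eq (g : SL(2, ℤ)) : g 0 0 * g 1 1 - g 0 1 * g 1 0 = 1 := by
  have := g.det_coe
  rwa [Matrix.det_fin_two] at this

/-- the matrix `!![x,-1;1,0]` -/
def gmat (x : ℤ) : SL(2, ℤ) := ⟨!![x, -1; 1, 0], by simp [Matrix.det_fin_two_of]⟩

@[simp] lemma gmat_zero_zero (x : ℤ) : gmat x 0 0 = x := rfl
@[simp] lemma gmat_one_zero (x : ℤ) : gmat x 1 0 = 1 := rfl

lemma mk_eq_mk_iff (N : ℕ) (g h : SL(2, ℤ)) :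
    (g : SL(2, ℤ) ⧸ Gamma0 N) = h ↔
      ((- g 1 0 * h 0 0 + g 0 0 * h 1 0 : ℤ) : ZMod N) = 0 := by
  rw [QuotientGroup.eq, Gamma0_mem, inv_mul_one_zero]

variable (M : SL(2, ℤ)) (t : ℤ)

lemma mul_entries (h00 : M 0 0 = 0) (h01 : M 0 1 = -1) (h10 : M 1 0 = 1) (h11 : M 1 1 = t)
    (g : SL(2, ℤ)) : (M * g) 0 0 = - g 1 0 ∧ (M * g) 1 0 = g 0 0 + t * g 1 0 := by
  constructor
  · simp [Matrix.mul_apply, Fin.sum_univ_two, h00, h01]
  · simp [Matrix.mul_apply, Fin.sum_univ_two, h10, h11]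

lemma mem_fixedBy_iff (N : ℕ) (h00 : M 0 0 = 0) (h01 : M 0 1 = -1) (h10 : M 1 0 = 1)
    (h11 : M 1 1 = t) (g : SL(2, ℤ)) :
    (g : SL(2, ℤ) ⧸ Gamma0 N) ∈ MulAction.fixedBy (SL(2, ℤ) ⧸ Gamma0 N) M ↔
      ((g 0 0 ^ 2 + t * g 0 0 * g 1 0 + g 1 0 ^ 2 : ℤ) : ZMod N) = 0 := by
  rw [MulAction.mem_fixedBy, MulAction.Quotient.smul_coe, smul_eq_mul, eq_comm, mk_eq_mk_iff]
  obtain ⟨e1, e2⟩ := mul_entries M t h00 h01 h10 h11 g
  rw [e1, e2]
  have : - g 1 0 * - g 1 0 + g 0 0 * (g 0 0 + t * g 1 0) =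
      g 0 0 ^ 2 + t * g 0 0 * g 1 0 + g 1 0 ^ 2 := by ring
  rw [this]

theorem card_fixedBy_aux (N : ℕ) [NeZero N] (h00 : M 0 0 = 0) (h01 : M 0 1 = -1)
    (h10 : M 1 0 = 1) (h11 : M 1 1 = t) :
    Nat.card (MulAction.fixedBy (SL(2, ℤ) ⧸ Gamma0 N) M) =
      Nat.card {x : ZMod N // x ^ 2 + (t : ZMod N) * x + 1 = 0} := by
  symm
  refine Nat.card_congr (Equiv.ofBijective
    (fun x => ⟨(gmat (x.1.val : ℤ) : SL(2, ℤ) ⧸ Gamma0 N), ?_⟩) ⟨?_, ?_⟩)
  · rw [mem_fixedBy_iff M t N h00 h01 h10 h11]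
    have := x.2
    simp only [gmat_zero_zero, gmat_one_zero]
    push_cast
    rw [ZMod.natCast_zmod_val]
    linear_combination this
  · intro x y hxy
    have h := Subtype.ext_iff.mp hxy
    simp only at h
    rw [mk_eq_mk_iff] at h
    simp only [gmat_zero_zero, gmat_one_zero] at h
    push_cast at h
    rw [ZMod.natCast_zmod_val, ZMod.natCast_zmod_val] at h
    apply Subtype.ext
    linear_combination h
  · rintro ⟨q, hq⟩
    induction q using QuotientGroup.induction_on with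
    | H g =>
      rw [mem_fixedBy_iff M t N h00 h01 h10 h11] at hq
      push_cast at hq
      have hdet : ((g 0 0 : ℤ) : ZMod N) * (g 1 1 : ℤ) - (g 0 1 : ℤ) * (g 1 0 : ℤ) = 1 := by
        have := congrArg (Int.cast : ℤ → ZMod N) (det_eq g)
        push_cast at this
        exact this
      set a : ZMod N := ((g 0 0 : ℤ) : ZMod N) with ha
      set b : ZMod N := ((g 0 1 : ℤ) : ZMod N) with hb
      set c : ZMod N := ((g 1 0 : ℤ) : ZMod N) with hc
      set d : ZMod N := ((g 1 1 : ℤ) : ZMod N) with hd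
      set T : ZMod N := (t : ZMod N) with hT
      -- inverse of `c`
      set u : ZMod N := -((T * a + c) * d + a * b) * d - b with hu
      have hcu : c * u = 1 := by
        rw [hu]
        linear_combination (-d ^ 2) * hq + (1 + a * d) * hdet
      refine ⟨⟨a * u, ?_⟩, ?_⟩
      · linear_combination u ^ 2 * hq + (- (T * a * u) - 1 - c * u) * hcu
      · apply Subtype.ext
        simp only
        rw [mk_eq_mk_iff]
        simp only [gmat_zero_zero, gmat_one_zero]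
        push_cast
        rw [ZMod.natCast_zmod_val]
        linear_combination a * hcu

end FAGenus
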