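import Mathlib
import Fermat.Prelude.Def_ModularCurve_GenusNumerics
import Fermat.Agent.Genus.FixAux

/-!
# `[SL(2,ℤ) : Γ₀(N)] = ψ(N)`
Induction on `N`: `[Γ₀(N) : Γ₀(Np)] = p` if `p ∣ N` and `p + 1` otherwise.
-/

open scoped MatrixGroups
open CongruenceSubgroup

namespace FAGenus

lemma mem_Gamma0_iff_dvd (N : ℕ) (g : SL(2, ℤ)) : g ∈ Gamma0 N ↔ (N : ℤ) ∣ g 1 0 := by
  rw [Gamma0_mem, ZMod.intCast_zmod_eq_zero_iff_dvd]

lemma Gamma0_le_of_dvd {M N : ℕ} (h : M ∣ N) : Gamma0 N ≤ Gamma0 M := by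
  intro g hg
  rw [mem_Gamma0_iff_dvd] at hg ⊢
  exact (Int.natCast_dvd_natCast.mpr h).trans hg

/-- the matrix `!![1,0;c,1]` -/
def lmat (c : ℤ) : SL(2, ℤ) := ⟨!![1, 0; c, 1], by simp [Matrix.det_fin_two_of]⟩

@[simp] lemma lmat_zero_zero (c : ℤ) : lmat c 0 0 = 1 := rfl
@[simp] lemma lmat_one_zero (c : ℤ) : lmat c 1 0 = c := rfl

lemma lmat_mem (N : ℕ) (k : ℤ) : lmat (N * k) ∈ Gamma0 N := by
  rw [mem_Gamma0_iff_dvd]; exact ⟨k, rfl⟩

/-- criterion for equality of cosets in `Γ₀(N) ⧸ Γ₀(Np)` -/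
lemma rel_mk_eq_iff (N p : ℕ) (g h : Gamma0 N) :
    (g : Gamma0 N ⧸ (Gamma0 (N * p)).subgroupOf (Gamma0 N)) = h ↔
      ((N * p : ℕ) : ℤ) ∣ - (g : SL(2, ℤ)) 1 0 * (h : SL(2, ℤ)) 0 0
        + (g : SL(2, ℤ)) 0 0 * (h : SL(2, ℤ)) 1 0 := by
  rw [QuotientGroup.eq, Subgroup.mem_subgroupOf, mem_Gamma0_iff_dvd]
  have : ((g⁻¹ * h : Gamma0 N) : SL(2, ℤ)) = (g : SL(2, ℤ))⁻¹ * (h : SL(2, ℤ)) := rfl
  rw [this, inv_mul_one_zero]

lemma exists_k_of_coprime (N p : ℕ) (hN : N ≠ 0) (hp : p.Prime) (g : Gamma0 N)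
    (ha : ¬ (p : ℤ) ∣ (g : SL(2, ℤ)) 0 0) :
    ∃ k : ZMod p, ((⟨lmat (N * (k.val : ℤ)), lmat_mem N _⟩ : Gamma0 N) :
      Gamma0 N ⧸ (Gamma0 (N * p)).subgroupOf (Gamma0 N)) = g := by
  haveI : Fact p.Prime := ⟨hp⟩
  obtain ⟨c', hc'⟩ := (mem_Gamma0_iff_dvd N g).mp g.2
  set a := (g : SL(2, ℤ)) 0 0 with ha'
  have ha0 : ((a : ℤ) : ZMod p) ≠ 0 := by
    rwa [Ne, ZMod.intCast_zmod_eq_zero_iff_dvd]
  refine ⟨(c' : ZMod p) * ((a : ℤ) : ZMod p)⁻¹, ?_⟩
  rw [rel_mk_eq_iff]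
  simp only [lmat_zero_zero, lmat_one_zero]
  rw [hc', ← ha']
  have : -((N : ℤ) * ((((c' : ZMod p) * ((a : ℤ) : ZMod p)⁻¹).val : ℕ) : ℤ)) * a + 1 * ((N : ℤ) * c')
      = (N : ℤ) * (c' - ((((c' : ZMod p) * ((a : ℤ) : ZMod p)⁻¹).val : ℕ) : ℤ) * a) := by ring
  rw [this]
  push_cast
  apply mul_dvd_mul_left
  rw [← ZMod.intCast_zmod_eq_zero_iff_dvd]
  push_cast
  rw [ZMod.natCast_zmod_val]
  field_simp
  ring

lemma lmat_inj (N p : ℕ) (hN : N ≠ 0) (hp : p.Prime) (k l : ZMod p)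
    (h : ((⟨lmat (N * (k.val : ℤ)), lmat_mem N _⟩ : Gamma0 N) :
      Gamma0 N ⧸ (Gamma0 (N * p)).subgroupOf (Gamma0 N)) =
      (⟨lmat (N * (l.val : ℤ)), lmat_mem N _⟩ : Gamma0 N)) : k = l := by
  haveI : Fact p.Prime := ⟨hp⟩
  rw [rel_mk_eq_iff] at h
  simp only [lmat_zero_zero, lmat_one_zero] at h
  have e : -((N : ℤ) * (k.val : ℤ)) * 1 + 1 * ((N : ℤ) * (l.val : ℤ))
      = (N : ℤ) * ((l.val : ℤ) - (k.val : ℤ)) := by ring
  rw [e] at h
  push_cast at h
  have h2 := (mul_dvd_mul_iff_left (by exact_mod_cast hN : (N : ℤ) ≠ 0)).mp h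
  rw [← ZMod.intCast_zmod_eq_zero_iff_dvd] at h2
  push_cast at h2
  rw [ZMod.natCast_zmod_val, ZMod.natCast_zmod_val] at h2
  exact (sub_eq_zero.mp h2).symm

theorem relIndex_of_dvd (N p : ℕ) (hN : N ≠ 0) (hp : p.Prime) (hpN : p ∣ N) :
    (Gamma0 (N * p)).relIndex (Gamma0 N) = p := by
  haveI : Fact p.Prime := ⟨hp⟩
  rw [Subgroup.relIndex, Subgroup.index]
  refine (Nat.card_congr (Equiv.ofBijective
    (fun k : ZMod p => ((⟨lmat (N * (k.val : ℤ)), lmat_mem N _⟩ : Gamma0 N) :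
      Gamma0 N ⧸ (Gamma0 (N * p)).subgroupOf (Gamma0 N))) ⟨?_, ?_⟩)).symm.trans (Nat.card_zmod p)
  · intro k l h
    exact lmat_inj N p hN hp k l h
  · intro q
    induction q using QuotientGroup.induction_on with
    | H g =>
      apply exists_k_of_coprime N p hN hp g
      intro hdvd
      have hc : (p : ℤ) ∣ (g : SL(2, ℤ)) 1 0 :=
        (Int.natCast_dvd_natCast.mpr hpN).trans ((mem_Gamma0_iff_dvd N g).mp g.2)
      have hdet := det_eq (g : SL(2, ℤ))
      have : (p : ℤ) ∣ 1 := by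
        rw [← hdet]
        exact dvd_sub (hdvd.mul_right _) (hc.mul_left _)
      exact hp.one_lt.ne' (by exact_mod_cast Int.natAbs_dvd_natAbs.mpr this |> Nat.dvd_one.mp)

theorem relIndex_of_not_dvd (N p : ℕ) (hN : N ≠ 0) (hp : p.Prime) (hpN : ¬ p ∣ N) :
    (Gamma0 (N * p)).relIndex (Gamma0 N) = p + 1 := by
  haveI : Fact p.Prime := ⟨hp⟩
  -- the extra coset representative `!![p, b; N, d]`
  have hcop : IsCoprime (p : ℤ) (N : ℤ) := by
    rw [Nat.isCoprime_iff_coprime]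
    exact (Nat.Prime.coprime_iff_not_dvd hp).mpr hpN
  obtain ⟨d, b, hbd⟩ := hcop
  let ginf : SL(2, ℤ) := ⟨!![(p : ℤ), -b; (N : ℤ), d], by
    rw [Matrix.det_fin_two_of]; linarith⟩
  have hginf00 : ginf 0 0 = p := rfl
  have hginf10 : ginf 1 0 = N := rfl
  have hginf : ginf ∈ Gamma0 N := by
    rw [mem_Gamma0_iff_dvd, hginf10]
  rw [Subgroup.relIndex, Subgroup.index]
  have hcard : Nat.card (Option (ZMod p)) = p + 1 := by
    rw [Nat.card_eq_fintype_card, Fintype.card_option, ZMod.card]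
  refine (Nat.card_congr (Equiv.ofBijective
    (fun k : Option (ZMod p) => (k.elim (⟨ginf, hginf⟩ : Gamma0 N)
      (fun k => (⟨lmat (N * (k.val : ℤ)), lmat_mem N _⟩ : Gamma0 N)) :
      Gamma0 N ⧸ (Gamma0 (N * p)).subgroupOf (Gamma0 N))) ⟨?_, ?_⟩)).symm.trans hcard
  · have key : ∀ k : ZMod p, ((⟨lmat (N * (k.val : ℤ)), lmat_mem N _⟩ : Gamma0 N) :
        Gamma0 N ⧸ (Gamma0 (N * p)).subgroupOf (Gamma0 N)) ≠ (⟨ginf, hginf⟩ : Gamma0 N) := by
      intro k h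
      rw [rel_mk_eq_iff] at h
      simp only [lmat_zero_zero, lmat_one_zero, hginf00, hginf10] at h
      have e : -((N : ℤ) * (k.val : ℤ)) * (p : ℤ) + 1 * (N : ℤ)
          = (N : ℤ) * (1 - (k.val : ℤ) * p) := by ring
      rw [e] at h
      push_cast at h
      have h2 := (mul_dvd_mul_iff_left (by exact_mod_cast hN : (N : ℤ) ≠ 0)).mp h
      have h3 : (p : ℤ) ∣ 1 := by
        have := dvd_add h2 (Dvd.intro_left (k.val : ℤ) rfl : (p : ℤ) ∣ (k.val : ℤ) * p)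
        simpa using this
      exact hp.one_lt.ne' (by exact_mod_cast Int.natAbs_dvd_natAbs.mpr h3 |> Nat.dvd_one.mp)
    intro k l h
    rcases k with _ | k <;> rcases l with _ | l
    · rfl
    · exact absurd h.symm (key l)
    · exact absurd h (key k)
    · exact congrArg some (lmat_inj N p hN hp k l h)
  · intro q
    induction q using QuotientGroup.induction_on with
    | H g =>
      by_cases hdvd : (p : ℤ) ∣ (g : SL(2, ℤ)) 0 0
      · refine ⟨none, ?_⟩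
        simp only [Option.elim_none]
        rw [rel_mk_eq_iff]
        simp only [hginf00, hginf10]
        obtain ⟨c', hc'⟩ := (mem_Gamma0_iff_dvd N g).mp g.2
        obtain ⟨a', ha'⟩ := hdvd
        rw [hc', ha']
        refine ⟨c' - a', ?_⟩
        push_cast
        ring
      · obtain ⟨k, hk⟩ := exists_k_of_coprime N p hN hp g hdvd
        exact ⟨some k, hk⟩

open ModularCurve in
lemma dedekindPsi_mul_of_dvd (N p : ℕ) (hN : N ≠ 0) (hp : p.Prime) (hpN : p ∣ N) :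
    dedekindPsi (N * p) = p * dedekindPsi N := by
  unfold dedekindPsi
  have hset : (N * p).divisors.filter Squarefree = N.divisors.filter Squarefree := by
    ext d
    simp only [Finset.mem_filter, Nat.mem_divisors]
    constructor
    · rintro ⟨⟨hd, -⟩, hsq⟩
      refine ⟨⟨?_, hN⟩, hsq⟩
      have h2 : d ∣ N ^ 2 := by
        rw [pow_two]
        exact hd.trans (mul_dvd_mul_left N hpN)
      exact (hsq.dvd_pow_iff_dvd two_ne_zero).mp h2
    · rintro ⟨⟨hd, -⟩, hsq⟩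
      exact ⟨⟨hd.mul_right p, mul_ne_zero hN hp.ne_zero⟩, hsq⟩
  rw [hset, Finset.mul_sum]
  refine Finset.sum_congr rfl fun d hd => ?_
  simp only [Finset.mem_filter, Nat.mem_divisors] at hd
  rw [mul_comm N p, Nat.mul_div_assoc _ hd.1.1]

open ModularCurve in
lemma dedekindPsi_mul_of_not_dvd (N p : ℕ) (hN : N ≠ 0) (hp : p.Prime) (hpN : ¬ p ∣ N) :
    dedekindPsi (N * p) = (p + 1) * dedekindPsi N := by
  unfold dedekindPsi
  rw [← Finset.sum_filter_add_sum_filter_not ((N * p).divisors.filter Squarefree) (fun d => p ∣ d)]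
  have h1 : ∑ d ∈ ((N * p).divisors.filter Squarefree).filter (fun d => p ∣ d), N * p / d
      = ∑ d ∈ N.divisors.filter Squarefree, N / d := by
    symm
    refine Finset.sum_bij (fun d _ => d * p) ?_ ?_ ?_ ?_
    · intro d hd
      simp only [Finset.mem_filter, Nat.mem_divisors] at hd ⊢
      refine ⟨⟨⟨mul_dvd_mul_right hd.1.1 p, mul_ne_zero hN hp.ne_zero⟩, ?_⟩, Dvd.intro_left d rfl⟩
      rw [Nat.squarefree_mul_iff]
      refine ⟨?_, hd.2, hp.squarefree⟩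
      exact (Nat.Coprime.symm ((Nat.Prime.coprime_iff_not_dvd hp).mpr
        fun h => hpN (h.trans hd.1.1)))
    · intro a _ b _ h
      exact Nat.eq_of_mul_eq_mul_right hp.pos h
    · intro d hd
      simp only [Finset.mem_filter, Nat.mem_divisors] at hd
      obtain ⟨⟨⟨hd1, -⟩, hsq⟩, d', rfl⟩ := hd
      refine ⟨d', ?_, mul_comm _ _⟩
      simp only [Finset.mem_filter, Nat.mem_divisors]
      refine ⟨⟨?_, hN⟩, (Nat.squarefree_mul_iff.mp hsq).2.2⟩
      rw [mul_comm N p] at hd1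
      exact Nat.dvd_of_mul_dvd_mul_left hp.pos hd1
    · intro d _
      rw [Nat.mul_div_mul_right _ _ hp.pos]
  have h2 : ∑ d ∈ ((N * p).divisors.filter Squarefree).filter (fun d => ¬ p ∣ d), N * p / d
      = p * ∑ d ∈ N.divisors.filter Squarefree, N / d := by
    have hset : ((N * p).divisors.filter Squarefree).filter (fun d => ¬ p ∣ d)
        = N.divisors.filter Squarefree := by
      ext d
      simp only [Finset.mem_filter, Nat.mem_divisors]
      constructor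
      · rintro ⟨⟨⟨hd, -⟩, hsq⟩, hpd⟩
        refine ⟨⟨?_, hN⟩, hsq⟩
        exact Nat.Coprime.dvd_of_dvd_mul_right
          (Nat.Coprime.symm ((Nat.Prime.coprime_iff_not_dvd hp).mpr hpd)) hd
      · rintro ⟨⟨hd, -⟩, hsq⟩
        exact ⟨⟨⟨hd.mul_right p, mul_ne_zero hN hp.ne_zero⟩, hsq⟩, fun h => hpN (h.trans hd)⟩
    rw [hset, Finset.mul_sum]
    refine Finset.sum_congr rfl fun d hd => ?_
    simp only [Finset.mem_filter, Nat.mem_divisors] at hd
    rw [mul_comm N p, Nat.mul_div_assoc _ hd.1.1]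
  rw [h1, h2]
  ring

theorem index_Gamma0 (N : ℕ) (hN : N ≠ 0) : (Gamma0 N).index = ModularCurve.dedekindPsi N := by
  induction N using Nat.strong_induction_on with
  | _ N ih =>
    by_cases h1 : N = 1
    · subst h1
      rw [ModularCurve.dedekindPsi_one]
      have : Gamma0 1 = ⊤ := by
        ext g
        rw [mem_Gamma0_iff_dvd]
        simp
      rw [this, Subgroup.index_top]
    · obtain ⟨M, hM⟩ := Nat.minFac_dvd N
      have hp : (Nat.minFac N).Prime := Nat.minFac_prime h1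
      set p := Nat.minFac N with hpdef
      have hM0 : M ≠ 0 := by
        rintro rfl
        exact hN (by rw [hM, mul_zero])
      have hlt : M < N := by
        rw [hM]
        exact lt_mul_of_one_lt_left (Nat.pos_of_ne_zero hM0) hp.one_lt
      have hNM : N = M * p := by rw [hM, mul_comm]
      have hrel := Subgroup.relIndex_mul_index
        (Gamma0_le_of_dvd (Dvd.intro p rfl : M ∣ M * p))
      rw [hNM, ← hrel, ih M hlt hM0]
      by_cases hpM : p ∣ M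
      · rw [relIndex_of_dvd M p hM0 hp hpM, dedekindPsi_mul_of_dvd M p hM0 hp hpM]
      · rw [relIndex_of_not_dvd M p hM0 hp hpM, dedekindPsi_mul_of_not_dvd M p hM0 hp hpM]

theorem card_coset (N : ℕ) [NeZero N] :
    Nat.card (SL(2, ℤ) ⧸ Gamma0 N) = ModularCurve.dedekindPsi N :=
  index_Gamma0 N (NeZero.ne N)

end FAGenus
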