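import Fermat.Agent.Genus.FixAux
import Fermat.Prelude.Def_ModularCurve_GenusNumerics

open scoped MatrixGroups
open CongruenceSubgroup

namespace FAGenus

/-- G-A2 -/
theorem card_fixedBy_S (N : ℕ) [NeZero N] :
    Nat.card (MulAction.fixedBy (SL(2, ℤ) ⧸ Gamma0 N) ModularGroup.S) = ModularCurve.nuTwo N := by
  rw [card_fixedBy_aux ModularGroup.S 0 N (by simp [ModularGroup.S]) (by simp [ModularGroup.S])
    (by simp [ModularGroup.S]) (by simp [ModularGroup.S]), ModularCurve.nuTwo]
  simp

end FAGenus
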