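import Fermat.Agent.Genus.FixAux
import Fermat.Prelude.Def_ModularCurve_GenusNumerics

open scoped MatrixGroups
open CongruenceSubgroup

namespace FAGenus

/-- G-A3 -/
theorem card_fixedBy_ST (N : ℕ) [NeZero N] :
    Nat.card (MulAction.fixedBy (SL(2, ℤ) ⧸ Gamma0 N) (ModularGroup.S * ModularGroup.T))
      = ModularCurve.nuThree N := by
  rw [card_fixedBy_aux (ModularGroup.S * ModularGroup.T) 1 N
    (by simp [ModularGroup.S, ModularGroup.T, Matrix.mul_apply, Fin.sum_univ_two])
    (by simp [ModularGroup.S, ModularGroup.T, Matrix.mul_apply, Fin.sum_univ_two])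
    (by simp [ModularGroup.S, ModularGroup.T, Matrix.mul_apply, Fin.sum_univ_two])
    (by simp [ModularGroup.S, ModularGroup.T, Matrix.mul_apply, Fin.sum_univ_two]),
    ModularCurve.nuThree]
  simp

end FAGenus
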