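import Mathlib
import Fermat.Prelude.Def_ModularCurve_GenusNumerics
import Fermat.Agent.Genus.FixAux

/-!
# The number of `T`-orbits on `SL(2,ℤ) ⧸ Γ₀(N)` is the number of cusps of `Γ₀(N)`
-/

open scoped MatrixGroups
open CongruenceSubgroup

namespace FAGenus

lemma T_zpow_mul_entries (k : ℤ) (g : SL(2, ℤ)) :
    (ModularGroup.T ^ k * g) 0 0 = g 0 0 + k * g 1 0 ∧
      (ModularGroup.T ^ k * g) 1 0 = g 1 0 := by
  constructor <;>
    simp [Matrix.mul_apply, Fin.sum_univ_two, ModularGroup.coe_T_zpow]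

/-- the type of `T`-orbits -/
abbrev OrbT (N : ℕ) : Type :=
  MulAction.orbitRel.Quotient (Subgroup.zpowers ModularGroup.T) (SL(2, ℤ) ⧸ Gamma0 N)

/-- the orbit of a matrix -/
def orbMk (N : ℕ) (g : SL(2, ℤ)) : OrbT N := Quotient.mk'' (g : SL(2, ℤ) ⧸ Gamma0 N)

lemma orbMk_eq_iff (N : ℕ) (g h : SL(2, ℤ)) :
    orbMk N g = orbMk N h ↔
      ∃ k : ℤ, (N : ℤ) ∣ (h 0 0 + k * h 1 0) * g 1 0 - h 1 0 * g 0 0 := by
  unfold orbMk
  rw [Quotient.eq'', MulAction.orbitRel_apply, MulAction.mem_orbit_iff]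
  constructor
  · rintro ⟨⟨t, ht⟩, hk⟩
    obtain ⟨k, rfl⟩ := Subgroup.mem_zpowers_iff.mp ht
    refine ⟨k, ?_⟩
    have hk' : ((ModularGroup.T ^ k * h : SL(2, ℤ)) : SL(2, ℤ) ⧸ Gamma0 N) = g := hk
    rw [mk_eq_mk_iff, ZMod.intCast_zmod_eq_zero_iff_dvd] at hk'
    obtain ⟨e1, e2⟩ := T_zpow_mul_entries k h
    rw [e1, e2] at hk'
    convert hk' using 1
    ring
  · rintro ⟨k, hk⟩
    refine ⟨⟨ModularGroup.T ^ k, Subgroup.mem_zpowers_iff.mpr ⟨k, rfl⟩⟩, ?_⟩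
    show ((ModularGroup.T ^ k * h : SL(2, ℤ)) : SL(2, ℤ) ⧸ Gamma0 N) = g
    rw [mk_eq_mk_iff, ZMod.intCast_zmod_eq_zero_iff_dvd]
    obtain ⟨e1, e2⟩ := T_zpow_mul_entries k h
    rw [e1, e2]
    convert hk using 1
    ring

lemma exists_mat (a c : ℤ) (h : IsCoprime a c) : ∃ g : SL(2, ℤ), g 0 0 = a ∧ g 1 0 = c := by
  obtain ⟨u, v, huv⟩ := h
  exact ⟨⟨!![a, -v; c, u], by rw [Matrix.det_fin_two_of]; linarith⟩, rfl, rfl⟩

lemma isCoprime_col (g : SL(2, ℤ)) : IsCoprime (g 0 0) (g 1 0) :=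
  ⟨g 1 1, - g 0 1, by have := det_eq g; linarith⟩

/-- lifting a unit mod `e ∣ d` to an integer prime to `d` -/
lemma exists_lift (d e : ℕ) (hd : d ≠ 0) (he : e ∣ d) (r : (ZMod e)ˣ) :
    ∃ a : ℤ, IsCoprime a (d : ℤ) ∧ ((a : ℤ) : ZMod e) = r := by
  haveI : NeZero d := ⟨hd⟩
  obtain ⟨u, rfl⟩ := ZMod.unitsMap_surjective he r
  refine ⟨((u : ZMod d).val : ℤ), ?_, ?_⟩
  · rw [Nat.isCoprime_iff_coprime]
    exact ZMod.val_coe_unit_coprime u
  · rw [ZMod.unitsMap_val, Int.cast_natCast, ZMod.natCast_val]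

lemma solve_lin (d m c' y e s t : ℤ) (he : e = d * s + m * t) (hc : IsCoprime c' m)
    (hy : e ∣ y) : ∃ k : ℤ, m ∣ y + k * d * c' := by
  obtain ⟨u, v, huv⟩ := hc
  obtain ⟨y', rfl⟩ := hy
  refine ⟨- y' * s * u, y' * (t + s * d * v), ?_⟩
  have : u * c' = 1 - v * m := by linarith
  calc e * y' + -y' * s * u * d * c' = e * y' - y' * s * d * (u * c') := by ring
    _ = m * (y' * (t + s * d * v)) := by rw [this, he]; ring

lemma isUnit_intCast_of_isCoprime (e : ℕ) (a : ℤ) (h : IsCoprime a (e : ℤ)) :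
    IsUnit ((a : ℤ) : ZMod e) := by
  obtain ⟨u, v, huv⟩ := h
  have := congrArg (Int.cast : ℤ → ZMod e) huv
  push_cast at this
  rw [ZMod.natCast_self, mul_zero, add_zero] at this
  exact IsUnit.of_mul_eq_one _ (by rw [mul_comm]; exact this)

/-- index set of the cusps -/
abbrev Idx (N : ℕ) : Type := (d : N.divisors) × (ZMod (Nat.gcd d (N / d)))ˣ

lemma card_Idx (N : ℕ) : Nat.card (Idx N) = ModularCurve.cuspCount N := by
  haveI : ∀ d : N.divisors, NeZero (Nat.gcd d (N / d)) := fun d =>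
    ⟨Nat.gcd_ne_zero_left (Nat.pos_of_mem_divisors d.2).ne'⟩
  rw [Nat.card_sigma, ModularCurve.cuspCount,
    ← Finset.sum_coe_sort N.divisors (fun d => Nat.totient (Nat.gcd d (N / d)))]
  refine Finset.sum_congr rfl fun d _ => ?_
  rw [Nat.card_eq_fintype_card, ZMod.card_units_eq_totient]

theorem card_orbits_T (N : ℕ) [NeZero N] :
    Nat.card (MulAction.orbitRel.Quotient (Subgroup.zpowers ModularGroup.T)
      (SL(2, ℤ) ⧸ Gamma0 N)) = ModularCurve.cuspCount N := by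
  have hN : N ≠ 0 := NeZero.ne N
  have hex : ∀ x : Idx N, ∃ g : SL(2, ℤ), g 1 0 = ((x.1 : ℕ) : ℤ) ∧
      ((g 0 0 : ℤ) : ZMod (Nat.gcd x.1 (N / x.1))) = x.2 := by
    intro x
    obtain ⟨a, ha, har⟩ := exists_lift x.1 (Nat.gcd x.1 (N / x.1))
      (Nat.pos_of_mem_divisors x.1.2).ne' (Nat.gcd_dvd_left _ _) x.2
    obtain ⟨g, h0, h1⟩ := exists_mat a _ ha
    exact ⟨g, h1, by rw [h0, har]⟩
  choose f hf1 hf0 using hex
  rw [← card_Idx N]
  symm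
  refine Nat.card_congr (Equiv.ofBijective (fun x => orbMk N (f x)) ⟨?_, ?_⟩)
  · rintro ⟨⟨d₁, hd₁⟩, r₁⟩ ⟨⟨d₂, hd₂⟩, r₂⟩ h
    simp only at h
    rw [orbMk_eq_iff] at h
    obtain ⟨k, hk⟩ := h
    have e1 := hf1 ⟨⟨d₁, hd₁⟩, r₁⟩
    have e2 := hf1 ⟨⟨d₂, hd₂⟩, r₂⟩
    have c1 := isCoprime_col (f ⟨⟨d₁, hd₁⟩, r₁⟩)
    have c2 := isCoprime_col (f ⟨⟨d₂, hd₂⟩, r₂⟩)
    have a1 := hf0 ⟨⟨d₁, hd₁⟩, r₁⟩
    have a2 := hf0 ⟨⟨d₂, hd₂⟩, r₂⟩
    simp only at e1 e2 a1 a2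
    rw [e1, e2] at hk
    rw [e1] at c1
    rw [e2] at c2
    set A₁ := (f ⟨⟨d₁, hd₁⟩, r₁⟩) 0 0 with hA₁
    set A₂ := (f ⟨⟨d₂, hd₂⟩, r₂⟩) 0 0 with hA₂
    have hd₁N : (d₁ : ℤ) ∣ N := Int.natCast_dvd_natCast.mpr (Nat.dvd_of_mem_divisors hd₁)
    have hd₂N : (d₂ : ℤ) ∣ N := Int.natCast_dvd_natCast.mpr (Nat.dvd_of_mem_divisors hd₂)
    have h12 : (d₁ : ℤ) ∣ d₂ := by
      have h := hd₁N.trans hk
      have h' : (d₁ : ℤ) ∣ (d₂ : ℤ) * A₁ := by
        have := dvd_sub (Dvd.intro_left (A₂ + k * d₂) rfl : (d₁ : ℤ) ∣ (A₂ + k * d₂) * d₁) h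
        simpa using this
      exact c1.symm.dvd_of_dvd_mul_right h'
    have h21 : (d₂ : ℤ) ∣ d₁ := by
      have h := hd₂N.trans hk
      have h' : (d₂ : ℤ) ∣ A₂ * (d₁ : ℤ) := by
        have h3 : (d₂ : ℤ) ∣ (d₂ : ℤ) * A₁ - k * d₂ * d₁ :=
          dvd_sub (Dvd.intro _ rfl) ⟨k * d₁, by ring⟩
        have := dvd_add h h3
        have e : (A₂ + k * ↑d₂) * ↑d₁ - ↑d₂ * A₁ + (↑d₂ * A₁ - k * ↑d₂ * ↑d₁) = A₂ * (d₁ : ℤ) := by
          ring
        rwa [e] at this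
      exact c2.symm.dvd_of_dvd_mul_left h'
    have hdd : d₁ = d₂ := Nat.dvd_antisymm (Int.natCast_dvd_natCast.mp h12)
      (Int.natCast_dvd_natCast.mp h21)
    subst hdd
    congr 1
    apply Units.ext
    rw [← a1, ← a2, ZMod.intCast_eq_intCast_iff_dvd_sub]
    have hNd : (N : ℤ) = (d₁ : ℤ) * ((N / d₁ : ℕ) : ℤ) := by
      exact_mod_cast (Nat.mul_div_cancel' (Nat.dvd_of_mem_divisors hd₁)).symm
    have hd0 : (d₁ : ℤ) ≠ 0 := by exact_mod_cast (Nat.pos_of_mem_divisors hd₁).ne'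
    have hm : ((N / d₁ : ℕ) : ℤ) ∣ A₂ + k * d₁ - A₁ := by
      have e : (A₂ + k * ↑d₁) * ↑d₁ - ↑d₁ * A₁ = (d₁ : ℤ) * (A₂ + k * d₁ - A₁) := by ring
      rw [e, hNd] at hk
      exact (mul_dvd_mul_iff_left hd0).mp hk
    have he1 : ((Nat.gcd d₁ (N / d₁) : ℕ) : ℤ) ∣ A₂ + k * d₁ - A₁ :=
      (Int.natCast_dvd_natCast.mpr (Nat.gcd_dvd_right _ _)).trans hm
    have he2 : ((Nat.gcd d₁ (N / d₁) : ℕ) : ℤ) ∣ k * d₁ :=
      (Int.natCast_dvd_natCast.mpr (Nat.gcd_dvd_left _ _)).mul_left k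
    have := dvd_sub he1 he2
    have e : A₂ + k * ↑d₁ - A₁ - k * ↑d₁ = A₂ - A₁ := by ring
    rwa [e] at this
  · intro q
    induction q using Quotient.inductionOn' with
    | h q =>
    induction q using QuotientGroup.induction_on with
    | H g =>
      set a := g 0 0 with ha
      set c := g 1 0 with hc
      have hcop : IsCoprime a c := isCoprime_col g
      have hpos : 0 < Int.gcd c N := Int.gcd_pos_of_ne_zero_right _ (by exact_mod_cast hN)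
      obtain ⟨c', m', hcm, hc', hm'⟩ := Int.exists_gcd_one hpos
      set d := Int.gcd c N with hd
      have hdN : d ∣ N := by
        have := Int.gcd_dvd_right c (N : ℤ)
        exact Int.natCast_dvd_natCast.mp this
      have hdmem : d ∈ N.divisors := Nat.mem_divisors.mpr ⟨hdN, hN⟩
      have hd0 : (d : ℤ) ≠ 0 := by exact_mod_cast hpos.ne'
      have hNd : (N : ℤ) = (d : ℤ) * ((N / d : ℕ) : ℤ) := by
        exact_mod_cast (Nat.mul_div_cancel' hdN).symm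
      have hmm : m' = ((N / d : ℕ) : ℤ) := by
        have : (d : ℤ) * m' = (d : ℤ) * ((N / d : ℕ) : ℤ) := by rw [← hNd, hm']; ring
        exact mul_left_cancel₀ hd0 this
      set m := N / d with hm
      set e := Nat.gcd d m with he
      have hcm' : IsCoprime c' (m : ℤ) := by
        rw [← hmm]; exact Int.isCoprime_iff_gcd_eq_one.mpr hcm
      have hed : (e : ℤ) ∣ d := Int.natCast_dvd_natCast.mpr (Nat.gcd_dvd_left _ _)
      have hem : (e : ℤ) ∣ m := Int.natCast_dvd_natCast.mpr (Nat.gcd_dvd_right _ _)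
      have huc : IsUnit ((c' : ℤ) : ZMod e) :=
        isUnit_intCast_of_isCoprime e c' (hcm'.of_isCoprime_of_dvd_right hem)
      have hua : IsUnit ((a : ℤ) : ZMod e) := by
        apply isUnit_intCast_of_isCoprime e a
        apply hcop.of_isCoprime_of_dvd_right
        rw [hc']
        exact hed.mul_left c'
      refine ⟨⟨⟨d, hdmem⟩, hua.unit * huc.unit⁻¹⟩, ?_⟩
      show orbMk N (f ⟨⟨d, hdmem⟩, hua.unit * huc.unit⁻¹⟩) = orbMk N g
      rw [orbMk_eq_iff]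
      have e1 := hf1 ⟨⟨d, hdmem⟩, hua.unit * huc.unit⁻¹⟩
      have a1 := hf0 ⟨⟨d, hdmem⟩, hua.unit * huc.unit⁻¹⟩
      simp only at e1 a1
      set A := (f ⟨⟨d, hdmem⟩, hua.unit * huc.unit⁻¹⟩) 0 0 with hA
      rw [e1, ← ha, ← hc]
      have hy : (e : ℤ) ∣ a - c' * A := by
        rw [← ZMod.intCast_zmod_eq_zero_iff_dvd]
        push_cast
        rw [a1]
        push_cast
        have h1 : ((c' : ℤ) : ZMod e) * ((huc.unit⁻¹ : (ZMod e)ˣ) : ZMod e) = 1 := by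
          have := huc.unit.mul_inv
          rwa [IsUnit.unit_spec] at this
        have h2 : ((hua.unit : (ZMod e)ˣ) : ZMod e) = ((a : ℤ) : ZMod e) := IsUnit.unit_spec _
        rw [h2]
        linear_combination (-((a : ℤ) : ZMod e)) * h1
      obtain ⟨k, hk⟩ := solve_lin d m c' (a - c' * A) e (Nat.gcdA d m) (Nat.gcdB d m)
        (Nat.gcd_eq_gcd_ab d m) hcm' hy
      refine ⟨k, ?_⟩
      rw [hNd, hc']
      have e3 : (a + k * (c' * ↑d)) * ↑d - c' * ↑d * A = (d : ℤ) * (a - c' * A + k * d * c') := by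
        ring
      rw [e3]
      exact mul_dvd_mul_left _ hk

end FAGenus
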