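import Fermat.Agent.Genus.Bridge

/-! The dimension formula. -/

open UpperHalfPlane ModularForm Matrix.SpecialLinearGroup OnePoint CongruenceSubgroup Function
  Filter Topology
open scoped Manifold MatrixGroups ModularForm Real

namespace FAGenus

open FA_IS

variable {N : ℕ} [NeZero N] (B : FreeBasis N)

/-- number of generators of weight `2t` -/
noncomputable def FreeBasis.cnt (t : ℕ) : ℕ :=
  (Finset.univ.filter fun j => B.κ j = 2 * (t : ℤ)).card

lemma FreeBasis.sum_by_weight {M : Type*} [AddCommMonoid M] (φ : ℤ → M) :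
    ∑ j, φ (B.κ j) = ∑ t ∈ Finset.range 6, B.cnt t • φ (2 * (t : ℤ)) := by
  classical
  have hmaps : ∀ j ∈ (Finset.univ : Finset (Q (GG N))), (B.κ j / 2).toNat ∈ Finset.range 6 := by
    intro j _
    have h1 := B.κ_nonneg j
    have h2 := B.κ_le j
    rw [Finset.mem_range]
    omega
  rw [← Finset.sum_fiberwise_of_maps_to hmaps]
  refine Finset.sum_congr rfl fun t _ => ?_
  have hfil : (Finset.univ.filter fun j => (B.κ j / 2).toNat = t)
      = Finset.univ.filter fun j => B.κ j = 2 * (t : ℤ) := by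
    ext j
    simp only [Finset.mem_filter, Finset.mem_univ, true_and]
    have h1 := B.κ_nonneg j
    obtain ⟨s, hs⟩ := B.even j
    constructor <;> intro h <;> omega
  rw [hfil, FreeBasis.cnt, ← Finset.sum_const]
  refine Finset.sum_congr rfl fun j hj => ?_
  rw [(Finset.mem_filter.mp hj).2]

lemma finrank_M_zero : Module.finrank ℂ (MFfun (GG N) 0) = 1 := by
  have h : MFfun (GG N) 0 = Submodule.span ℂ {(1 : ℍ → ℂ)} := by
    apply le_antisymm
    · rintro _ ⟨f, rfl⟩
      obtain ⟨c, hc⟩ := ModularForm.eq_const_of_weight_zero f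
      rw [Submodule.mem_span_singleton]
      refine ⟨c, ?_⟩
      rw [hc]
      funext z
      simp
    · rw [Submodule.span_singleton_le_iff_mem]
      exact ⟨1, rfl⟩
  rw [h, finrank_span_singleton]
  intro h0
  have := congrFun h0 I
  simp at this

lemma I_zpow (t : ℕ) : Complex.I ^ (-(2 * (t : ℤ))) = (-1) ^ t := by
  rw [zpow_neg, zpow_mul]
  have : (Complex.I ^ (2 : ℤ)) = -1 := by
    rw [show (2 : ℤ) = ((2 : ℕ) : ℤ) from rfl, zpow_natCast, Complex.I_sq]
  rw [this, zpow_natCast, ← inv_pow]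
  norm_num

lemma eps_zpow (t : ℕ) : eps ^ (-(2 * (t : ℤ))) = (-eps) ^ t := by
  rw [zpow_neg, zpow_mul]
  have h2 : (eps ^ (2 : ℤ)) = eps - 1 := by
    rw [show (2 : ℤ) = ((2 : ℕ) : ℤ) from rfl, zpow_natCast, eps_sq]
  rw [h2, zpow_natCast, ← inv_pow]
  congr 1
  have h := eps_sq
  have h0 : eps - 1 ≠ 0 := by
    rw [← h]
    exact pow_ne_zero 2 eps_ne_zero
  rw [inv_eq_iff_eq_inv, eq_comm, inv_eq_iff_eq_inv, eq_comm]
  field_simp
  linear_combination h

theorem finrank_cusp_two (N : ℕ) [NeZero N] :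
    (Module.finrank ℂ (CuspForm (GG N) 2) : ℚ) = ModularCurve.genusFormula N := by
  obtain ⟨B⟩ := exists_freeBasis N
  obtain ⟨ED, hED⟩ := exists_eigenData_card N
  set a0 := B.cnt 0 with ha0
  set a1 := B.cnt 1 with ha1
  set a2 := B.cnt 2 with ha2
  set a3 := B.cnt 3 with ha3
  set a4 := B.cnt 4 with ha4
  set a5 := B.cnt 5 with ha5
  -- E1
  have E1 : a0 + a1 + a2 + a3 + a4 + a5 = ModularCurve.dedekindPsi N := by
    have := B.sum_by_weight (fun _ => (1 : ℕ))
    simp only [Finset.sum_const, Finset.card_univ, smul_eq_mul, mul_one, Finset.sum_range_succ,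
      Finset.sum_range_zero, zero_add] at this
    rw [card_Q] at this
    omega
  -- E2
  have E2 : a0 = 1 := by
    have h1 := B.finrank_M 0
    rw [finrank_M_zero, B.sum_by_weight (fun m => rk (0 - m))] at h1
    simp only [Finset.sum_range_succ, Finset.sum_range_zero, zero_add, smul_eq_mul] at h1
    norm_num at h1
    rw [rk_0, rk_neg (by norm_num), rk_neg (by norm_num), rk_neg (by norm_num),
      rk_neg (by norm_num), rk_neg (by norm_num)] at h1
    omega
  -- E6
  have E6 : Module.finrank ℂ (CuspForm (GG N) 2) = a5 := by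
    rw [← finrank_SFfun, B.finrank_S 2, B.sum_by_weight (fun m => rk (2 - (12 - m)))]
    simp only [Finset.sum_range_succ, Finset.sum_range_zero, zero_add, smul_eq_mul]
    norm_num
    rw [rk_0, rk_neg (by norm_num), rk_neg (by norm_num), rk_neg (by norm_num),
      rk_neg (by norm_num), rk_neg (by norm_num)]
    omega
  -- E5
  have E5 : a0 + a1 = a5 + ModularCurve.cuspCount N := by
    have h1 := B.finrank_M_eq ED 14 (by decide) le_rfl
    rw [hED, B.sum_by_weight (fun m => rk (14 - m)),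
      B.sum_by_weight (fun m => rk (14 - (12 - m)))] at h1
    simp only [Finset.sum_range_succ, Finset.sum_range_zero, zero_add, smul_eq_mul] at h1
    norm_num at h1
    rw [rk_14, rk_12, rk_10, rk_8, rk_6, rk_4, rk_2] at h1
    omega
  -- E3
  have E3 : (a0 : ℚ) - a1 + a2 - a3 + a4 - a5 = ModularCurve.nuTwo N := by
    have h1 := B.trace_S
    rw [card_fix_S, B.sum_by_weight (fun m => Complex.I ^ (-m))] at h1
    simp only [I_zpow, Finset.sum_range_succ, Finset.sum_range_zero, zero_add, nsmul_eq_mul] at h1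
    have h2 : ((a0 : ℂ) - a1 + a2 - a3 + a4 - a5) = (ModularCurve.nuTwo N : ℂ) := by
      rw [← h1]
      ring
    have h3 : (((a0 : ℚ) - a1 + a2 - a3 + a4 - a5 : ℚ) : ℂ) = ((ModularCurve.nuTwo N : ℚ) : ℂ) := by
      push_cast
      exact h2
    exact_mod_cast h3
  -- E4
  have h4 := B.trace_ST
  rw [card_fix_ST, B.sum_by_weight (fun m => eps ^ (-m))] at h4
  simp only [eps_zpow, Finset.sum_range_succ, Finset.sum_range_zero, zero_add, nsmul_eq_mul] at h4
  have hsq := eps_sq
  have h5 : ((a0 : ℂ) + a3) - eps * ((a1 : ℂ) + a4) + (eps - 1) * ((a2 : ℂ) + a5)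
      = (ModularCurve.nuThree N : ℂ) := by
    rw [← h4]
    have e3 : eps ^ 3 = -1 := by
      linear_combination (eps + 1) * hsq
    have e4 : eps ^ 4 = -eps := by
      linear_combination eps * e3
    have e5 : eps ^ 5 = -(eps - 1) := by
      linear_combination eps ^ 2 * e3 - hsq
    linear_combination (-(a2 : ℂ)) * hsq + (a3 : ℂ) * e3 - (a4 : ℂ) * e4 + (a5 : ℂ) * e5
  have hre : eps.re = 1 / 2 := by simp [eps]
  have him : eps.im = Real.sqrt 3 / 2 := by simp [eps]
  have him0 : eps.im ≠ 0 := by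
    rw [him]
    positivity
  have hIm := congrArg Complex.im h5
  have hRe := congrArg Complex.re h5
  simp only [Complex.add_im, Complex.sub_im, Complex.mul_im, Complex.natCast_im, Complex.natCast_re,
    Complex.add_re, Complex.sub_re, Complex.mul_re, Complex.one_im, Complex.one_re] at hIm hRe
  have hIm' : eps.im * (((a2 : ℝ) + a5) - ((a1 : ℝ) + a4)) = 0 := by
    linear_combination hIm
  have E4a : ((a2 : ℝ) + a5) = ((a1 : ℝ) + a4) := by
    have := (mul_eq_zero.mp hIm').resolve_left him0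
    linarith
  have E4a' : a2 + a5 = a1 + a4 := by exact_mod_cast E4a
  rw [hre] at hRe
  have E4b : ((a0 : ℝ) + a3) - (1 / 2) * ((a1 : ℝ) + a4) - (1 / 2) * ((a2 : ℝ) + a5)
      = ModularCurve.nuThree N := by
    linear_combination hRe
  have E4b' : ((a0 : ℚ) + a3) - (1 / 2) * ((a1 : ℚ) + a4) - (1 / 2) * ((a2 : ℚ) + a5)
      = ModularCurve.nuThree N := by
    have : ((((a0 : ℚ) + a3) - (1 / 2) * ((a1 : ℚ) + a4) - (1 / 2) * ((a2 : ℚ) + a5) : ℚ) : ℝ)
        = ((ModularCurve.nuThree N : ℚ) : ℝ) := by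
      push_cast
      exact E4b
    exact_mod_cast this
  rw [E6, ModularCurve.genusFormula]
  have E1' : (a0 : ℚ) + a1 + a2 + a3 + a4 + a5 = ModularCurve.dedekindPsi N := by exact_mod_cast E1
  have E2' : (a0 : ℚ) = 1 := by exact_mod_cast E2
  have E5' : (a0 : ℚ) + a1 = a5 + ModularCurve.cuspCount N := by exact_mod_cast E5
  have E4a'' : (a2 : ℚ) + a5 = a1 + a4 := by exact_mod_cast E4a'
  rw [← E1', ← E3, ← E4b']
  linarith

end FAGenus
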