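import Fermat.Agent.Genus.Rank

/-! Existence of a free basis indexed by the cosets. -/

open UpperHalfPlane ModularForm Matrix.SpecialLinearGroup OnePoint CongruenceSubgroup Function
  Filter Topology EisensteinSeries Derivative SlashInvariantForm
open scoped Manifold MatrixGroups ModularForm Real

namespace FAGenus

open FA_IS

local notation "Δ" => ModularForm.discriminant

variable (N : ℕ) [NeZero N]

/-- a homogeneous free basis of `M_*(Γ₀(N))` over `M_*(SL₂(ℤ))`, indexed by the cosets. -/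
structure FreeBasis where
  κ : Q (GG N) → ℤ
  F : ∀ j, ModularForm (GG N) (κ j)
  gen : Gen κ F
  ind : Ind κ F
  even : ∀ j, Even (κ j)

lemma neg_one_mem_GG : (-1 : GL (Fin 2) ℝ) ∈ GG N := by
  refine ⟨-1, ?_, by ext; simp⟩
  show (-1 : SL(2, ℤ)) ∈ Gamma0 N
  rw [Gamma0_mem]
  simp

lemma MFfun_neg {k : ℤ} (hk : k < 0) : MFfun (GG N) k = ⊥ := by
  rw [eq_bot_iff]
  rintro _ ⟨f, rfl⟩
  rw [Submodule.mem_bot, ModularForm.isZero_of_neg_weight hk f]
  rfl

lemma MFfun_odd {k : ℤ} (hk : Odd k) : MFfun (GG N) k = ⊥ := by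
  rw [eq_bot_iff]
  rintro _ ⟨f, rfl⟩
  rw [Submodule.mem_bot, ModularForm.eq_zero_of_neg_one_mem (neg_one_mem_GG N) hk f]
  rfl

lemma exists_eigenData : Nonempty (EigenData (GG N)) := by
  obtain ⟨b, lam, h1, h2, -⟩ := exists_eigenbasis_perm (permT (GG N))
  exact ⟨⟨b, lam, fun a => (h1 a).1, fun a => (h1 a).2, h2⟩⟩

variable {N} in
lemma Gen.reindex {J J' : Type} {κ : J → ℤ} {F : ∀ j, ModularForm (GG N) (κ j)} (h : Gen κ F)
    (ε : J' ≃ J) : Gen (fun x => κ (ε x)) (fun x => F (ε x)) := by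
  intro k f hf
  obtain ⟨r, hr, hs⟩ := h k f hf
  refine ⟨Finsupp.equivMapDomain ε.symm r, fun j => ?_, ?_⟩
  · simpa using hr (ε j)
  · rw [hs, Finsupp.sum_equivMapDomain]
    have hc : ∀ a b : J, a = b → (⇑(F a) : ℍ → ℂ) = ⇑(F b) := by
      rintro a _ rfl
      rfl
    refine Finsupp.sum_congr fun a _ => ?_
    rw [hc _ _ (ε.apply_symm_apply a)]

variable {N} in
lemma Ind.reindex {J J' : Type} {κ : J → ℤ} {F : ∀ j, ModularForm (GG N) (κ j)} (h : Ind κ F)
    (ε : J' ≃ J) : Ind (fun x => κ (ε x)) (fun x => F (ε x)) := by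
  intro k s r hr hs x hx
  have := h k (s.map ε.toEmbedding) (fun j => r (ε.symm j)) (fun j => by
    have := hr (ε.symm j)
    simpa using this) (by
    rw [Finset.sum_map]
    simpa using hs) (ε x) (Finset.mem_map_of_mem _ hx)
  simpa using this

theorem exists_freeBasis : Nonempty (FreeBasis N) := by
  classical
  obtain ⟨J, κ, Ff, hF, hgen, hind⟩ := exists_graded_basis (𝒜 := ℍ → ℂ)
    (fun k => MFfun (GG N) k) RR ⇑E₄ ⇑E₆ (fun k hk => MFfun_neg N hk) (fun k hk => RR_neg hk)
    one_mem_RR E4_mem E6_mem (fun a b r hr r' hr' => MFfun_mul rfl hr hr')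
    (fun a b r hr f hf => MFfun_mul rfl (MFfun_mono (GG_le N) hr) hf)
    RR_struct (fun k f hf h => E4_mul_inj k f hf h)
    (fun k f hf g hg h => div_E4 (GG_le N) k f hf g hg h)
  choose F hFc using hF
  have hgen' : Gen κ F := by
    intro k f hf
    obtain ⟨r, hr, hs⟩ := hgen k f hf
    exact ⟨r, hr, by simp only [hFc]; exact hs⟩
  have hind' : Ind κ F := by
    intro k s r hr hs
    exact hind k s r hr (by simpa only [hFc] using hs)
  have heven : ∀ j, Even (κ j) := by
    intro j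
    by_contra hodd
    rw [Int.not_even_iff_odd] at hodd
    apply F_ne_zero hind' j
    have := coe_mem_MFfun (F j)
    rw [MFfun_odd N hodd] at this
    simpa using this
  obtain ⟨E⟩ := exists_eigenData N
  have := finite_J (GG_le N) E hgen' hind' heven
  have := Fintype.ofFinite J
  have h1 := card_le (GG_le N) E hgen' hind' heven Finset.univ
  have h2 := card_ge hgen'
  have h3 : Fintype.card (Q (GG N)) = Fintype.card J := le_antisymm h2 (by simpa using h1)
  obtain ⟨ε⟩ := Fintype.card_eq.mp h3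
  exact ⟨⟨fun x => κ (ε x), fun x => F (ε x), hgen'.reindex ε, hind'.reindex ε,
    fun x => heven (ε x)⟩⟩

end FAGenus
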