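import Fermat.Agent.Genus.CuspCount
import Fermat.Agent.Genus.CardCoset
import Fermat.Agent.Genus.OrbT
import Fermat.Agent.Genus.FixS
import Fermat.Agent.Genus.FixST

/-! Bridge between `Q (GG N)` and `SL(2,ℤ) ⧸ Γ₀(N)`. -/

open UpperHalfPlane ModularForm Matrix.SpecialLinearGroup OnePoint CongruenceSubgroup Function
  Filter Topology
open scoped Manifold MatrixGroups ModularForm Real

namespace FAGenus

open FA_IS

variable (N : ℕ)

/-- `SL(2,ℤ) ≃ 𝒮ℒ` -/
noncomputable def slEquiv : SL(2, ℤ) ≃* 𝒮ℒ := (mapGL ℝ).ofInjective mapGL_injective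

lemma slEquiv_apply (γ : SL(2, ℤ)) : slEquiv γ = sl γ := rfl

/-- the equivariant bijection of coset spaces -/
noncomputable def cosetEquiv : SL(2, ℤ) ⧸ Gamma0 N ≃ Q (GG N) :=
  Quotient.congr slEquiv.toEquiv (by
    intro a b
    show QuotientGroup.leftRel _ a b ↔ QuotientGroup.leftRel _ (slEquiv a) (slEquiv b)
    rw [QuotientGroup.leftRel_apply, QuotientGroup.leftRel_apply, Subgroup.mem_subgroupOf,
      ← map_inv, ← map_mul]
    show _ ↔ mapGL ℝ (a⁻¹ * b) ∈ (Gamma0 N).map (mapGL ℝ)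
    rw [Subgroup.mem_map_iff_mem mapGL_injective])

lemma cosetEquiv_smul (γ : SL(2, ℤ)) (x : SL(2, ℤ) ⧸ Gamma0 N) :
    cosetEquiv N (γ • x) = sl γ • cosetEquiv N x := by
  induction x using Quotient.inductionOn with
  | h a =>
    show cosetEquiv N (⟦γ * a⟧) = sl γ • cosetEquiv N ⟦a⟧
    simp only [cosetEquiv]
    show (⟦slEquiv (γ * a)⟧ : Q (GG N)) = ⟦sl γ * slEquiv a⟧
    rw [map_mul]
    rfl

variable [NeZero N]

lemma card_Q : Fintype.card (Q (GG N)) = ModularCurve.dedekindPsi N := by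
  rw [← card_coset N, ← Nat.card_eq_fintype_card]
  exact (Nat.card_congr (cosetEquiv N)).symm

lemma card_fix (γ : SL(2, ℤ)) : Fintype.card {x : Q (GG N) // (sl γ)⁻¹ • x = x}
    = Nat.card (MulAction.fixedBy (SL(2, ℤ) ⧸ Gamma0 N) γ) := by
  rw [← Nat.card_eq_fintype_card]
  refine (Nat.card_congr (Equiv.subtypeEquiv (cosetEquiv N) fun x => ?_)).symm
  rw [MulAction.mem_fixedBy, inv_smul_eq_iff, ← cosetEquiv_smul, (cosetEquiv N).apply_eq_iff_eq,
    eq_comm]

lemma card_fix_S : Fintype.card {x : Q (GG N) // (sl ModularGroup.S)⁻¹ • x = x}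
    = ModularCurve.nuTwo N := by
  rw [card_fix, card_fixedBy_S]

lemma card_fix_ST :
    Fintype.card {x : Q (GG N) // (sl (ModularGroup.S * ModularGroup.T))⁻¹ • x = x}
    = ModularCurve.nuThree N := by
  rw [card_fix, card_fixedBy_ST]

omit [NeZero N] in
lemma permT_zpow_apply (n : ℤ) (x : SL(2, ℤ) ⧸ Gamma0 N) :
    ((permT (GG N)) ^ n) (cosetEquiv N x) = cosetEquiv N (ModularGroup.T ^ n • x) := by
  rw [cosetEquiv_smul, map_zpow]
  have h : (permT (GG N)) ^ n = MulAction.toPermHom 𝒮ℒ (Q (GG N)) ((sl ModularGroup.T) ^ n) := by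
    rw [map_zpow]
    rfl
  rw [h]
  rfl

lemma card_orbits_permT :
    Nat.card (MulAction.orbitRel.Quotient (Subgroup.zpowers (permT (GG N))) (Q (GG N)))
      = ModularCurve.cuspCount N := by
  rw [← card_orbits_T N]
  refine (Nat.card_congr (Quotient.congr (cosetEquiv N) ?_)).symm
  intro x y
  show MulAction.orbitRel _ _ x y ↔ MulAction.orbitRel _ _ (cosetEquiv N x) (cosetEquiv N y)
  rw [MulAction.orbitRel_apply, MulAction.orbitRel_apply, MulAction.mem_orbit_iff,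
    MulAction.mem_orbit_iff]
  constructor
  · rintro ⟨⟨g, hg⟩, h⟩
    obtain ⟨n, rfl⟩ := Subgroup.mem_zpowers_iff.mp hg
    refine ⟨⟨(permT (GG N)) ^ n, Subgroup.mem_zpowers_iff.mpr ⟨n, rfl⟩⟩, ?_⟩
    show ((permT (GG N)) ^ n) (cosetEquiv N y) = _
    rw [permT_zpow_apply]
    exact congrArg _ h
  · rintro ⟨⟨g, hg⟩, h⟩
    obtain ⟨n, rfl⟩ := Subgroup.mem_zpowers_iff.mp hg
    refine ⟨⟨ModularGroup.T ^ n, Subgroup.mem_zpowers_iff.mpr ⟨n, rfl⟩⟩, ?_⟩
    have h' : ((permT (GG N)) ^ n) (cosetEquiv N y) = cosetEquiv N x := h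
    rw [permT_zpow_apply] at h'
    exact (cosetEquiv N).injective h'

lemma exists_eigenData_card : ∃ ED : EigenData (GG N),
    Fintype.card {a : Q (GG N) // ED.lam a = 0} = ModularCurve.cuspCount N := by
  obtain ⟨b, lam, h1, h2, h3⟩ := exists_eigenbasis_perm (permT (GG N))
  refine ⟨⟨b, lam, fun a => (h1 a).1, fun a => (h1 a).2, h2⟩, ?_⟩
  rw [← card_orbits_permT N, ← h3, Nat.card_eq_fintype_card]

end FAGenus
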