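import Fermat.Agent.Genus.Ellip

/-! Dimension counts. -/

open UpperHalfPlane ModularForm Matrix.SpecialLinearGroup OnePoint CongruenceSubgroup Function
  Filter Topology EisensteinSeries Derivative SlashInvariantForm
open scoped Manifold MatrixGroups ModularForm Real

namespace FAGenus

open FA_IS

local notation "Δ" => ModularForm.discriminant

/-- coercion to functions as a linear map -/
def coeM (𝒢 : Subgroup (GL (Fin 2) ℝ)) [𝒢.HasDetOne] (m : ℤ) : ModularForm 𝒢 m →ₗ[ℂ] (ℍ → ℂ) where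
  toFun f := ⇑f
  map_add' _ _ := rfl
  map_smul' _ _ := rfl

/-- coercion to functions as a linear map -/
def coeS (𝒢 : Subgroup (GL (Fin 2) ℝ)) [𝒢.HasDetOne] (m : ℤ) : CuspForm 𝒢 m →ₗ[ℂ] (ℍ → ℂ) where
  toFun f := ⇑f
  map_add' _ _ := rfl
  map_smul' _ _ := rfl

lemma range_coeM (𝒢 : Subgroup (GL (Fin 2) ℝ)) [𝒢.HasDetOne] (m : ℤ) :
    LinearMap.range (coeM 𝒢 m) = MFfun 𝒢 m := rfl

lemma range_coeS (𝒢 : Subgroup (GL (Fin 2) ℝ)) [𝒢.HasDetOne] (m : ℤ) :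
    LinearMap.range (coeS 𝒢 m) = SFfun 𝒢 m := rfl

lemma finrank_MFfun (𝒢 : Subgroup (GL (Fin 2) ℝ)) [𝒢.HasDetOne] (m : ℤ) :
    Module.finrank ℂ (MFfun 𝒢 m) = Module.finrank ℂ (ModularForm 𝒢 m) := by
  rw [← range_coeM]
  exact LinearMap.finrank_range_of_inj (fun f g h => DFunLike.coe_injective h)

lemma finrank_SFfun (𝒢 : Subgroup (GL (Fin 2) ℝ)) [𝒢.HasDetOne] (m : ℤ) :
    Module.finrank ℂ (SFfun 𝒢 m) = Module.finrank ℂ (CuspForm 𝒢 m) := by
  rw [← range_coeS]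
  exact LinearMap.finrank_range_of_inj (fun f g h => DFunLike.coe_injective h)

instance (m : ℤ) : FiniteDimensional ℂ (RR m) := by
  show FiniteDimensional ℂ (MFfun 𝒮ℒ m)
  rw [← range_coeM]
  infer_instance

/-- dimension of level one forms -/
noncomputable def rk (m : ℤ) : ℕ := Module.finrank ℂ (RR m)

lemma rk_neg {m : ℤ} (hm : m < 0) : rk m = 0 := by
  unfold rk
  rw [RR_neg hm]
  simp

lemma rk_nat (k : ℕ) (hk : Even k) : rk k = if k ≡ 2 [MOD 12] then k / 12 else k / 12 + 1 := by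
  unfold rk
  rw [show RR (k : ℤ) = MFfun 𝒮ℒ (k : ℤ) from rfl, finrank_MFfun]
  apply Module.finrank_eq_of_rank_eq
  rw [dimension_level_one k hk]

lemma rk_0 : rk 0 = 1 := by simpa [Nat.ModEq] using rk_nat 0 (by decide)
lemma rk_2 : rk 2 = 0 := by simpa [Nat.ModEq] using rk_nat 2 (by decide)
lemma rk_4 : rk 4 = 1 := by simpa [Nat.ModEq] using rk_nat 4 (by decide)
lemma rk_6 : rk 6 = 1 := by simpa [Nat.ModEq] using rk_nat 6 (by decide)
lemma rk_8 : rk 8 = 1 := by simpa [Nat.ModEq] using rk_nat 8 (by decide)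
lemma rk_10 : rk 10 = 1 := by simpa [Nat.ModEq] using rk_nat 10 (by decide)
lemma rk_12 : rk 12 = 2 := by simpa [Nat.ModEq] using rk_nat 12 (by decide)
lemma rk_14 : rk 14 = 1 := by simpa [Nat.ModEq] using rk_nat 14 (by decide)

section free

variable {ι : Type} [Fintype ι] (w : ι → ℤ) (u : ι → ℍ → ℂ)

/-- the combination map -/
noncomputable def Lmap : ((j : ι) → RR (w j)) →ₗ[ℂ] (ℍ → ℂ) :=
  ∑ j, (LinearMap.mulRight ℂ (u j)) ∘ₗ (RR (w j)).subtype ∘ₗ LinearMap.proj j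

lemma Lmap_apply (r : (j : ι) → RR (w j)) : Lmap w u r = ∑ j, (r j : ℍ → ℂ) * u j := by
  simp [Lmap, LinearMap.sum_apply]

variable {w u}

lemma Lmap_injective (hind : ∀ r : ι → ℍ → ℂ, (∀ j, r j ∈ RR (w j)) → ∑ j, r j * u j = 0 →
    ∀ j, r j = 0) : Function.Injective (Lmap w u) := by
  rw [← LinearMap.ker_eq_bot, LinearMap.ker_eq_bot']
  intro r hr
  rw [Lmap_apply] at hr
  funext j
  exact Subtype.ext (hind (fun j => (r j : ℍ → ℂ)) (fun j => (r j).2) hr j)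

lemma finrank_of_free (V : Submodule ℂ (ℍ → ℂ))
    (hmem : ∀ r : ι → ℍ → ℂ, (∀ j, r j ∈ RR (w j)) → ∑ j, r j * u j ∈ V)
    (hgen : ∀ f ∈ V, ∃ r : ι → ℍ → ℂ, (∀ j, r j ∈ RR (w j)) ∧ f = ∑ j, r j * u j)
    (hind : ∀ r : ι → ℍ → ℂ, (∀ j, r j ∈ RR (w j)) → ∑ j, r j * u j = 0 → ∀ j, r j = 0) :
    Module.finrank ℂ V = ∑ j, rk (w j) := by
  have hrange : LinearMap.range (Lmap w u) = V := by
    apply le_antisymm
    · rintro _ ⟨r, rfl⟩
      rw [Lmap_apply]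
      exact hmem _ fun j => (r j).2
    · intro f hf
      obtain ⟨r, hr, rfl⟩ := hgen f hf
      exact ⟨fun j => ⟨r j, hr j⟩, by rw [Lmap_apply]⟩
  rw [← hrange, LinearMap.finrank_range_of_inj (Lmap_injective hind), Module.finrank_pi_fintype]
  rfl

end free

variable {N : ℕ} [NeZero N] (B : FreeBasis N)

lemma FreeBasis.finrank_M (k : ℤ) :
    Module.finrank ℂ (MFfun (GG N) k) = ∑ j, rk (k - B.κ j) :=
  finrank_of_free (w := fun j => k - B.κ j) (u := fun j => ⇑(B.F j)) _ (B.mmem k) (B.gen' k)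
    (B.ind' k)

lemma FreeBasis.finrank_S (k : ℤ) :
    Module.finrank ℂ (SFfun (GG N) k) = ∑ j, rk (k - (12 - B.κ j)) :=
  finrank_of_free (w := fun j => k - (12 - B.κ j)) (u := fun j => ⇑(B.G j)) _ (B.smem k) (B.sgen k)
    (B.sind k)

end FAGenus
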