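import Fermat.Agent.Genus.Dual

/-! The dual family freely generates the cusp forms. -/

open UpperHalfPlane ModularForm Matrix.SpecialLinearGroup OnePoint CongruenceSubgroup Function
  Filter Topology EisensteinSeries Derivative SlashInvariantForm
open scoped Manifold MatrixGroups ModularForm Real

namespace FAGenus

open FA_IS

local notation "Δ" => ModularForm.discriminant

/-- The functions on `ℍ` underlying cusp forms of level `𝒢` and weight `m`. -/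
def SFfun (𝒢 : Subgroup (GL (Fin 2) ℝ)) [𝒢.HasDetOne] (m : ℤ) : Submodule ℂ (ℍ → ℂ) where
  carrier := {F | ∃ g : CuspForm 𝒢 m, ⇑g = F}
  add_mem' := by
    rintro _ _ ⟨f, rfl⟩ ⟨g, rfl⟩
    exact ⟨f + g, rfl⟩
  zero_mem' := ⟨0, rfl⟩
  smul_mem' := by
    rintro c _ ⟨f, rfl⟩
    exact ⟨c • f, rfl⟩

lemma coe_mem_SFfun {𝒢 : Subgroup (GL (Fin 2) ℝ)} [𝒢.HasDetOne] {m : ℤ} (g : CuspForm 𝒢 m) :
    ⇑g ∈ SFfun 𝒢 m := ⟨g, rfl⟩

lemma SFfun_mul {𝒢 : Subgroup (GL (Fin 2) ℝ)} [𝒢.HasDetOne] {m₁ m₂ m : ℤ} (hm : m = m₁ + m₂)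
    {F G : ℍ → ℂ} (hF : F ∈ MFfun 𝒢 m₁) (hG : G ∈ SFfun 𝒢 m₂) : F * G ∈ SFfun 𝒢 m := by
  obtain ⟨f, rfl⟩ := hF
  obtain ⟨g, rfl⟩ := hG
  have h2 : m = m₂ + m₁ := by rw [hm, add_comm]
  subst h2
  exact ⟨g.mulModularForm f, by rw [CuspForm.coe_mulModularForm, mul_comm]⟩

lemma SFfun_le_MFfun {𝒢 : Subgroup (GL (Fin 2) ℝ)} [𝒢.HasDetOne] (m : ℤ) :
    SFfun 𝒢 m ≤ MFfun 𝒢 m := by
  rintro _ ⟨g, rfl⟩
  exact ⟨ModularFormClass.modularForm g, rfl⟩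

variable {N : ℕ} [NeZero N] (B : FreeBasis N)

lemma sl_inv_smul_q0 {γ : SL(2, ℤ)} (hγ : γ ∈ Gamma0 N) :
    (sl γ)⁻¹ • q0 (GG N) = q0 (GG N) := by
  rw [← map_inv, sl_smul_q0, mk_eq_q0_iff, inv_inv]
  exact hγ

/-- the dual cusp forms -/
noncomputable def FreeBasis.G (j : Q (GG N)) : CuspForm (GG N) (12 - B.κ j) :=
  mkCF (GG N) (12 - B.κ j) (B.Ψ j (q0 (GG N)))
    (by
      rintro _ ⟨γ, hγ, rfl⟩
      show B.Ψ j (q0 (GG N)) ∣[12 - B.κ j] γ = _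
      rw [B.Ψ_slash, sl_inv_smul_q0 hγ])
    (B.Ψ_mdiff _ _)
    (by
      intro γ
      rw [B.Ψ_slash]
      exact B.Ψ_zeroAt _ _)

lemma FreeBasis.coe_G (j : Q (GG N)) : ⇑(B.G j) = B.Ψ j (q0 (GG N)) := rfl

lemma FreeBasis.tr_G (j x : Q (GG N)) : tr (B.G j) x = B.Ψ j x := by
  obtain ⟨γ, rfl⟩ := exists_sl x
  rw [tr_sl, B.coe_G, B.Ψ_slash, map_inv, inv_inv]

lemma FreeBasis.sum_Ψ_Φ (z : ℍ) (j i : Q (GG N)) :
    ∑ x, B.Ψ j x z * B.Φ z x i = if j = i then Δ z else 0 := by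
  classical
  simp only [FreeBasis.Ψ, mul_assoc, ← Finset.mul_sum]
  rw [← Matrix.mul_apply, Matrix.nonsing_inv_mul _ (B.isUnit_det z), Matrix.one_apply]
  split_ifs <;> simp

lemma FreeBasis.sum_Φ_Ψ (z : ℍ) (x y : Q (GG N)) :
    ∑ j, B.Φ z x j * B.Ψ j y z = if x = y then Δ z else 0 := by
  classical
  have : ∑ j, B.Φ z x j * B.Ψ j y z = Δ z * ∑ j, B.Φ z x j * (B.Φ z)⁻¹ j y := by
    rw [Finset.mul_sum]
    exact Finset.sum_congr rfl fun j _ => by simp only [FreeBasis.Ψ]; ring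
  rw [this, ← Matrix.mul_apply, Matrix.mul_nonsing_inv _ (B.isUnit_det z), Matrix.one_apply]
  split_ifs <;> simp

lemma slash_sum_mul {J : Type*} (s : Finset J) (κ : J → ℤ) (u : J → ℍ → ℂ) (k : ℤ)
    (r : J → ℍ → ℂ) (hr : ∀ j, r j ∈ RR (k - κ j)) (γ : SL(2, ℤ)) :
    (∑ j ∈ s, r j * u j) ∣[k] γ = ∑ j ∈ s, r j * (u j ∣[κ j] γ) := by
  rw [SlashAction.sum_slash]
  refine Finset.sum_congr rfl fun j _ => ?_
  have := mul_slash_SL2 (k - κ j) (κ j) γ (r j) (u j)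
  rw [sub_add_cancel, RR_slash (hr j)] at this
  exact this

lemma FreeBasis.sind (k : ℤ) (r : Q (GG N) → ℍ → ℂ) (hr : ∀ j, r j ∈ RR (k - (12 - B.κ j)))
    (h : ∑ j, r j * ⇑(B.G j) = 0) (i : Q (GG N)) : r i = 0 := by
  classical
  have h1 : ∀ x, ∑ j, r j * B.Ψ j x = 0 := by
    intro x
    obtain ⟨γ, rfl⟩ := exists_sl x
    have h2 := congrArg (fun u => u ∣[k] γ⁻¹) h
    simp only [slash_sum_mul Finset.univ (fun j => 12 - B.κ j) (fun j => ⇑(B.G j)) k r hr γ⁻¹,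
      SlashAction.zero_slash] at h2
    rw [← h2]
    refine Finset.sum_congr rfl fun j _ => ?_
    rw [← B.tr_G, tr_sl]
  funext z
  have h3 : ∑ x, (∑ j, r j z * B.Ψ j x z) * B.Φ z x i = 0 := by
    refine Finset.sum_eq_zero fun x _ => ?_
    have := congrFun (h1 x) z
    simp only [Finset.sum_apply, Pi.mul_apply, Pi.zero_apply] at this
    rw [this, zero_mul]
  simp only [Finset.sum_mul] at h3
  rw [Finset.sum_comm] at h3
  have h4 : ∀ j, ∑ x, r j z * B.Ψ j x z * B.Φ z x i = r j z * (if j = i then Δ z else 0) := by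
    intro j
    rw [← B.sum_Ψ_Φ z j i, Finset.mul_sum]
    exact Finset.sum_congr rfl fun x _ => by ring
  simp only [h4] at h3
  rw [Finset.sum_eq_single i (fun j _ hj => by simp [hj]) (by simp)] at h3
  simpa [discriminant_ne_zero z] using h3


lemma tr_mulModularForm {k₁ k₂ : ℤ} (g : CuspForm (GG N) k₁) (f : ModularForm (GG N) k₂)
    (x : Q (GG N)) : tr (g.mulModularForm f) x = tr g x * tr f x := by
  obtain ⟨γ, rfl⟩ := exists_sl x
  rw [tr_sl, tr_sl, tr_sl, CuspForm.coe_mulModularForm, mul_slash_SL2]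

lemma MFfun_cast {𝒢 : Subgroup (GL (Fin 2) ℝ)} [𝒢.HasDetOne] {m m' : ℤ} (h : m = m') {f : ℍ → ℂ}
    (hf : f ∈ MFfun 𝒢 m) : f ∈ MFfun 𝒢 m' := h ▸ hf

lemma FreeBasis.sgen (k : ℤ) (f : ℍ → ℂ) (hf : f ∈ SFfun (GG N) k) :
    ∃ r : Q (GG N) → ℍ → ℂ, (∀ j, r j ∈ RR (k - (12 - B.κ j))) ∧ f = ∑ j, r j * ⇑(B.G j) := by
  classical
  obtain ⟨g, rfl⟩ := hf
  have hex : ∀ j, ∃ r ∈ RR (k - (12 - B.κ j)), Δ * r = ∑ x, tr g x * tr (B.F j) x := by
    intro j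
    refine ⟨CuspForm.discriminantEquiv (CuspForm.trace 𝒮ℒ (g.mulModularForm (B.F j))),
      MFfun_cast (by ring) (coe_mem_MFfun _), ?_⟩
    rw [discriminant_mul_discriminantEquiv, CuspForm.coe_trace]
    exact Finset.sum_congr rfl fun x _ => tr_mulModularForm g (B.F j) x
  choose r hr hrs using hex
  refine ⟨r, hr, ?_⟩
  funext z
  simp only [Finset.sum_apply, Pi.mul_apply, B.coe_G]
  have h1 : ∀ j, r j z * B.Ψ j (q0 (GG N)) z
      = ∑ x, tr g x z * (B.Φ z x j * (B.Φ z)⁻¹ j (q0 (GG N))) := by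
    intro j
    have := congrFun (hrs j) z
    simp only [Finset.sum_apply, Pi.mul_apply] at this
    simp only [FreeBasis.Ψ]
    rw [← mul_assoc, mul_comm (r j z), this, Finset.sum_mul]
    exact Finset.sum_congr rfl fun x _ => by simp only [Phi, Matrix.of_apply]; ring
  simp only [h1]
  rw [Finset.sum_comm]
  simp only [← Finset.mul_sum]
  have h2 : ∀ x, ∑ j, B.Φ z x j * (B.Φ z)⁻¹ j (q0 (GG N)) = if x = q0 (GG N) then 1 else 0 := by
    intro x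
    rw [← Matrix.mul_apply, Matrix.mul_nonsing_inv _ (B.isUnit_det z), Matrix.one_apply]
  simp only [h2]
  rw [Finset.sum_eq_single (q0 (GG N)) (fun x _ hx => by simp [hx]) (by simp)]
  simp [tr_q0]

lemma FreeBasis.smem (k : ℤ) (r : Q (GG N) → ℍ → ℂ) (hr : ∀ j, r j ∈ RR (k - (12 - B.κ j))) :
    ∑ j, r j * ⇑(B.G j) ∈ SFfun (GG N) k :=
  Submodule.sum_mem _ fun j _ =>
    SFfun_mul (by ring) (MFfun_mono (GG_le N) (hr j)) (coe_mem_SFfun (B.G j))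

lemma FreeBasis.mmem (k : ℤ) (r : Q (GG N) → ℍ → ℂ) (hr : ∀ j, r j ∈ RR (k - B.κ j)) :
    ∑ j, r j * ⇑(B.F j) ∈ MFfun (GG N) k :=
  Submodule.sum_mem _ fun j _ =>
    MFfun_mul (by ring) (MFfun_mono (GG_le N) (hr j)) (coe_mem_MFfun (B.F j))

lemma SFfun_nonpos {k : ℤ} (hk : k ≤ 0) : SFfun (GG N) k = ⊥ := by
  rw [eq_bot_iff]
  rintro _ ⟨g, rfl⟩
  rw [Submodule.mem_bot]
  rcases hk.lt_or_eq with hk | rfl
  · have := SFfun_le_MFfun k (coe_mem_SFfun g)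
    rw [MFfun_neg N hk] at this
    simpa using this
  · obtain ⟨c, hc⟩ := ModularForm.eq_const_of_weight_zero (ModularFormClass.modularForm g)
    have hc' : (⇑g : ℍ → ℂ) = Function.const ℍ c := hc
    have h0 : Tendsto (⇑g : ℍ → ℂ) atImInfty (𝓝 0) := CuspFormClass.zero_at_infty g
    rw [hc'] at h0
    have h1 : Tendsto (Function.const ℍ c) atImInfty (𝓝 c) := tendsto_const_nhds
    have := tendsto_nhds_unique h0 h1
    rw [hc', ← this]
    rfl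

lemma FreeBasis.G_ne_zero (j : Q (GG N)) : (⇑(B.G j) : ℍ → ℂ) ≠ 0 := by
  intro h
  have h1 : ∀ x, B.Ψ j x = 0 := by
    intro x
    obtain ⟨γ, rfl⟩ := exists_sl x
    rw [← B.tr_G, tr_sl, h, SlashAction.zero_slash]
  have h2 := B.sum_Ψ_Φ I j j
  simp only [h1, Pi.zero_apply, zero_mul, Finset.sum_const_zero, if_true] at h2
  exact discriminant_ne_zero I h2.symm

lemma FreeBasis.κ_nonneg (j : Q (GG N)) : 0 ≤ B.κ j := by
  by_contra h
  rw [not_le] at h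
  apply F_ne_zero B.ind j
  have := coe_mem_MFfun (B.F j)
  rw [MFfun_neg N h] at this
  simpa using this

lemma FreeBasis.κ_le (j : Q (GG N)) : B.κ j ≤ 10 := by
  by_contra h
  rw [not_le] at h
  apply B.G_ne_zero j
  have := coe_mem_SFfun (B.G j)
  obtain ⟨t, ht⟩ := B.even j
  rw [SFfun_nonpos (by omega)] at this
  simpa using this

end FAGenus
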