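import Fermat.Agent.Genus.Count

/-! `dim M_k - dim S_k` is the number of `T`-invariant eigenfunctions, for suitable `k`. -/

open UpperHalfPlane ModularForm Matrix.SpecialLinearGroup OnePoint CongruenceSubgroup Function
  Filter Topology EisensteinSeries Derivative SlashInvariantForm
open scoped Manifold MatrixGroups ModularForm Real

namespace FAGenus

open FA_IS

local notation "Δ" => ModularForm.discriminant

variable {N : ℕ} [NeZero N]

lemma exp_twist_tendsto (lam : ℝ) (h : 0 < lam) :
    Tendsto (fun z : ℍ => Complex.exp (2 * π * Complex.I * lam * z)) atImInfty (𝓝 0) := by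
  rw [tendsto_zero_iff_norm_tendsto_zero]
  have h2 : (fun z : ℍ => ‖Complex.exp (2 * π * Complex.I * lam * z)‖)
      = fun z : ℍ => Real.exp (-((2 * π * lam) * z.im)) := by
    funext z
    rw [Complex.norm_exp]
    congr 1
    simp
  rw [h2]
  have hpos : 0 < 2 * π * lam := by
    have := Real.pi_pos
    positivity
  exact Real.tendsto_exp_neg_atTop_nhds_zero.comp
    ((tendsto_comap : Tendsto UpperHalfPlane.im atImInfty atTop).const_mul_atTop hpos)

lemma gfun_eq_exp_mul_wfun (ED : EigenData (GG N)) {k : ℤ} (g : ModularForm (GG N) k)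
    (a : Q (GG N)) : gfun ED g a =
      fun z : ℍ => Complex.exp (2 * π * Complex.I * ED.lam a * z) * wfun ED g a z := by
  funext z
  simp only [wfun]
  rw [← mul_assoc, ← Complex.exp_add]
  simp

lemma mem_SFfun_iff_lead (ED : EigenData (GG N)) {k : ℤ} (g : ModularForm (GG N) k) :
    ⇑g ∈ SFfun (GG N) k ↔ ∀ a, ED.lam a = 0 → lead ED g a = 0 := by
  constructor
  · rintro ⟨h, hh⟩ a ha
    have h1 : ∀ x, IsZeroAtImInfty (tr g x) := by
      intro x
      obtain ⟨γ, rfl⟩ := exists_sl x
      rw [tr_sl, ← hh]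
      exact CuspFormClass.zero_at_infty_slash h γ⁻¹
    have h2 : IsZeroAtImInfty (gfun ED g a) := by
      unfold gfun
      exact sum_zeroAt _ fun x _ => (h1 x).smul _
    have h3 : wfun ED g a = gfun ED g a := by
      funext z
      simp [wfun, ha]
    have h4 := lead_tendsto ED g a
    rw [h3] at h4
    exact tendsto_nhds_unique h4 h2
  · intro h
    have h1 : ∀ a, IsZeroAtImInfty (gfun ED g a) := by
      intro a
      rw [gfun_eq_exp_mul_wfun ED g a]
      rcases (ED.lam_nonneg a).lt_or_eq with hpos | h0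
      · have := (exp_twist_tendsto _ hpos).mul (lead_tendsto ED g a)
        rw [zero_mul] at this
        exact this
      · have h2 := lead_tendsto ED g a
        rw [h a h0.symm] at h2
        have h3 : (fun z : ℍ => Complex.exp (2 * π * Complex.I * ED.lam a * z) * wfun ED g a z)
            = wfun ED g a := by
          funext z
          simp [← h0]
        rw [h3]
        exact h2
    have h2 : ∀ x, IsZeroAtImInfty (tr g x) := by
      intro x
      rw [tr_eq_sum_gfun ED g x]
      exact sum_zeroAt _ fun a _ => (h1 a).smul _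
    refine ⟨mkCF (GG N) k ⇑g g.slash_action_eq' g.holo' (fun γ => ?_), rfl⟩
    have h3 := tr_sl (𝒢 := GG N) g γ⁻¹
    rw [inv_inv] at h3
    rw [← h3]
    exact h2 _

/-- value at infinity of level one forms -/
noncomputable def evInf (m : ℤ) : RR m →ₗ[ℂ] ℂ where
  toFun r := valueAtInfty (r : ℍ → ℂ)
  map_add' r s := ((RR_tendsto r.2).add (RR_tendsto s.2)).limUnder_eq
  map_smul' c r := ((RR_tendsto r.2).const_smul c).limUnder_eq

variable (B : FreeBasis N) (ED : EigenData (GG N))

/-- constant terms at the cusps, in coordinates -/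
noncomputable def FreeBasis.cmap (k : ℤ) :
    ((j : Q (GG N)) → RR (k - B.κ j)) →ₗ[ℂ] ({a : Q (GG N) // ED.lam a = 0} → ℂ) :=
  LinearMap.pi fun a => ∑ j, lead ED (B.F j) a.1 • (evInf (k - B.κ j) ∘ₗ LinearMap.proj j)

lemma FreeBasis.cmap_apply (k : ℤ) (r : (j : Q (GG N)) → RR (k - B.κ j))
    (a : {a : Q (GG N) // ED.lam a = 0}) :
    B.cmap ED k r a = ∑ j, valueAtInfty (r j : ℍ → ℂ) * lead ED (B.F j) a.1 := by
  simp only [FreeBasis.cmap, LinearMap.pi_apply, LinearMap.sum_apply, LinearMap.smul_apply,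
    LinearMap.comp_apply, LinearMap.proj_apply, smul_eq_mul]
  exact Finset.sum_congr rfl fun j _ => mul_comm _ _

lemma FreeBasis.map_ker_cmap (k : ℤ) :
    Submodule.map (Lmap (fun j => k - B.κ j) (fun j => ⇑(B.F j))) (LinearMap.ker (B.cmap ED k))
      = SFfun (GG N) k := by
  apply le_antisymm
  · rintro _ ⟨r, hr, rfl⟩
    rw [Lmap_apply]
    obtain ⟨g, hg⟩ := B.mmem k (fun j => (r j : ℍ → ℂ)) (fun j => (r j).2)
    rw [← hg, mem_SFfun_iff_lead ED]
    intro a ha
    rw [lead_eq_sum ED Finset.univ k g (fun j => (r j : ℍ → ℂ)) (fun j => (r j).2) hg a]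
    have := congrFun (LinearMap.mem_ker.mp hr) ⟨a, ha⟩
    rw [B.cmap_apply] at this
    exact this
  · intro f hf
    obtain ⟨g, rfl⟩ := SFfun_le_MFfun k hf
    obtain ⟨r, hr, hs⟩ := B.gen' k _ (coe_mem_MFfun g)
    refine ⟨fun j => ⟨r j, hr j⟩, ?_, by rw [Lmap_apply]; exact hs.symm⟩
    rw [SetLike.mem_coe, LinearMap.mem_ker]
    funext a
    rw [B.cmap_apply, Pi.zero_apply]
    rw [← lead_eq_sum ED Finset.univ k g r hr hs a.1]
    exact (mem_SFfun_iff_lead ED g).mp hf a.1 a.2

lemma FreeBasis.cmap_surjective (k : ℤ) (hk : Even k) (hk14 : 14 ≤ k) :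
    Function.Surjective (B.cmap ED k) := by
  classical
  intro t
  set t' : Q (GG N) → ℂ := fun a => if h : ED.lam a = 0 then t ⟨a, h⟩ else 0 with ht'
  set v : Q (GG N) → ℂ := (B.Winf ED)⁻¹.mulVec t' with hv
  have hWv : (B.Winf ED).mulVec v = t' := by
    rw [hv, Matrix.mulVec_mulVec, Matrix.mul_nonsing_inv _ (isUnit_iff_ne_zero.mpr (B.det_Winf_ne ED)),
      Matrix.one_mulVec]
  have hex : ∀ j, ∃ e ∈ RR (k - B.κ j), Tendsto e atImInfty (𝓝 1) := by
    intro j
    have h1 := B.κ_le j
    obtain ⟨s, hs⟩ := B.even j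
    obtain ⟨s', hs'⟩ := hk
    exact exists_eOne _ ⟨s' - s, by rw [hs, hs']; ring⟩ (Or.inr (by omega))
  choose e he het using hex
  refine ⟨fun j => ⟨v j • e j, Submodule.smul_mem _ _ (he j)⟩, ?_⟩
  funext a
  rw [B.cmap_apply]
  have h1 : ∀ j, valueAtInfty (v j • e j) = v j := by
    intro j
    have := ((het j).const_smul (v j)).limUnder_eq
    rw [smul_eq_mul, mul_one] at this
    exact this
  simp only [h1]
  have h2 := congrFun hWv a.1
  simp only [Matrix.mulVec, dotProduct, FreeBasis.Winf, Matrix.of_apply] at h2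
  have h3 : t' a.1 = t a := by
    simp [ht', a.2]
  rw [← h3, ← h2]
  exact Finset.sum_congr rfl fun j _ => mul_comm _ _

lemma FreeBasis.finrank_M_eq (k : ℤ) (hk : Even k) (hk14 : 14 ≤ k) :
    ∑ j, rk (k - B.κ j) = ∑ j, rk (k - (12 - B.κ j)) +
      Fintype.card {a : Q (GG N) // ED.lam a = 0} := by
  have h1 := LinearMap.finrank_range_add_finrank_ker (B.cmap ED k)
  rw [LinearMap.range_eq_top.mpr (B.cmap_surjective ED k hk hk14), finrank_top,
    Module.finrank_fintype_fun_eq_card, Module.finrank_pi_fintype] at h1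
  have h2 : Module.finrank ℂ (LinearMap.ker (B.cmap ED k)) = Module.finrank ℂ (SFfun (GG N) k) := by
    rw [← B.map_ker_cmap ED k]
    exact (Submodule.equivMapOfInjective _ (Lmap_injective (B.ind' k)) _).finrank_eq
  rw [h2, B.finrank_S k] at h1
  have h3 : ∑ j, rk (k - B.κ j) = ∑ j, Module.finrank ℂ (RR (k - B.κ j)) := rfl
  rw [h3, ← h1, add_comm]

end FAGenus
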