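import Fermat.Agent.Genus.NonVan

/-! The dual basis `Δ Φ⁻¹` consists of cusp forms. -/

open UpperHalfPlane ModularForm Matrix.SpecialLinearGroup OnePoint CongruenceSubgroup Function
  Filter Topology EisensteinSeries Derivative SlashInvariantForm
open scoped Manifold MatrixGroups ModularForm Real

namespace FAGenus

open FA_IS

local notation "Δ" => ModularForm.discriminant

lemma mdiff_det {n : Type} [Fintype n] [DecidableEq n] (M : n → n → ℍ → ℂ)
    (hM : ∀ i j, MDiff (M i j)) : MDiff (fun z => (Matrix.of fun i j => M i j z).det) := by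
  simp only [Matrix.det_apply, Matrix.of_apply]
  have : (fun z => ∑ σ : Equiv.Perm n, Equiv.Perm.sign σ • ∏ i, M (σ i) i z)
      = ∑ σ : Equiv.Perm n, Equiv.Perm.sign σ • ∏ i, M (σ i) i := by
    funext z
    simp [Finset.sum_apply, Finset.prod_apply]
  rw [this]
  apply MDifferentiable.sum
  intro σ _
  have h1 : MDiff (∏ i, M (σ i) i) := MDifferentiable.prod fun i _ => hM _ _
  have h2 : (Equiv.Perm.sign σ • ∏ i, M (σ i) i) = ((Equiv.Perm.sign σ : ℤ) : ℂ) • ∏ i, M (σ i) i := by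
    funext z
    simp [Units.smul_def]
  rw [h2]
  exact h1.const_smul _

variable {N : ℕ} [NeZero N] (B : FreeBasis N)

/-- the dual family -/
noncomputable def FreeBasis.Ψ (j x : Q (GG N)) : ℍ → ℂ := fun z => Δ z * (B.Φ z)⁻¹ j x

lemma FreeBasis.Ψ_mdiff (j x : Q (GG N)) : MDiff (B.Ψ j x) := by
  classical
  have h1 : B.Ψ j x = Δ * ((fun z => ((B.Φ z).updateRow x (Pi.single j 1)).det) /
      (fun z => (B.Φ z).det)) := by
    funext z
    simp only [FreeBasis.Ψ, Pi.mul_apply, Pi.div_apply, Matrix.inv_def, Matrix.smul_apply,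
      Matrix.adjugate_apply, Ring.inverse_eq_inv', smul_eq_mul]
    ring
  rw [h1]
  refine disc_mdiff.mul (MDifferentiable.div ?_ ?_ B.det_ne_zero)
  · have := mdiff_det (fun a b z => if a = x then (Pi.single j (1 : ℂ) : Q (GG N) → ℂ) b
      else tr (B.F b) a z) (by
        intro a b
        split_ifs
        · exact mdifferentiable_const
        · exact tr_mdiff _ _)
    have e1 : (fun z => ((B.Φ z).updateRow x (Pi.single j 1)).det) = fun z => (Matrix.of fun a b =>
        (if a = x then (Pi.single j (1 : ℂ) : Q (GG N) → ℂ) b else tr (B.F b) a z)).det := by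
      funext z
      congr 1
      ext a b
      simp only [Matrix.updateRow_apply, Matrix.of_apply, Phi]
    rw [e1]
    exact this
  · exact mdiff_det (fun a b => tr (B.F b) a) (fun a b => tr_mdiff _ _)


lemma FreeBasis.Φ_smul (γ : SL(2, ℤ)) (z : ℍ) (x j : Q (GG N)) :
    B.Φ (γ • z) x j = denom γ z ^ (B.κ j) * B.Φ z ((sl γ)⁻¹ • x) j := by
  have h := congrFun (tr_slash' (B.F j) x γ) z
  rw [SL_slash_apply] at h
  simp only [Phi, Matrix.of_apply]
  rw [← h, mul_comm, mul_assoc, ← zpow_add₀ (denom_ne_zero γ z)]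
  simp

lemma FreeBasis.isUnit_det (z : ℍ) : IsUnit (B.Φ z).det := isUnit_iff_ne_zero.mpr (B.det_ne_zero z)

lemma FreeBasis.Φ_inv_smul (γ : SL(2, ℤ)) (z : ℍ) (j x : Q (GG N)) :
    (B.Φ (γ • z))⁻¹ j x = denom γ z ^ (-(B.κ j)) * (B.Φ z)⁻¹ j ((sl γ)⁻¹ • x) := by
  classical
  have hd := denom_ne_zero γ z
  have key : (Matrix.of fun j x => denom γ z ^ (-(B.κ j)) * (B.Φ z)⁻¹ j ((sl γ)⁻¹ • x))
      * B.Φ (γ • z) = 1 := by
    ext j i
    simp only [Matrix.mul_apply, Matrix.of_apply, B.Φ_smul γ z]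
    have h1 : ∑ x, denom γ z ^ (-(B.κ j)) * (B.Φ z)⁻¹ j ((sl γ)⁻¹ • x) *
        (denom γ z ^ (B.κ i) * B.Φ z ((sl γ)⁻¹ • x) i)
        = denom γ z ^ (-(B.κ j)) * denom γ z ^ (B.κ i) * ∑ y, (B.Φ z)⁻¹ j y * B.Φ z y i := by
      rw [← Equiv.sum_comp (MulAction.toPerm (sl γ)⁻¹) (fun y => (B.Φ z)⁻¹ j y * B.Φ z y i),
        Finset.mul_sum]
      refine Finset.sum_congr rfl fun x _ => ?_
      simp only [MulAction.toPerm_apply]
      ring
    rw [h1, ← Matrix.mul_apply, Matrix.nonsing_inv_mul _ (B.isUnit_det z)]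
    by_cases hji : j = i
    · subst hji
      rw [Matrix.one_apply_eq, mul_one, ← zpow_add₀ hd]
      simp
    · rw [Matrix.one_apply_ne hji, mul_zero]
  rw [Matrix.inv_eq_left_inv key]
  rfl

lemma FreeBasis.Ψ_slash (γ : SL(2, ℤ)) (j x : Q (GG N)) :
    B.Ψ j x ∣[12 - B.κ j] γ = B.Ψ j ((sl γ)⁻¹ • x) := by
  funext z
  have hd := denom_ne_zero γ z
  rw [SL_slash_apply]
  simp only [FreeBasis.Ψ]
  rw [B.Φ_inv_smul γ z]
  have h1 := congrFun (disc_slash γ) z
  rw [SL_slash_apply] at h1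
  have h2 : Δ (γ • z) = Δ z * denom γ z ^ (12 : ℤ) := by
    rw [← h1, mul_assoc, ← zpow_add₀ hd]
    simp
  rw [h2]
  have h3 : denom γ z ^ (12 : ℤ) * denom γ z ^ (-(B.κ j)) * denom γ z ^ (-(12 - B.κ j)) = 1 := by
    rw [← zpow_add₀ hd, ← zpow_add₀ hd]
    have : (12 : ℤ) + -(B.κ j) + -(12 - B.κ j) = 0 := by ring
    rw [this, zpow_zero]
  linear_combination (Δ z * (B.Φ z)⁻¹ j ((sl γ)⁻¹ • x)) * h3


lemma disc_twist_tendsto (lam : ℝ) (h1 : lam < 1) :
    Tendsto (fun z : ℍ => Δ z * Complex.exp (-(2 * π * Complex.I * lam * z))) atImInfty (𝓝 0) := by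
  have hO : (Δ : ℍ → ℂ) =O[atImInfty] fun z : ℍ => Real.exp (-2 * π * z.im / 1) :=
    IsZeroAtImInfty.exp_decay_atImInfty discriminant_isZeroAtImInfty one_pos nice_disc.per
      nice_disc.hol nice_disc.bdd
  have hO2 : (fun z : ℍ => Complex.exp (-(2 * π * Complex.I * lam * z))) =O[atImInfty]
      fun z : ℍ => Real.exp (2 * π * lam * z.im) := by
    refine Asymptotics.IsBigO.of_bound 1 (Eventually.of_forall fun z => ?_)
    rw [Complex.norm_exp, Real.norm_eq_abs, abs_of_pos (Real.exp_pos _), one_mul]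
    apply le_of_eq
    congr 1
    simp
  have hO3 := hO.mul hO2
  refine hO3.trans_tendsto ?_
  have h2 : (fun z : ℍ => Real.exp (-2 * π * z.im / 1) * Real.exp (2 * π * lam * z.im))
      = fun z : ℍ => Real.exp (-((2 * π * (1 - lam)) * z.im)) := by
    funext z
    rw [← Real.exp_add]
    congr 1
    ring
  rw [h2]
  have hpos : 0 < 2 * π * (1 - lam) := by
    have := Real.pi_pos
    have : 0 < 1 - lam := by linarith
    positivity
  exact Real.tendsto_exp_neg_atTop_nhds_zero.comp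
    ((tendsto_comap : Tendsto UpperHalfPlane.im atImInfty atTop).const_mul_atTop hpos)

section atInfty

variable (E : EigenData (GG N))

/-- the matrix of twisted eigencomponents -/
noncomputable def FreeBasis.W (z : ℍ) : Matrix (Q (GG N)) (Q (GG N)) ℂ :=
  Matrix.of fun a j => wfun E (B.F j) a z

/-- the matrix of leading coefficients -/
noncomputable def FreeBasis.Winf : Matrix (Q (GG N)) (Q (GG N)) ℂ :=
  Matrix.of fun a j => lead E (B.F j) a

lemma FreeBasis.det_Winf_ne : (B.Winf E).det ≠ 0 := by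
  intro h
  obtain ⟨v, hv, hv0⟩ := Matrix.exists_mulVec_eq_zero_iff.mpr h
  apply hv
  funext j
  refine lead_ker (GG_le N) E B.gen B.ind B.even Finset.univ v (fun a => ?_) j (Finset.mem_univ j)
  have := congrFun hv0 a
  simp only [Matrix.mulVec, dotProduct, FreeBasis.Winf, Matrix.of_apply, Pi.zero_apply] at this
  rw [← this]
  exact Finset.sum_congr rfl fun j _ => mul_comm _ _

lemma FreeBasis.W_eq (z : ℍ) : B.W E z =
    (Matrix.diagonal (fun a => Complex.exp (-(2 * π * Complex.I * E.lam a * z))) *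
      Matrix.of fun a x => E.b a x) * B.Φ z := by
  ext a j
  rw [Matrix.mul_assoc, Matrix.diagonal_mul, Matrix.mul_apply]
  simp only [FreeBasis.W, Matrix.of_apply, wfun, gfun_apply, Phi]

lemma FreeBasis.tendsto_W : Tendsto (B.W E) atImInfty (𝓝 (B.Winf E)) := by
  refine tendsto_pi_nhds.mpr fun a => tendsto_pi_nhds.mpr fun j => ?_
  exact lead_tendsto E (B.F j) a

lemma FreeBasis.tendsto_W_inv : Tendsto (fun z => (B.W E z)⁻¹) atImInfty (𝓝 (B.Winf E)⁻¹) := by
  have h : ContinuousAt Ring.inverse (B.Winf E).det := by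
    rw [Ring.inverse_eq_inv']
    exact continuousAt_inv₀ (B.det_Winf_ne E)
  exact (continuousAt_matrix_inv _ h).tendsto.comp (B.tendsto_W E)

lemma FreeBasis.eventually_det_W_ne : ∀ᶠ z in atImInfty, (B.W E z).det ≠ 0 := by
  have h : Tendsto (fun z => (B.W E z).det) atImInfty (𝓝 (B.Winf E).det) :=
    (continuous_id.matrix_det.tendsto _).comp (B.tendsto_W E)
  exact h.eventually_ne (B.det_Winf_ne E)

lemma FreeBasis.Ψ_zeroAt (j x : Q (GG N)) : IsZeroAtImInfty (B.Ψ j x) := by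
  obtain ⟨E⟩ := exists_eigenData N
  have h1 : ∀ᶠ z in atImInfty, B.Ψ j x z = ∑ a, (B.W E z)⁻¹ j a *
      (Δ z * Complex.exp (-(2 * π * Complex.I * E.lam a * z))) * E.b a x := by
    filter_upwards [B.eventually_det_W_ne E] with z hz
    have hinv : (B.Φ z)⁻¹ = (B.W E z)⁻¹ *
        (Matrix.diagonal (fun a => Complex.exp (-(2 * π * Complex.I * E.lam a * z))) *
          Matrix.of fun a x => E.b a x) := by
      apply Matrix.inv_eq_left_inv
      rw [Matrix.mul_assoc, ← B.W_eq E z, Matrix.nonsing_inv_mul _ (isUnit_iff_ne_zero.mpr hz)]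
    simp only [FreeBasis.Ψ, hinv]
    rw [Matrix.mul_apply, Finset.mul_sum]
    refine Finset.sum_congr rfl fun a _ => ?_
    rw [Matrix.diagonal_mul, Matrix.of_apply]
    ring
  have h2 : Tendsto (fun z => ∑ a, (B.W E z)⁻¹ j a *
      (Δ z * Complex.exp (-(2 * π * Complex.I * E.lam a * z))) * E.b a x) atImInfty
      (𝓝 (∑ a, (B.Winf E)⁻¹ j a * 0 * E.b a x)) := by
    refine tendsto_finsetSum _ fun a _ => ?_
    refine Tendsto.mul_const _ (Tendsto.mul ?_ (disc_twist_tendsto _ (E.lam_lt a)))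
    exact (tendsto_pi_nhds.mp (tendsto_pi_nhds.mp (B.tendsto_W_inv E) j) a)
  simp only [mul_zero, zero_mul, Finset.sum_const_zero] at h2
  exact h2.congr' (h1.mono fun z hz => hz.symm)

end atInfty

end FAGenus
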