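import Fermat.Agent.Genus.Cusp

/-! Trace identities at the elliptic points. -/

open UpperHalfPlane ModularForm Matrix.SpecialLinearGroup OnePoint CongruenceSubgroup Function
  Filter Topology EisensteinSeries Derivative SlashInvariantForm
open scoped Manifold MatrixGroups ModularForm Real

namespace FAGenus

open FA_IS

local notation "Δ" => ModularForm.discriminant

variable {N : ℕ} [NeZero N] (B : FreeBasis N)

lemma FreeBasis.trace_identity (γ : SL(2, ℤ)) (z : ℍ) (hz : γ • z = z) :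
    ∑ j, (denom γ z) ^ (-(B.κ j)) =
      (Fintype.card {x : Q (GG N) // (sl γ)⁻¹ • x = x} : ℂ) := by
  classical
  have hd := denom_ne_zero γ z
  have h1 : ∀ j, (denom γ z) ^ (-(B.κ j)) = ∑ x, (B.Φ z)⁻¹ j x * B.Φ z ((sl γ)⁻¹ • x) j := by
    intro j
    have h2 : ∑ x, (B.Φ z)⁻¹ j x * B.Φ z x j = 1 := by
      rw [← Matrix.mul_apply, Matrix.nonsing_inv_mul _ (B.isUnit_det z), Matrix.one_apply_eq]
    have h3 : ∀ x, B.Φ z x j = denom γ z ^ (B.κ j) * B.Φ z ((sl γ)⁻¹ • x) j := by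
      intro x
      have := B.Φ_smul γ z x j
      rwa [hz] at this
    have h4 : ∑ x, (B.Φ z)⁻¹ j x * B.Φ z x j
        = denom γ z ^ (B.κ j) * ∑ x, (B.Φ z)⁻¹ j x * B.Φ z ((sl γ)⁻¹ • x) j := by
      rw [Finset.mul_sum]
      refine Finset.sum_congr rfl fun x _ => ?_
      rw [h3 x]
      ring
    rw [h2] at h4
    rw [zpow_neg, eq_comm, ← mul_right_inj' (zpow_ne_zero (B.κ j) hd), ← h4,
      mul_inv_cancel₀ (zpow_ne_zero _ hd)]
  simp only [h1]
  rw [Finset.sum_comm]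
  have h5 : ∀ x, ∑ j, (B.Φ z)⁻¹ j x * B.Φ z ((sl γ)⁻¹ • x) j
      = if (sl γ)⁻¹ • x = x then 1 else 0 := by
    intro x
    have : ∑ j, (B.Φ z)⁻¹ j x * B.Φ z ((sl γ)⁻¹ • x) j
        = ∑ j, B.Φ z ((sl γ)⁻¹ • x) j * (B.Φ z)⁻¹ j x :=
      Finset.sum_congr rfl fun j _ => mul_comm _ _
    rw [this, ← Matrix.mul_apply, Matrix.mul_nonsing_inv _ (B.isUnit_det z), Matrix.one_apply]
  simp only [h5]
  rw [Finset.sum_boole, Fintype.card_subtype]

/-- the point `ρ = e^{2πi/3}` -/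
noncomputable def rho : ℍ := ⟨-1 / 2 + (Real.sqrt 3 / 2 : ℝ) * Complex.I, by simp⟩

/-- `ε = ρ + 1 = e^{πi/3}` -/
noncomputable def eps : ℂ := 1 / 2 + (Real.sqrt 3 / 2 : ℝ) * Complex.I

lemma eps_sq : eps ^ 2 = eps - 1 := by
  have h3 : ((Real.sqrt 3 : ℝ) : ℂ) ^ 2 = 3 := by
    rw [← Complex.ofReal_pow, Real.sq_sqrt (by norm_num)]
    norm_num
  unfold eps
  push_cast
  have hI := Complex.I_sq
  linear_combination (-1 / 4 : ℂ) * h3 * 1 + ((Real.sqrt 3 : ℂ) ^ 2 / 4) * hI + (0 : ℂ) * h3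


lemma S_smul_I : ModularGroup.S • (I : ℍ) = I := by
  apply UpperHalfPlane.ext
  rw [modular_S_smul]
  simp

lemma denom_S_I : denom ModularGroup.S (I : ℍ) = Complex.I := by
  rw [ModularGroup.denom_S]
  rfl

lemma coe_rho : (rho : ℂ) = eps - 1 := by
  show (-1 / 2 + (Real.sqrt 3 / 2 : ℝ) * Complex.I : ℂ) = _
  unfold eps
  ring

lemma eps_ne_zero : eps ≠ 0 := by
  intro h
  have := eps_sq
  rw [h] at this
  norm_num at this

lemma denom_ST_rho :
    denom ((ModularGroup.S * ModularGroup.T : SL(2, ℤ)) : GL (Fin 2) ℝ) rho = eps := by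
  have : ((ModularGroup.S * ModularGroup.T : SL(2, ℤ)) : Matrix (Fin 2) (Fin 2) ℤ)
      = !![0, -1; 1, 1] := by
    simp [ModularGroup.S, ModularGroup.T]
  rw [ModularGroup.denom_apply, this, coe_rho]
  simp

lemma ST_smul_rho : (ModularGroup.S * ModularGroup.T) • rho = rho := by
  apply UpperHalfPlane.ext
  have : ((ModularGroup.S * ModularGroup.T : SL(2, ℤ)) : Matrix (Fin 2) (Fin 2) ℤ)
      = !![0, -1; 1, 1] := by
    simp [ModularGroup.S, ModularGroup.T]
  rw [coe_specialLinearGroup_apply, this, coe_rho]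
  simp only [Matrix.of_apply, Matrix.cons_val', Matrix.cons_val_zero, Matrix.cons_val_one,
    Matrix.cons_val_fin_one, algebraMap_int_eq, eq_intCast, Int.cast_zero, Int.cast_neg,
    Int.cast_one, Complex.ofReal_zero, Complex.ofReal_neg, Complex.ofReal_one]
  have h := eps_sq
  have h0 := eps_ne_zero
  have h1 : (1 : ℂ) * (eps - 1) + 1 = eps := by ring
  rw [h1]
  field_simp
  linear_combination -h

lemma FreeBasis.trace_S : ∑ j, Complex.I ^ (-(B.κ j)) =
    (Fintype.card {x : Q (GG N) // (sl ModularGroup.S)⁻¹ • x = x} : ℂ) := by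
  have := B.trace_identity ModularGroup.S I S_smul_I
  rwa [denom_S_I] at this

lemma FreeBasis.trace_ST : ∑ j, eps ^ (-(B.κ j)) =
    (Fintype.card {x : Q (GG N) // (sl (ModularGroup.S * ModularGroup.T))⁻¹ • x = x} : ℂ) := by
  have := B.trace_identity (ModularGroup.S * ModularGroup.T) rho ST_smul_rho
  rwa [denom_ST_rho] at this

end FAGenus
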