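import Fermat.Agent.IntStr.A0

/-! Level one facts, division lemma by `E₄, E₆`. -/

open UpperHalfPlane ModularForm Matrix.SpecialLinearGroup OnePoint CongruenceSubgroup Function
  Filter Topology EisensteinSeries
open scoped Manifold MatrixGroups ModularForm Real

namespace FAGenus

open FA_IS

local notation "Δ" => ModularForm.discriminant

/-- level one forms as functions -/
abbrev RR (m : ℤ) : Submodule ℂ (ℍ → ℂ) := MFfun 𝒮ℒ m

lemma nice_tendsto {h : ℝ} (hh : 0 < h) {F : ℍ → ℂ} (hF : Nice h F) :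
    Tendsto F atImInfty (𝓝 (valueAtInfty F)) := by
  have ha := hF.analyticAt hh
  rw [← cuspFunction_apply_zero hh ha hF.per]
  have : (cuspFunction h F ∘ fun τ : ℍ ↦ Periodic.qParam h τ : ℍ → ℂ) = F := by
    funext τ
    simpa using eq_cuspFunction τ hh.ne' hF.per
  simpa [this] using ha.continuousAt.tendsto.comp (qParam_tendsto_atImInfty hh)

lemma RR_nice {m : ℤ} {r : ℍ → ℂ} (hr : r ∈ RR m) : Nice 1 r := by
  obtain ⟨f, rfl⟩ := hr
  exact nice_levelOne m f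

lemma RR_tendsto {m : ℤ} {r : ℍ → ℂ} (hr : r ∈ RR m) :
    Tendsto r atImInfty (𝓝 (valueAtInfty r)) := nice_tendsto one_pos (RR_nice hr)

lemma RR_slash {m : ℤ} {r : ℍ → ℂ} (hr : r ∈ RR m) (γ : SL(2, ℤ)) : r ∣[m] γ = r := by
  obtain ⟨f, rfl⟩ := hr
  exact f.slash_action_eq' _ ⟨γ, rfl⟩

lemma E_tendsto {k : ℕ} (hk : 3 ≤ k) (hk2 : Even k) : Tendsto (E hk) atImInfty (𝓝 1) := by
  have h := RR_tendsto (coe_mem_MFfun (E hk))
  have h1 := E_qExpansion_coeff_zero hk hk2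
  rw [qExpansion_coeff_zero one_pos
      (ModularFormClass.analyticAt_cuspFunction_zero _ one_pos one_mem_strictPeriods_SL)
      (SlashInvariantFormClass.periodic_comp_ofComplex _ one_mem_strictPeriods_SL)] at h1
  rwa [h1] at h

lemma exists_eOne (m : ℤ) (hm : Even m) (h : m = 0 ∨ 4 ≤ m) :
    ∃ e ∈ RR m, Tendsto e atImInfty (𝓝 1) := by
  rcases h with rfl | h
  · exact ⟨1, ⟨1, rfl⟩, tendsto_const_nhds⟩
  · lift m to ℕ using (by omega)
    have hk : 3 ≤ m := by omega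
    exact ⟨E hk, coe_mem_MFfun _, E_tendsto hk (by exact_mod_cast hm)⟩

lemma E4_E6_ne (z : ℍ) (h4 : E₄ z = 0) : E₆ z ≠ 0 := by
  intro h6
  have := discriminant_eq_E₄_cube_sub_E₆_sq z
  rw [h4, h6] at this
  exact discriminant_ne_zero z (by simpa using this)

/-- a level one form vanishing at `∞` is divisible by `Δ`. -/
lemma RR_cusp_div {m : ℤ} {r : ℍ → ℂ} (hr : r ∈ RR m) (h0 : Tendsto r atImInfty (𝓝 0)) :
    ∃ g ∈ RR (m - 12), r = Δ * g := by
  obtain ⟨f, rfl⟩ := hr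
  have h1 : (qExpansion 1 f).coeff 0 = 0 := by
    rw [qExpansion_coeff_zero one_pos
      (ModularFormClass.analyticAt_cuspFunction_zero _ one_pos one_mem_strictPeriods_SL)
      (SlashInvariantFormClass.periodic_comp_ofComplex _ one_mem_strictPeriods_SL)]
    exact IsZeroAtImInfty.valueAtInfty_eq_zero h0
  refine ⟨CuspForm.discriminantEquiv (toCuspForm f h1), coe_mem_MFfun _, ?_⟩
  rw [discriminant_mul_discriminantEquiv]
  rfl


lemma RR_neg {m : ℤ} (hm : m < 0) : RR m = ⊥ := by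
  rw [eq_bot_iff]
  rintro _ ⟨f, rfl⟩
  rw [Submodule.mem_bot]
  exact ModularFormClass.levelOne_neg_weight_eq_zero hm f

lemma RR_odd {m : ℤ} (hm : Odd m) : RR m = ⊥ := by
  rw [eq_bot_iff]
  rintro _ ⟨f, rfl⟩
  rw [Submodule.mem_bot, ModularForm.levelOne_odd_weight_eq_zero hm f]
  rfl

lemma RR_two : RR 2 = ⊥ := by
  rw [eq_bot_iff]
  rintro _ ⟨f, rfl⟩
  rw [Submodule.mem_bot, rank_zero_iff_forall_zero.mp levelOne_weight_two_rank_zero f]
  rfl

lemma RR_zero {r : ℍ → ℂ} (hr : r ∈ RR 0) : ∃ c : ℂ, r = c • (1 : ℍ → ℂ) := by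
  obtain ⟨f, rfl⟩ := hr
  obtain ⟨c, hc⟩ := ModularFormClass.levelOne_weight_zero_const f
  refine ⟨c, ?_⟩
  rw [hc]
  funext z
  simp

lemma one_mem_RR : (1 : ℍ → ℂ) ∈ RR 0 := ⟨1, rfl⟩

lemma E4_mem : (⇑E₄ : ℍ → ℂ) ∈ RR 4 := coe_mem_MFfun _
lemma E6_mem : (⇑E₆ : ℍ → ℂ) ∈ RR 6 := coe_mem_MFfun _

lemma disc_eq : (Δ : ℍ → ℂ) = (1 / 1728 : ℂ) • ((⇑E₄ : ℍ → ℂ) ^ 3 - (⇑E₆ : ℍ → ℂ) ^ 2) := by
  funext z
  rw [discriminant_eq_E₄_cube_sub_E₆_sq z]
  simp
  ring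

/-- `R_m = E₄ R_{m-4} + E₆ R_{m-6}` for `m ≠ 0`, `R_0 = ℂ`. -/
lemma RR_struct (m : ℤ) (r : ℍ → ℂ) (hr : r ∈ RR m) :
    ∃ c : ℂ, ∃ a ∈ RR (m - 6), ∃ b ∈ RR (m - 4),
      r = c • (1 : ℍ → ℂ) + ⇑E₆ * a + ⇑E₄ * b ∧ (m ≠ 0 → c = 0) := by
  have triv : r = 0 → ∃ c : ℂ, ∃ a ∈ RR (m - 6), ∃ b ∈ RR (m - 4),
      r = c • (1 : ℍ → ℂ) + ⇑E₆ * a + ⇑E₄ * b ∧ (m ≠ 0 → c = 0) := by
    rintro rfl
    exact ⟨0, 0, Submodule.zero_mem _, 0, Submodule.zero_mem _, by simp, fun _ => rfl⟩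
  rcases lt_or_ge m 0 with hneg | hpos
  · apply triv
    rw [RR_neg hneg] at hr
    simpa using hr
  rcases Int.even_or_odd m with hev | hodd
  swap
  · apply triv
    rw [RR_odd hodd] at hr
    simpa using hr
  rcases eq_or_ne m 0 with rfl | h0
  · obtain ⟨c, rfl⟩ := RR_zero hr
    exact ⟨c, 0, Submodule.zero_mem _, 0, Submodule.zero_mem _, by simp, fun h => absurd rfl h⟩
  rcases eq_or_ne m 2 with rfl | h2
  · apply triv
    rw [RR_two] at hr
    simpa using hr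
  have h4 : 4 ≤ m := by
    obtain ⟨t, rfl⟩ := hev
    omega
  -- a form `e` of weight `m` with value one at infinity lying in `E₄ R + E₆ R`
  obtain ⟨a0, ha0, b0, hb0, he1⟩ : ∃ a0 ∈ RR (m - 6), ∃ b0 ∈ RR (m - 4),
      Tendsto (⇑E₆ * a0 + ⇑E₄ * b0) atImInfty (𝓝 1) := by
    rcases eq_or_ne m 6 with rfl | h6
    · refine ⟨1, one_mem_RR, 0, Submodule.zero_mem _, ?_⟩
      simpa using E_tendsto (k := 6) (by norm_num) ⟨3, rfl⟩
    · obtain ⟨e, he, het⟩ := exists_eOne (m - 4) (by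
        obtain ⟨t, rfl⟩ := hev
        exact ⟨t - 2, by ring⟩) (by
        obtain ⟨t, rfl⟩ := hev
        omega)
      refine ⟨0, Submodule.zero_mem _, e, he, ?_⟩
      have := (E_tendsto (k := 4) (by norm_num) ⟨2, rfl⟩).mul het
      rw [mul_one] at this
      rw [mul_zero, zero_add]
      exact this
  set c := valueAtInfty r with hc
  have hrt := RR_tendsto hr
  have hmem : r - c • (⇑E₆ * a0 + ⇑E₄ * b0) ∈ RR m := by
    refine Submodule.sub_mem _ hr (Submodule.smul_mem _ _ (Submodule.add_mem _ ?_ ?_))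
    · exact MFfun_mul (by ring) E6_mem ha0
    · exact MFfun_mul (by ring) E4_mem hb0
  have hlim : Tendsto (r - c • (⇑E₆ * a0 + ⇑E₄ * b0)) atImInfty (𝓝 0) := by
    have := hrt.sub (he1.const_smul c)
    rw [smul_eq_mul, mul_one, ← hc, sub_self] at this
    exact this
  obtain ⟨g, hg, hgeq⟩ := RR_cusp_div hmem hlim
  refine ⟨0, c • a0 - (1 / 1728 : ℂ) • (⇑E₆ * g), ?_, c • b0 + (1 / 1728 : ℂ) • (⇑E₄ ^ 2 * g), ?_,
    ?_, fun _ => rfl⟩
  · refine Submodule.sub_mem _ (Submodule.smul_mem _ _ ha0) (Submodule.smul_mem _ _ ?_)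
    exact MFfun_mul (by ring) E6_mem hg
  · refine Submodule.add_mem _ (Submodule.smul_mem _ _ hb0) (Submodule.smul_mem _ _ ?_)
    refine MFfun_mul (m₁ := 8) (by ring) ?_ hg
    rw [pow_two]
    exact MFfun_mul (by ring) E4_mem E4_mem
  · have : r = c • (⇑E₆ * a0 + ⇑E₄ * b0) + Δ * g := by
      rw [← hgeq]; ring
    rw [this, disc_eq]
    funext z
    simp only [Pi.add_apply, Pi.smul_apply, Pi.mul_apply, Pi.sub_apply, Pi.pow_apply, smul_eq_mul,
      Pi.one_apply]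
    ring

lemma E4_ne_zero : (⇑E₄ : ℍ → ℂ) ≠ 0 := by
  intro h
  have h1 := E_tendsto (k := 4) (by norm_num) ⟨2, rfl⟩
  rw [h] at h1
  have h2 : Tendsto (0 : ℍ → ℂ) atImInfty (𝓝 0) := tendsto_const_nhds
  exact one_ne_zero (tendsto_nhds_unique h1 h2)

lemma MFfun_mdiff {𝒢 : Subgroup (GL (Fin 2) ℝ)} [𝒢.HasDetOne] {m : ℤ} {f : ℍ → ℂ}
    (hf : f ∈ MFfun 𝒢 m) : MDiff f := by
  obtain ⟨f, rfl⟩ := hf
  exact f.holo'

lemma E4_mul_inj {𝒢 : Subgroup (GL (Fin 2) ℝ)} [𝒢.HasDetOne] (k : ℤ) (f : ℍ → ℂ)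
    (hf : f ∈ MFfun 𝒢 k) (h : ⇑E₄ * f = 0) : f = 0 := by
  rcases (UpperHalfPlane.mul_eq_zero_iff E₄.holo' (MFfun_mdiff hf)).mp h with h | h
  · exact absurd h E4_ne_zero
  · exact h


lemma bdd_of_mul_bdd {u v : ℍ → ℂ} (hv : Tendsto v atImInfty (𝓝 1))
    (h : IsBoundedAtImInfty (v * u)) : IsBoundedAtImInfty u := by
  have h1 : ∀ᶠ z in atImInfty, (1 / 2 : ℝ) < ‖v z‖ := by
    have := hv.norm
    rw [norm_one] at this
    exact this.eventually (lt_mem_nhds (by norm_num))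
  have h2 : u =O[atImInfty] (v * u) := by
    refine Asymptotics.IsBigO.of_bound 2 ?_
    filter_upwards [h1] with z hz
    rw [Pi.mul_apply, norm_mul]
    nlinarith [norm_nonneg (u z)]
  exact h2.trans h

lemma div_E4 {𝒢 : Subgroup (GL (Fin 2) ℝ)} [𝒢.IsArithmetic] [𝒢.HasDetOne] (h𝒢 : 𝒢 ≤ 𝒮ℒ) (k : ℤ)
    (f : ℍ → ℂ) (hf : f ∈ MFfun 𝒢 k) (g : ℍ → ℂ) (hg : g ∈ MFfun 𝒢 (k + 2))
    (h : ⇑E₆ * f = ⇑E₄ * g) : ∃ H ∈ MFfun 𝒢 (k - 4), f = ⇑E₄ * H := by
  classical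
  have hpt : ∀ z, E₆ z * f z = E₄ z * g z := fun z => congrFun h z
  set H : ℍ → ℂ := fun z => if E₄ z = 0 then g z / E₆ z else f z / E₄ z with hH
  have h4 : ⇑E₄ * H = f := by
    funext z
    simp only [Pi.mul_apply, hH]
    split_ifs with hz
    · have h6 := E4_E6_ne z hz
      have := hpt z
      rw [hz, zero_mul] at this
      rw [hz, zero_mul]
      exact ((mul_eq_zero.mp this).resolve_left h6).symm
    · field_simp
  have h6 : ⇑E₆ * H = g := by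
    funext z
    simp only [Pi.mul_apply, hH]
    split_ifs with hz
    · have h6 := E4_E6_ne z hz
      field_simp
    · have := hpt z
      field_simp
      linear_combination this
  have hfd := MFfun_mdiff hf
  have hgd := MFfun_mdiff hg
  have hmd : MDiff H := by
    intro z
    rw [UpperHalfPlane.mdifferentiableAt_iff]
    have key : ∀ (e u : ℍ → ℂ), MDiff e → MDiff u → e * H = u → e z ≠ 0 →
        DifferentiableAt ℂ (H ∘ ofComplex) ↑z := by
      intro e u he hu heq hez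
      have he' := UpperHalfPlane.mdifferentiableAt_iff.mp (he z)
      have hu' := UpperHalfPlane.mdifferentiableAt_iff.mp (hu z)
      have hez' : (e ∘ ofComplex) ↑z ≠ 0 := by simpa using hez
      have hd := hu'.div he' hez'
      refine hd.congr_of_eventuallyEq ?_
      filter_upwards [he'.continuousAt.eventually_ne hez'] with w hw
      have := congrFun heq (ofComplex w)
      simp only [Pi.mul_apply, comp_apply, Pi.div_apply] at this hw ⊢
      rw [← this]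
      field_simp
    by_cases hz : E₄ z = 0
    · exact key _ _ E₆.holo' hgd h6 (E4_E6_ne z hz)
    · exact key _ _ E₄.holo' hfd h4 hz
  have hsl4 : ∀ γ : SL(2, ℤ), ⇑E₄ * (H ∣[k - 4] γ) = f ∣[k] γ := by
    intro γ
    have := mul_slash_SL2 4 (k - 4) γ ⇑E₄ H
    rw [h4, RR_slash E4_mem γ, show (4 : ℤ) + (k - 4) = k by ring] at this
    exact this.symm
  have hsl6 : ∀ γ : SL(2, ℤ), ⇑E₆ * (H ∣[k - 4] γ) = g ∣[k + 2] γ := by
    intro γ
    have := mul_slash_SL2 6 (k - 4) γ ⇑E₆ H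
    rw [h6, RR_slash E6_mem γ, show (6 : ℤ) + (k - 4) = k + 2 by ring] at this
    exact this.symm
  refine ⟨H, ⟨mkMF 𝒢 (k - 4) H ?_ hmd ?_, rfl⟩, h4.symm⟩
  · intro γ' hγ'
    obtain ⟨γ, rfl⟩ := h𝒢 hγ'
    obtain ⟨F, rfl⟩ := hf
    obtain ⟨G, rfl⟩ := hg
    have e4 := hsl4 γ
    have e6 := hsl6 γ
    rw [show (⇑F ∣[k] γ) = ⇑F from F.slash_action_eq' _ hγ', ← h4] at e4
    rw [show (⇑G ∣[k + 2] γ) = ⇑G from G.slash_action_eq' _ hγ', ← h6] at e6
    funext z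
    have e4z := congrFun e4 z
    have e6z := congrFun e6 z
    simp only [Pi.mul_apply] at e4z e6z
    by_cases hz : E₄ z = 0
    · exact mul_left_cancel₀ (E4_E6_ne z hz) e6z
    · exact mul_left_cancel₀ hz e4z
  · intro γ
    apply bdd_of_mul_bdd (E_tendsto (k := 4) (by norm_num) ⟨2, rfl⟩)
    rw [hsl4 γ]
    obtain ⟨F, rfl⟩ := hf
    exact ModularFormClass.bdd_at_infty_slash F γ

end FAGenus
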