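import Mathlib

namespace FAGenus

section aux
variable {𝒜 : Type} [AddCommGroup 𝒜] [Module ℂ 𝒜]

lemma exists_compl_family (V W : Submodule ℂ 𝒜) :
    ∃ (ι : Type) (F : ι → 𝒜), (∀ i, F i ∈ V) ∧
      (∀ f ∈ V, ∃ c : ι →₀ ℂ, f - c.sum (fun i a => a • F i) ∈ W) ∧
      (∀ (t : Finset ι) (c : ι → ℂ), ∑ i ∈ t, c i • F i ∈ W → ∀ i ∈ t, c i = 0) ∧
      (V = ⊥ → IsEmpty ι) := by
  classical
  set W' : Submodule ℂ V := W.comap V.subtype with hW'
  set b := Module.Basis.ofVectorSpace ℂ (V ⧸ W') with hb
  let lift : (V ⧸ W') → V := Function.surjInv (Submodule.mkQ_surjective W')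
  have hlift : ∀ q, W'.mkQ (lift q) = q := Function.surjInv_eq (Submodule.mkQ_surjective W')
  have hmem : ∀ v : V, v ∈ W' ↔ (v : 𝒜) ∈ W := fun v => Iff.rfl
  refine ⟨Module.Basis.ofVectorSpaceIndex ℂ (V ⧸ W'), fun i => (lift (b i) : 𝒜),
    fun i => (lift (b i)).2, ?_, ?_, ?_⟩
  · intro f hf
    refine ⟨b.repr (W'.mkQ ⟨f, hf⟩), ?_⟩
    have h1 : W'.mkQ (⟨f, hf⟩ - (b.repr (W'.mkQ ⟨f, hf⟩)).sum (fun i a => a • lift (b i))) = 0 := by
      rw [map_sub, map_finsuppSum]
      simp only [map_smul, hlift]
      have := b.linearCombination_repr (W'.mkQ ⟨f, hf⟩)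
      rw [Finsupp.linearCombination_apply] at this
      rw [this, sub_self]
    rw [Submodule.mkQ_apply, Submodule.Quotient.mk_eq_zero, hmem] at h1
    simpa [Finsupp.sum] using h1
  · intro t c hc i hi
    have h1 : ∑ i ∈ t, c i • b i = 0 := by
      have h2 : W'.mkQ (∑ i ∈ t, c i • lift (b i)) = 0 := by
        rw [Submodule.mkQ_apply, Submodule.Quotient.mk_eq_zero, hmem]
        simpa using hc
      simpa [map_sum, hlift] using h2
    exact (linearIndependent_iff'.mp b.linearIndependent) t c h1 i hi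
  · intro hV
    constructor
    intro i
    have : Subsingleton V := by rw [hV]; infer_instance
    have : Subsingleton (V ⧸ W') := inferInstance
    exact b.ne_zero i (Subsingleton.elim _ _)

end aux

/-- G-B -/
theorem exists_graded_basis {𝒜 : Type} [CommRing 𝒜] [Algebra ℂ 𝒜]
    (M R : ℤ → Submodule ℂ 𝒜) (X Y : 𝒜)
    (hMneg : ∀ k < 0, M k = ⊥) (hRneg : ∀ k < 0, R k = ⊥)
    (hR1 : (1 : 𝒜) ∈ R 0) (hX : X ∈ R 4) (hY : Y ∈ R 6)
    (hRR : ∀ a b, ∀ r ∈ R a, ∀ r' ∈ R b, r * r' ∈ R (a + b))
    (hRM : ∀ a b, ∀ r ∈ R a, ∀ f ∈ M b, r * f ∈ M (a + b))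
    (hRS : ∀ m, ∀ r ∈ R m, ∃ c : ℂ, ∃ a ∈ R (m - 6), ∃ b ∈ R (m - 4),
        r = c • (1 : 𝒜) + Y * a + X * b ∧ (m ≠ 0 → c = 0))
    (hXinj : ∀ k, ∀ f ∈ M k, X * f = 0 → f = 0)
    (hreg : ∀ k, ∀ f ∈ M k, ∀ g ∈ M (k + 2), Y * f = X * g → ∃ h ∈ M (k - 4), f = X * h) :
    ∃ (J : Type) (κ : J → ℤ) (F : J → 𝒜), (∀ j, F j ∈ M (κ j)) ∧
      (∀ k, ∀ f ∈ M k, ∃ r : J →₀ 𝒜, (∀ j, r j ∈ R (k - κ j)) ∧
        f = r.sum fun j a => a * F j) ∧
      (∀ k, ∀ (s : Finset J) (r : J → 𝒜), (∀ j, r j ∈ R (k - κ j)) →
        ∑ j ∈ s, r j * F j = 0 → ∀ j ∈ s, r j = 0) := by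
  classical
  let W : ℤ → Submodule ℂ 𝒜 := fun k =>
    (M (k - 4)).map (LinearMap.mulLeft ℂ X) ⊔ (M (k - 6)).map (LinearMap.mulLeft ℂ Y)
  have hWmem : ∀ k f, f ∈ W k ↔ ∃ g ∈ M (k - 4), ∃ h ∈ M (k - 6), f = X * g + Y * h := by
    intro k f
    simp only [W, Submodule.mem_sup, Submodule.mem_map, LinearMap.mulLeft_apply]
    constructor
    · rintro ⟨_, ⟨g, hg, rfl⟩, _, ⟨h, hh, rfl⟩, rfl⟩
      exact ⟨g, hg, h, hh, rfl⟩
    · rintro ⟨g, hg, h, hh, rfl⟩
      exact ⟨_, ⟨g, hg, rfl⟩, _, ⟨h, hh, rfl⟩, rfl⟩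
  choose ι F0 hF0 hgen hind hemp using fun k => exists_compl_family (M k) (W k)
  let J := Σ k, ι k
  let κ : J → ℤ := fun j => j.1
  let F : J → 𝒜 := fun j => F0 j.1 j.2
  have hκ : ∀ j : J, 0 ≤ κ j := by
    intro j
    by_contra h
    rw [not_le] at h
    exact (hemp j.1 (hMneg _ h)).false j.2
  have hFM : ∀ j : J, F j ∈ M (κ j) := fun j => hF0 j.1 j.2
  refine ⟨J, κ, F, hFM, ?_, ?_⟩
  · -- generation
    let Gen : ℤ → 𝒜 → Prop := fun k f => ∃ r : J →₀ 𝒜, (∀ j, r j ∈ R (k - κ j)) ∧
        f = r.sum fun j a => a * F j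
    have gen_zero : ∀ k, Gen k 0 := fun k => ⟨0, fun j => by simp, by simp⟩
    have gen_add : ∀ k f g, Gen k f → Gen k g → Gen k (f + g) := by
      rintro k _ _ ⟨r, hr, rfl⟩ ⟨r', hr', rfl⟩
      refine ⟨r + r', fun j => ?_, ?_⟩
      · rw [Finsupp.add_apply]
        exact add_mem (hr j) (hr' j)
      · rw [Finsupp.sum_add_index' (fun j => by simp) (fun j a b => by ring)]
    have gen_single : ∀ (j : J) (c : ℂ), Gen (κ j) (c • F j) := by
      intro j c
      refine ⟨Finsupp.single j (c • (1 : 𝒜)), fun j' => ?_, ?_⟩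
      · rw [Finsupp.single_apply]
        split_ifs with h
        · subst h
          rw [sub_self]
          exact Submodule.smul_mem _ _ hR1
        · exact zero_mem _
      · rw [Finsupp.sum_single_index (by simp)]
        simp
    have gen_mul : ∀ (w k : ℤ) (Z : 𝒜), Z ∈ R w → ∀ f, Gen (k - w) f → Gen k (Z * f) := by
      rintro w k Z hZ _ ⟨r, hr, rfl⟩
      refine ⟨r.mapRange (fun a => Z * a) (by simp), fun j => ?_, ?_⟩
      · rw [Finsupp.mapRange_apply]
        have := hRR _ _ Z hZ (r j) (hr j)
        have e : w + (k - w - κ j) = k - κ j := by ring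
        rwa [e] at this
      · rw [Finsupp.sum_mapRange_index (fun j => by simp), Finsupp.mul_sum]
        refine Finsupp.sum_congr fun j _ => by ring
    have gen : ∀ n : ℕ, ∀ k : ℤ, k < n → ∀ f ∈ M k, Gen k f := by
      intro n
      induction n with
      | zero =>
        intro k hk f hf
        rw [hMneg k (by simpa using hk), Submodule.mem_bot] at hf
        rw [hf]
        exact gen_zero k
      | succ n ih =>
        intro k hk f hf
        push_cast at hk
        obtain ⟨c, hc⟩ := hgen k f hf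
        obtain ⟨g, hg, h, hh, hfe⟩ := (hWmem k _).mp hc
        have h1 : Gen k (c.sum fun i a => a • F0 k i) := by
          unfold Finsupp.sum
          refine Finset.sum_induction _ (Gen k) (gen_add k) (gen_zero k) fun i _ => ?_
          exact gen_single ⟨k, i⟩ (c i)
        have h2 : Gen k (X * g) := gen_mul 4 k X hX g (ih (k - 4) (by omega) g hg)
        have h3 : Gen k (Y * h) := gen_mul 6 k Y hY h (ih (k - 6) (by omega) h hh)
        have e : f = (c.sum fun i a => a • F0 k i) + (X * g + Y * h) := by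
          rw [← hfe]; ring
        rw [e]
        exact gen_add k _ _ h1 (gen_add k _ _ h2 h3)
    intro k f hf
    exact gen (k.toNat + 1) k (by have := Int.self_le_toNat k; push_cast; omega) f hf
  · -- independence
    have hsumM : ∀ (k : ℤ) (s : Finset J) (a : J → 𝒜), (∀ j, a j ∈ R (k - κ j)) →
        ∑ j ∈ s, a j * F j ∈ M k := by
      intro k s a ha
      refine Submodule.sum_mem _ fun j _ => ?_
      have := hRM _ _ (a j) (ha j) (F j) (hFM j)
      have e : k - κ j + κ j = k := by ring
      rwa [e] at this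
    have hneg : ∀ (k : ℤ), k < 0 → ∀ (j : J) (x : 𝒜), x ∈ R (k - κ j) → x = 0 := by
      intro k hk j x hx
      rw [hRneg _ (by have := hκ j; omega), Submodule.mem_bot] at hx
      exact hx
    have P' : ∀ n : ℕ, ∀ k : ℤ, k < n → ∀ (s : Finset J) (r : J → 𝒜),
        (∀ j, r j ∈ R (k - κ j)) → (∃ g ∈ M (k - 4), ∑ j ∈ s, r j * F j = X * g) →
        ∀ j ∈ s, ∃ b ∈ R (k - κ j - 4), r j = X * b := by
      intro n
      induction n with
      | zero =>
        intro k hk s r hr _ j _
        exact ⟨0, zero_mem _, by rw [hneg k (by simpa using hk) j _ (hr j)]; simp⟩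
      | succ n ih =>
        intro k hk s r hr hg
        push_cast at hk
        obtain ⟨g, hg, hsum⟩ := hg
        choose c a ha b hb hrj hc0 using fun j => hRS (k - κ j) (r j) (hr j)
        have ha' : ∀ j, a j ∈ R (k - 6 - κ j) := fun j => by
          have := ha j
          rwa [show k - κ j - 6 = k - 6 - κ j by ring] at this
        have hb' : ∀ j, b j ∈ R (k - 4 - κ j) := fun j => by
          have := hb j
          rwa [show k - κ j - 4 = k - 4 - κ j by ring] at this
        set sa := ∑ j ∈ s, a j * F j with hsa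
        set sb := ∑ j ∈ s, b j * F j with hsb
        have hsaM : sa ∈ M (k - 6) := hsumM (k - 6) s a ha'
        have hsbM : sb ∈ M (k - 4) := hsumM (k - 4) s b hb'
        have hdecomp : ∑ j ∈ s, r j * F j = ∑ j ∈ s, c j • F j + Y * sa + X * sb := by
          rw [hsa, hsb, Finset.mul_sum, Finset.mul_sum, ← Finset.sum_add_distrib,
            ← Finset.sum_add_distrib]
          refine Finset.sum_congr rfl fun j _ => ?_
          rw [hrj j]
          simp only [add_mul, smul_mul_assoc, one_mul]
          ring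
        have hcW : ∑ j ∈ s, c j • F j ∈ W k := by
          rw [hWmem]
          refine ⟨g - sb, sub_mem hg hsbM, -sa, neg_mem hsaM, ?_⟩
          have := hdecomp.symm.trans hsum
          linear_combination this
        have hpre : ∑ i ∈ s.preimage (Sigma.mk k) (sigma_mk_injective.injOn),
            c ⟨k, i⟩ • F0 k i = ∑ j ∈ s, c j • F j := by
          refine Finset.sum_preimage (Sigma.mk k) s (sigma_mk_injective.injOn)
            (fun j => c j • F j) ?_
          intro j _ hj
          have : k - κ j ≠ 0 := by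
            intro h
            apply hj
            have hk' : j.1 = k := by
              have : κ j = k := by omega
              exact this
            exact ⟨hk' ▸ j.2, by
              obtain ⟨k', i⟩ := j
              simp only at hk'
              subst hk'
              rfl⟩
          rw [hc0 j this, zero_smul]
        have hczero : ∀ j ∈ s, c j = 0 := by
          intro j hj
          by_cases h : k - κ j = 0
          · obtain ⟨k', i⟩ := j
            have hk' : k' = k := by
              have : κ ⟨k', i⟩ = k := by omega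
              exact this
            subst hk'
            rw [← hpre] at hcW
            exact hind k' _ (fun i => c ⟨k', i⟩) hcW i (by simpa using hj)
          · exact hc0 j h
        have hc_sum : ∑ j ∈ s, c j • F j = 0 :=
          Finset.sum_eq_zero fun j hj => by rw [hczero j hj, zero_smul]
        have hY' : Y * sa = X * (g - sb) := by
          have := hdecomp.symm.trans hsum
          rw [hc_sum] at this
          linear_combination this
        obtain ⟨h, hh, hsah⟩ := hreg (k - 6) sa hsaM (g - sb)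
          (by rw [show k - 6 + 2 = k - 4 by ring]; exact sub_mem hg hsbM) hY'
        have hrec := ih (k - 6) (by omega) s a ha' ⟨h, hh, hsah⟩
        intro j hj
        obtain ⟨a', ha'', haj⟩ := hrec j hj
        refine ⟨Y * a' + b j, add_mem ?_ (hb j), ?_⟩
        · have := hRR _ _ Y hY a' ha''
          rwa [show (6 : ℤ) + (k - 6 - κ j - 4) = k - κ j - 4 by ring] at this
        · rw [hrj j, hczero j hj, haj]
          simp only [zero_smul, zero_add]
          ring
    have Ind : ∀ n : ℕ, ∀ k : ℤ, k < n → ∀ (s : Finset J) (r : J → 𝒜),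
        (∀ j, r j ∈ R (k - κ j)) → ∑ j ∈ s, r j * F j = 0 → ∀ j ∈ s, r j = 0 := by
      intro n
      induction n with
      | zero =>
        intro k hk s r hr _ j _
        exact hneg k (by simpa using hk) j _ (hr j)
      | succ n ih =>
        intro k hk s r hr hsum
        push_cast at hk
        have h1 := P' (n + 1) k (by push_cast; exact hk) s r hr
          ⟨0, zero_mem _, by rw [hsum, mul_zero]⟩
        let b : J → 𝒜 := fun j => if hj : j ∈ s then (h1 j hj).choose else 0
        have hb : ∀ j, b j ∈ R (k - 4 - κ j) := by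
          intro j
          simp only [b]
          split_ifs with hj
          · have e : R (k - κ j - 4) = R (k - 4 - κ j) := by
              rw [show k - κ j - 4 = k - 4 - κ j by ring]
            exact e ▸ (h1 j hj).choose_spec.1
          · exact zero_mem _
        have hrb : ∀ j ∈ s, r j = X * b j := by
          intro j hj
          simp only [b, dif_pos hj]
          exact (h1 j hj).choose_spec.2
        have h2 : X * ∑ j ∈ s, b j * F j = 0 := by
          rw [← hsum, Finset.mul_sum]
          refine Finset.sum_congr rfl fun j hj => ?_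
          rw [hrb j hj]; ring
        have h3 := hXinj (k - 4) _ (hsumM (k - 4) s b hb) h2
        have h4 := ih (k - 4) (by omega) s b hb h3
        intro j hj
        rw [hrb j hj, h4 j hj, mul_zero]
    intro k s r hr hsum
    exact Ind (k.toNat + 1) k (by have := Int.self_le_toNat k; push_cast; omega) s r hr hsum

end FAGenus
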