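import Mathlib

/-! G-E: uniqueness for holomorphic linear systems of ODEs. -/

open Filter Topology

namespace FAGenus

/-- lower bound of the order of a finite sum -/
lemma le_analyticOrderAt_sum' {ι : Type*} (s : Finset ι) (f : ι → ℂ → ℂ) (z : ℂ) (k : ℕ∞)
    (h : ∀ i ∈ s, k ≤ analyticOrderAt (f i) z) :
    k ≤ analyticOrderAt (∑ i ∈ s, f i) z := by
  classical
  induction s using Finset.induction_on with
  | empty =>
    have : analyticOrderAt (0 : ℂ → ℂ) z = ⊤ := by
      rw [analyticOrderAt_eq_top]; simp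
    simp [this]
  | insert a s ha ih =>
    rw [Finset.sum_insert ha]
    exact le_trans (le_min (h a (Finset.mem_insert_self a s))
      (ih fun i hi => h i (Finset.mem_insert_of_mem hi))) le_analyticOrderAt_add

/-- G-E -/
theorem ode_unique {J : Type} [Fintype J] (y : J → ℂ → ℂ) (C : J → J → ℂ → ℂ) (U : Set ℂ)
    (hU : IsOpen U) (hUc : IsPreconnected U)
    (hy : ∀ j, DifferentiableOn ℂ (y j) U) (hC : ∀ i j, DifferentiableOn ℂ (C i j) U)
    (hode : ∀ j, ∀ z ∈ U, deriv (y j) z = ∑ i, C i j z * y i z)
    (z0 : ℂ) (hz0 : z0 ∈ U) (h0 : ∀ j, y j z0 = 0) : ∀ j, ∀ z ∈ U, y j z = 0 := by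
  have hya : ∀ j, AnalyticOnNhd ℂ (y j) U := fun j => (hy j).analyticOnNhd hU
  have hCa : ∀ i j, AnalyticOnNhd ℂ (C i j) U := fun i j => (hC i j).analyticOnNhd hU
  -- all orders at `z0` are infinite
  have key : ∀ n : ℕ, ∀ j, (n : ℕ∞) ≤ analyticOrderAt (y j) z0 := by
    intro n
    induction n with
    | zero => intro j; simp
    | succ n ih =>
      intro j
      have h1 : analyticOrderAt (deriv (y j)) z0 + 1 = analyticOrderAt (y j) z0 := by
        simpa [h0 j] using (hya j z0 hz0).analyticOrderAt_deriv_add_one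
      have h2 : analyticOrderAt (deriv (y j)) z0 =
          analyticOrderAt (∑ i, C i j * y i) z0 := by
        apply analyticOrderAt_congr
        filter_upwards [hU.mem_nhds hz0] with z hz
        rw [hode j z hz]
        simp [Finset.sum_apply]
      have h3 : (n : ℕ∞) ≤ analyticOrderAt (∑ i, C i j * y i) z0 := by
        apply le_analyticOrderAt_sum'
        intro i _
        rw [analyticOrderAt_mul (hCa i j z0 hz0) (hya i z0 hz0)]
        exact le_trans (ih i) le_add_self
      rw [← h1, h2]
      push_cast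
      gcongr
  intro j
  have htop : analyticOrderAt (y j) z0 = ⊤ := ENat.eq_top_iff_forall_ge.mpr fun n => key n j
  rw [analyticOrderAt_eq_top] at htop
  exact (hya j).eqOn_zero_of_preconnected_of_eventuallyEq_zero hUc hz0 htop

end FAGenus
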