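import Mathlib

/-! G-C: functions on the upper half plane with a twisted periodicity. -/

open UpperHalfPlane Filter Topology Asymptotics
open scoped Manifold Real

namespace FAGenus

/-- `z ↦ exp (2π i c z)` on the upper half plane -/
noncomputable def ee (c : ℝ) (z : ℍ) : ℂ := Complex.exp (2 * π * Complex.I * c * z)

lemma ee_mdiff (c : ℝ) : MDiff (ee c) := by
  rw [UpperHalfPlane.mdifferentiable_iff]
  have h : DifferentiableOn ℂ (fun w : ℂ => Complex.exp (2 * π * Complex.I * c * w))
      {z | 0 < z.im} := by fun_prop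
  refine h.congr fun w hw => ?_
  simp [ee, Function.comp, ofComplex_apply_of_im_pos hw]

lemma norm_ee (c : ℝ) (z : ℍ) : ‖ee c z‖ = Real.exp (-(2 * π * c * z.im)) := by
  rw [ee, Complex.norm_exp]
  congr 1
  simp [Complex.mul_re, Complex.mul_im]

lemma ee_ne_zero (c : ℝ) (z : ℍ) : ee c z ≠ 0 := Complex.exp_ne_zero _

lemma ee_add (c d : ℝ) (z : ℍ) : ee (c + d) z = ee c z * ee d z := by
  rw [ee, ee, ee, ← Complex.exp_add]
  congr 1
  push_cast
  ring

lemma ee_vadd (c : ℝ) (z : ℍ) :
    ee c ((1 : ℝ) +ᵥ z) = Complex.exp (2 * π * Complex.I * c) * ee c z := by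
  rw [ee, ee, ← Complex.exp_add]
  congr 1
  simp only [coe_vadd]
  push_cast
  ring

lemma periodic_of_vadd {f : ℍ → ℂ} (hf : ∀ z : ℍ, f ((1 : ℝ) +ᵥ z) = f z) :
    Function.Periodic (f ∘ ofComplex) ((1 : ℝ) : ℂ) := by
  intro w
  by_cases hw : 0 < w.im
  · have hw' : 0 < (w + ((1 : ℝ) : ℂ)).im := by simpa using hw
    simp only [Function.comp_apply]
    rw [ofComplex_apply_of_im_pos hw', ofComplex_apply_of_im_pos hw, ← hf ⟨w, hw⟩]
    congr 1
    apply UpperHalfPlane.ext
    simp [coe_vadd, add_comm]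
  · have hw1 : w.im ≤ 0 := not_lt.mp hw
    have hw' : (w + ((1 : ℝ) : ℂ)).im ≤ 0 := by simpa using hw1
    simp only [Function.comp_apply]
    rw [ofComplex_apply_eq_of_im_nonpos hw' hw1]

lemma ee_zeroAt {c : ℝ} (hc : 0 < c) : IsZeroAtImInfty (ee c) := by
  have h := qParam_tendsto_atImInfty (h := c⁻¹) (inv_pos.mpr hc)
  have e : (fun τ : ℍ => Function.Periodic.qParam c⁻¹ τ) = ee c := by
    funext τ
    rw [Function.Periodic.qParam, ee]
    congr 1
    push_cast
    field_simp
  rw [e] at h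
  exact h

/-- G-C -/
theorem twisted_limit (g : ℍ → ℂ) (hg : MDiff g) (hb : IsBoundedAtImInfty g) (lam : ℝ)
    (h0 : 0 ≤ lam) (h1 : lam < 1)
    (hper : ∀ z : ℍ, g ((1 : ℝ) +ᵥ z) = Complex.exp (2 * π * Complex.I * lam) * g z) :
    ∃ L : ℂ, Tendsto (fun z : ℍ => Complex.exp (-(2 * π * Complex.I * lam * z)) * g z)
        atImInfty (𝓝 L) ∧
      (L = 0 → g =O[atImInfty] (fun z : ℍ => Real.exp (-2 * π * z.im))) := by
  -- `H = e(-λ) g`, `G = e(1-λ) g = e(1) H`
  set H : ℍ → ℂ := ee (-lam) * g with hH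
  set G : ℍ → ℂ := ee (1 - lam) * g with hG
  have hHfun : (fun z : ℍ => Complex.exp (-(2 * π * Complex.I * lam * z)) * g z) = H := by
    funext z
    simp only [hH, Pi.mul_apply, ee]
    congr 2
    push_cast
    ring
  have hHper : ∀ z : ℍ, H ((1 : ℝ) +ᵥ z) = H z := by
    intro z
    simp only [hH, Pi.mul_apply]
    rw [ee_vadd, hper]
    have : Complex.exp (2 * π * Complex.I * ((-lam : ℝ) : ℂ)) *
        Complex.exp (2 * π * Complex.I * lam) = 1 := by
      rw [← Complex.exp_add]
      push_cast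
      simp
    linear_combination (ee (-lam) z * g z) * this
  have hGH : G = ee 1 * H := by
    funext z
    simp only [hG, hH, Pi.mul_apply]
    rw [show (1 - lam : ℝ) = 1 + (-lam) by ring, ee_add]
    ring
  have hGper : ∀ z : ℍ, G ((1 : ℝ) +ᵥ z) = G z := by
    intro z
    rw [hGH]
    simp only [Pi.mul_apply]
    rw [hHper, ee_vadd]
    have : Complex.exp (2 * π * Complex.I * ((1 : ℝ) : ℂ)) = 1 := by
      simp
    rw [this, one_mul]
  have hHmd : MDiff H := (ee_mdiff _).mul hg
  have hGmd : MDiff G := (ee_mdiff _).mul hg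
  have hGzero : IsZeroAtImInfty G := (ee_zeroAt (by linarith)).mul_boundedAtFilter hb
  have hGO := hGzero.exp_decay_atImInfty one_pos (periodic_of_vadd hGper) hGmd
    hGzero.isBoundedAtImInfty
  -- `H` is bounded
  have hHG : H = ee (-1) * G := by
    funext z
    rw [hGH]
    simp only [Pi.mul_apply]
    rw [← mul_assoc, ← ee_add]
    simp [ee]
  have hHb : IsBoundedAtImInfty H := by
    rw [hHG]
    have h2 : (ee (-1) * G) =O[atImInfty]
        (fun z : ℍ => ‖ee (-1) z‖ * Real.exp (-2 * π * z.im / 1)) :=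
      (isBigO_norm_right.mpr (isBigO_refl (ee (-1)) atImInfty)).mul hGO
    refine h2.trans (IsBigO.of_bound 1 (Eventually.of_forall fun z => ?_))
    rw [norm_ee, ← Real.exp_add]
    simp
  have hHana := analyticAt_cuspFunction_zero one_pos (periodic_of_vadd hHper) hHmd hHb
  have hHtend : Tendsto H atImInfty (𝓝 (cuspFunction 1 H 0)) := by
    have h3 := hHana.continuousAt.tendsto.comp (qParam_tendsto_atImInfty (h := 1) one_pos)
    have h4 : (cuspFunction 1 H ∘ fun τ : ℍ ↦ Function.Periodic.qParam 1 τ) = H := by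
      funext τ
      simpa using eq_cuspFunction τ one_ne_zero (periodic_of_vadd hHper)
    rwa [h4] at h3
  refine ⟨cuspFunction 1 H 0, by rw [hHfun]; exact hHtend, fun hL => ?_⟩
  rw [hL] at hHtend
  have hHzero : IsZeroAtImInfty H := hHtend
  have hHO := hHzero.exp_decay_atImInfty one_pos (periodic_of_vadd hHper) hHmd hHb
  have hgH : g = ee lam * H := by
    funext z
    simp only [hH, Pi.mul_apply]
    rw [← mul_assoc, ← ee_add]
    simp [ee]
  rw [hgH]
  have h5 : (ee lam * H) =O[atImInfty]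
      (fun z : ℍ => ‖ee lam z‖ * Real.exp (-2 * π * z.im / 1)) :=
    (isBigO_norm_right.mpr (isBigO_refl (ee lam) atImInfty)).mul hHO
  refine h5.trans (IsBigO.of_bound 1 (Eventually.of_forall fun z => ?_))
  rw [norm_ee, one_mul, div_one, norm_mul, Real.norm_eq_abs, Real.norm_eq_abs,
    Real.abs_exp, Real.abs_exp]
  have : Real.exp (-(2 * π * lam * z.im)) ≤ 1 := by
    rw [Real.exp_le_one_iff]
    have := z.im_pos
    have := Real.pi_pos
    have : 0 ≤ 2 * π * lam * z.im := by positivity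
    linarith
  exact mul_le_of_le_one_left (Real.exp_pos _).le this

end FAGenus
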