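import Fermat.Agent.Genus.Trans
import Fermat.Agent.Genus.Twisted
import Fermat.Agent.Genus.EigenPerm
import Fermat.Agent.Genus.GradedBasis
import Fermat.Agent.Genus.ODE

/-! Leading terms at `∞` of the vector of translates. -/

open UpperHalfPlane ModularForm Matrix.SpecialLinearGroup OnePoint CongruenceSubgroup Function
  Filter Topology EisensteinSeries Derivative SlashInvariantForm
open scoped Manifold MatrixGroups ModularForm Real

namespace FAGenus

open FA_IS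

local notation "Δ" => ModularForm.discriminant

lemma slash_T_apply (k : ℤ) (u : ℍ → ℂ) (z : ℍ) :
    (u ∣[k] ModularGroup.T) z = u ((1 : ℝ) +ᵥ z) := by
  rw [SL_slash_apply, denom, modular_T_smul, ModularGroup.T]
  simp

variable {𝒢 : Subgroup (GL (Fin 2) ℝ)} [𝒢.IsArithmetic]

/-- the permutation of the cosets given by `T` -/
noncomputable def permT (𝒢 : Subgroup (GL (Fin 2) ℝ)) : Equiv.Perm (Q 𝒢) :=
  MulAction.toPerm (sl ModularGroup.T)

/-- a basis of eigenfunctions for `T` -/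
structure EigenData (𝒢 : Subgroup (GL (Fin 2) ℝ)) [𝒢.IsArithmetic] where
  b : Module.Basis (Q 𝒢) ℂ (Q 𝒢 → ℂ)
  lam : Q 𝒢 → ℝ
  lam_nonneg : ∀ a, 0 ≤ lam a
  lam_lt : ∀ a, lam a < 1
  eig : ∀ a x, b a (permT 𝒢 x) = Complex.exp (2 * π * Complex.I * lam a) * b a x

section
variable {F : Type*} [FunLike F ℍ ℂ] {k : ℤ} [ModularFormClass F 𝒢 k]

/-- the eigencomponents of the vector of translates -/
noncomputable def gfun (E : EigenData 𝒢) (f : F) (a : Q 𝒢) : ℍ → ℂ := ∑ x, E.b a x • tr f x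

lemma gfun_apply (E : EigenData 𝒢) (f : F) (a : Q 𝒢) (z : ℍ) :
    gfun E f a z = ∑ x, E.b a x * tr f x z := by
  simp [gfun, Finset.sum_apply]

lemma gfun_mdiff (E : EigenData 𝒢) (f : F) (a : Q 𝒢) : MDiff (gfun E f a) := by
  unfold gfun
  exact MDifferentiable.sum fun x _ => (tr_mdiff f x).const_smul _

lemma gfun_bdd (E : EigenData 𝒢) (f : F) (a : Q 𝒢) : IsBoundedAtImInfty (gfun E f a) := by
  unfold gfun
  exact sum_bdd _ fun x _ => (tr_bdd f x).smul _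

lemma gfun_per (E : EigenData 𝒢) (f : F) (a : Q 𝒢) (z : ℍ) :
    gfun E f a ((1 : ℝ) +ᵥ z) = Complex.exp (2 * π * Complex.I * E.lam a) * gfun E f a z := by
  rw [gfun_apply, gfun_apply, Finset.mul_sum, ← Equiv.sum_comp (permT 𝒢)]
  refine Finset.sum_congr rfl fun x _ => ?_
  rw [E.eig, ← slash_T_apply k (tr f (permT 𝒢 x)) z, tr_slash']
  have : (sl ModularGroup.T)⁻¹ • (permT 𝒢) x = x := by
    simp [permT]
  rw [this]
  ring

lemma tr_eq_sum_gfun (E : EigenData 𝒢) (f : F) (x : Q 𝒢) :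
    tr f x = ∑ a, E.b.repr (Pi.single x 1) a • gfun E f a := by
  funext z
  have h := E.b.sum_repr (Pi.single x (1 : ℂ))
  have h2 : ∀ y, (Pi.single x (1 : ℂ) : Q 𝒢 → ℂ) y = ∑ a, E.b.repr (Pi.single x 1) a * E.b a y := by
    intro y
    conv_lhs => rw [← h]
    simp [Finset.sum_apply]
  simp only [Finset.sum_apply, Pi.smul_apply, smul_eq_mul, gfun_apply, Finset.mul_sum]
  rw [Finset.sum_comm]
  have h3 : tr f x z = ∑ y, (Pi.single x (1 : ℂ) : Q 𝒢 → ℂ) y * tr f y z := by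
    simp [Pi.single_apply]
  rw [h3]
  refine Finset.sum_congr rfl fun y _ => ?_
  rw [h2 y, Finset.sum_mul]
  refine Finset.sum_congr rfl fun a _ => ?_
  ring

/-- the twisted function -/
noncomputable def wfun (E : EigenData 𝒢) (f : F) (a : Q 𝒢) : ℍ → ℂ :=
  fun z => Complex.exp (-(2 * π * Complex.I * E.lam a * z)) * gfun E f a z

lemma exists_lead (E : EigenData 𝒢) (f : F) (a : Q 𝒢) :
    ∃ L : ℂ, Tendsto (wfun E f a) atImInfty (𝓝 L) ∧
      (L = 0 → gfun E f a =O[atImInfty] (fun z : ℍ => Real.exp (-2 * π * z.im))) :=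
  twisted_limit (gfun E f a) (gfun_mdiff E f a) (gfun_bdd E f a) (E.lam a) (E.lam_nonneg a)
    (E.lam_lt a) (gfun_per E f a)

/-- the leading coefficient -/
noncomputable def lead (E : EigenData 𝒢) (f : F) (a : Q 𝒢) : ℂ := (exists_lead E f a).choose

lemma lead_tendsto (E : EigenData 𝒢) (f : F) (a : Q 𝒢) :
    Tendsto (wfun E f a) atImInfty (𝓝 (lead E f a)) := (exists_lead E f a).choose_spec.1

lemma isBigO_of_lead_eq_zero (E : EigenData 𝒢) (f : F) (a : Q 𝒢) (h : lead E f a = 0) :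
    gfun E f a =O[atImInfty] (fun z : ℍ => Real.exp (-2 * π * z.im)) :=
  (exists_lead E f a).choose_spec.2 h

lemma tr_isBigO_of_lead_eq_zero (E : EigenData 𝒢) (f : F) (h : ∀ a, lead E f a = 0) (x : Q 𝒢) :
    tr f x =O[atImInfty] (fun z : ℍ => Real.exp (-2 * π * z.im)) := by
  rw [tr_eq_sum_gfun E f x]
  have := Asymptotics.IsBigO.sum (s := Finset.univ) (A := fun a z => (E.b.repr (Pi.single x 1) a • gfun E f a) z)
    (g := (fun z : ℍ => Real.exp (-2 * π * z.im))) (l := atImInfty)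
    (fun a _ => (isBigO_of_lead_eq_zero E f a (h a)).const_smul_left _)
  convert this using 1

end


lemma disc_slash (γ : SL(2, ℤ)) : (Δ : ℍ → ℂ) ∣[(12 : ℤ)] γ = Δ :=
  CuspForm.discriminant.slash_action_eq' _ ⟨γ, rfl⟩

lemma disc_mdiff : MDiff (Δ : ℍ → ℂ) := CuspForm.discriminant.holo'

lemma div_disc [𝒢.HasDetOne] (h𝒢 : 𝒢 ≤ 𝒮ℒ) {k : ℤ} (f : ModularForm 𝒢 k)
    (h : ∀ x, tr f x =O[atImInfty] (fun z : ℍ => Real.exp (-2 * π * z.im))) :
    ∃ H ∈ MFfun 𝒢 (k - 12), ⇑f = Δ * H := by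
  have hsl : ∀ γ : SL(2, ℤ), (⇑f / Δ) ∣[k - 12] γ = (⇑f ∣[k] γ) / Δ := by
    intro γ
    rw [div_slash_SL2, disc_slash]
  refine ⟨⇑f / Δ, ⟨mkMF 𝒢 (k - 12) (⇑f / Δ) ?_ ?_ ?_, rfl⟩, ?_⟩
  · intro γ' hγ'
    obtain ⟨γ, rfl⟩ := h𝒢 hγ'
    show (⇑f / Δ) ∣[k - 12] γ = _
    rw [hsl γ, show (⇑f ∣[k] γ) = ⇑f from f.slash_action_eq' _ hγ']
  · exact f.holo'.div disc_mdiff discriminant_ne_zero
  · intro γ
    rw [hsl γ]
    have h1 := tr_sl (𝒢 := 𝒢) f γ⁻¹
    rw [inv_inv] at h1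
    rw [← h1]
    exact (Asymptotics.div_isBoundedUnder_of_isBigO
      ((h _).trans exp_isBigO_discriminant)).isBigO_one ℝ
  · funext z
    simp only [Pi.mul_apply, Pi.div_apply]
    rw [mul_div_cancel₀ _ (discriminant_ne_zero z)]

section basis

variable [𝒢.HasDetOne] {J : Type} (κ : J → ℤ) (F : ∀ j, ModularForm 𝒢 (κ j))

/-- generation over the level one forms -/
def Gen : Prop := ∀ k, ∀ f ∈ MFfun 𝒢 k, ∃ r : J →₀ (ℍ → ℂ), (∀ j, r j ∈ RR (k - κ j)) ∧
  f = r.sum fun j a => a * ⇑(F j)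

/-- independence over the level one forms -/
def Ind : Prop := ∀ k (s : Finset J) (r : J → ℍ → ℂ), (∀ j, r j ∈ RR (k - κ j)) →
  ∑ j ∈ s, r j * ⇑(F j) = 0 → ∀ j ∈ s, r j = 0

lemma disc_mem : (Δ : ℍ → ℂ) ∈ RR 12 := ⟨(CuspForm.discriminant : ModularForm 𝒮ℒ 12), rfl⟩

lemma disc_tendsto : Tendsto (Δ : ℍ → ℂ) atImInfty (𝓝 0) := discriminant_isZeroAtImInfty

variable {κ F}

/-- no nontrivial combination with "constant" coefficients is divisible by `Δ`. -/
lemma no_div (hgen : Gen κ F) (hind : Ind κ F) (k : ℤ) (s : Finset J) (e : J → ℍ → ℂ)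
    (he : ∀ j ∈ s, e j ∈ RR (k - κ j)) (he1 : ∀ j ∈ s, Tendsto (e j) atImInfty (𝓝 1))
    (c : J → ℂ) (H : ℍ → ℂ) (hH : H ∈ MFfun 𝒢 (k - 12))
    (h : ∑ j ∈ s, c j • (e j * ⇑(F j)) = Δ * H) : ∀ j ∈ s, c j = 0 := by
  classical
  obtain ⟨r, hr, hHr⟩ := hgen _ H hH
  set R : J → ℍ → ℂ := fun j => (if j ∈ s then c j • e j else 0) - Δ * r j with hR
  have hRmem : ∀ j, R j ∈ RR (k - κ j) := by
    intro j
    refine Submodule.sub_mem _ ?_ ?_
    · split_ifs with hj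
      · exact Submodule.smul_mem _ _ (he j hj)
      · exact Submodule.zero_mem _
    · exact MFfun_mul (by ring) disc_mem (hr j)
  have hsum : ∑ j ∈ s ∪ r.support, R j * ⇑(F j) = 0 := by
    simp only [hR, sub_mul, Finset.sum_sub_distrib]
    have h1 : ∑ j ∈ s ∪ r.support, (if j ∈ s then c j • e j else 0) * ⇑(F j)
        = ∑ j ∈ s, c j • (e j * ⇑(F j)) := by
      rw [← Finset.sum_subset Finset.subset_union_left]
      · refine Finset.sum_congr rfl fun j hj => ?_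
        rw [if_pos hj, smul_mul_assoc]
      · intro j _ hj
        rw [if_neg hj, zero_mul]
    have h2 : ∑ j ∈ s ∪ r.support, Δ * r j * ⇑(F j) = Δ * H := by
      rw [hHr, Finsupp.sum, Finset.mul_sum, ← Finset.sum_subset Finset.subset_union_right]
      · refine Finset.sum_congr rfl fun j _ => ?_
        rw [mul_assoc]
      · intro j _ hj
        rw [Finsupp.notMem_support_iff.mp hj]
        simp
    rw [h1, h2, h, sub_self]
  intro j hj
  have h0 := hind k _ R hRmem hsum j (Finset.mem_union_left _ hj)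
  simp only [hR, if_pos hj] at h0
  have h1 : Tendsto (c j • e j) atImInfty (𝓝 (c j • (1 : ℂ))) := (he1 j hj).const_smul _
  have h2 : Tendsto (Δ * r j) atImInfty (𝓝 (0 * valueAtInfty (r j))) :=
    disc_tendsto.mul (RR_tendsto (hr j))
  rw [sub_eq_zero] at h0
  rw [h0] at h1
  have := tendsto_nhds_unique h1 h2
  simpa using this


lemma gfun_eq_sum (E : EigenData 𝒢) (s : Finset J) (k : ℤ)
    (g : ModularForm 𝒢 k) (r : J → ℍ → ℂ) (hr : ∀ j, r j ∈ RR (k - κ j))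
    (h : ⇑g = ∑ j ∈ s, r j * ⇑(F j)) (a : Q 𝒢) :
    gfun E g a = ∑ j ∈ s, r j * gfun E (F j) a := by
  unfold gfun
  simp only [tr_eq_sum s κ F k g r hr h, Finset.smul_sum, Finset.mul_sum]
  rw [Finset.sum_comm]
  refine Finset.sum_congr rfl fun j _ => Finset.sum_congr rfl fun x _ => ?_
  rw [mul_smul_comm]

lemma wfun_eq_sum (E : EigenData 𝒢) (s : Finset J) (k : ℤ)
    (g : ModularForm 𝒢 k) (r : J → ℍ → ℂ) (hr : ∀ j, r j ∈ RR (k - κ j))
    (h : ⇑g = ∑ j ∈ s, r j * ⇑(F j)) (a : Q 𝒢) :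
    wfun E g a = ∑ j ∈ s, r j * wfun E (F j) a := by
  funext z
  simp only [wfun, gfun_eq_sum E s k g r hr h a, Finset.sum_apply, Pi.mul_apply, Finset.mul_sum]
  refine Finset.sum_congr rfl fun j _ => ?_
  ring

lemma lead_eq_sum (E : EigenData 𝒢) (s : Finset J) (k : ℤ)
    (g : ModularForm 𝒢 k) (r : J → ℍ → ℂ) (hr : ∀ j, r j ∈ RR (k - κ j))
    (h : ⇑g = ∑ j ∈ s, r j * ⇑(F j)) (a : Q 𝒢) :
    lead E g a = ∑ j ∈ s, valueAtInfty (r j) * lead E (F j) a := by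
  have h1 := lead_tendsto E g a
  rw [wfun_eq_sum E s k g r hr h a] at h1
  have h2 : Tendsto (∑ j ∈ s, r j * wfun E (F j) a) atImInfty
      (𝓝 (∑ j ∈ s, valueAtInfty (r j) * lead E (F j) a)) := by
    have := tendsto_finsetSum s (fun j _ => (RR_tendsto (hr j)).mul (lead_tendsto E (F j) a))
    convert this using 1
    funext z
    simp [Finset.sum_apply]
  exact tendsto_nhds_unique h1 h2

lemma lead_ker (h𝒢 : 𝒢 ≤ 𝒮ℒ) (E : EigenData 𝒢) (hgen : Gen κ F) (hind : Ind κ F)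
    (hκ : ∀ j, Even (κ j)) (s : Finset J) (c : J → ℂ)
    (h : ∀ a, ∑ j ∈ s, c j * lead E (F j) a = 0) : ∀ j ∈ s, c j = 0 := by
  classical
  obtain ⟨M, hM⟩ := (s.image κ).exists_le
  set k : ℤ := 2 * |M| + 4 with hk
  have hex : ∀ j, ∃ e : ℍ → ℂ, j ∈ s → (e ∈ RR (k - κ j) ∧ Tendsto e atImInfty (𝓝 1)) := by
    intro j
    by_cases hj : j ∈ s
    · have h1 : κ j ≤ M := hM _ (Finset.mem_image_of_mem _ hj)
      have h2 : M ≤ |M| := le_abs_self M
      have h3 : 0 ≤ |M| := abs_nonneg M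
      obtain ⟨e, he, het⟩ := exists_eOne (k - κ j) (by
        obtain ⟨t, ht⟩ := hκ j
        exact ⟨|M| + 2 - t, by rw [hk, ht]; ring⟩) (Or.inr (by omega))
      exact ⟨e, fun _ => ⟨he, het⟩⟩
    · exact ⟨0, fun h => absurd h hj⟩
  choose e he using hex
  set r : J → ℍ → ℂ := fun j => if j ∈ s then c j • e j else 0 with hr
  have hrmem : ∀ j, r j ∈ RR (k - κ j) := by
    intro j
    simp only [hr]
    split_ifs with hj
    · exact Submodule.smul_mem _ _ (he j hj).1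
    · exact Submodule.zero_mem _
  have hfmem : ∑ j ∈ s, r j * ⇑(F j) ∈ MFfun 𝒢 k := by
    refine Submodule.sum_mem _ fun j _ => ?_
    exact MFfun_mul (m₁ := k - κ j) (m₂ := κ j) (by ring) (MFfun_mono h𝒢 (hrmem j))
      (coe_mem_MFfun _)
  obtain ⟨g, hg⟩ := hfmem
  have hval : ∀ j ∈ s, valueAtInfty (r j) = c j := by
    intro j hj
    have h1 : Tendsto (r j) atImInfty (𝓝 (c j • (1 : ℂ))) := by
      simp only [hr, if_pos hj]
      exact (he j hj).2.const_smul _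
    have h2 := h1.limUnder_eq
    rw [smul_eq_mul, mul_one] at h2
    exact h2
  have hlead : ∀ a, lead E g a = 0 := by
    intro a
    rw [lead_eq_sum E s k g r hrmem hg a, ← h a]
    exact Finset.sum_congr rfl fun j hj => by rw [hval j hj]
  obtain ⟨H, hH, hgH⟩ := div_disc h𝒢 g (tr_isBigO_of_lead_eq_zero E g hlead)
  refine no_div hgen hind k s e (fun j hj => (he j hj).1) (fun j hj => (he j hj).2) c H hH ?_
  rw [← hgH, hg]
  refine Finset.sum_congr rfl fun j hj => ?_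
  simp only [hr, if_pos hj, smul_mul_assoc]

end basis

end FAGenus
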