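import Fermat.Agent.Genus.Basis

/-! The matrix of translates of a free basis is invertible at every point of `ℍ`. -/

open UpperHalfPlane ModularForm Matrix.SpecialLinearGroup OnePoint CongruenceSubgroup Function
  Filter Topology EisensteinSeries Derivative SlashInvariantForm
open scoped Manifold MatrixGroups ModularForm Real

namespace FAGenus

open FA_IS

local notation "Δ" => ModularForm.discriminant

variable {N : ℕ} [NeZero N] (B : FreeBasis N)

lemma FreeBasis.gen' (k : ℤ) (f : ℍ → ℂ) (hf : f ∈ MFfun (GG N) k) :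
    ∃ r : Q (GG N) → ℍ → ℂ, (∀ j, r j ∈ RR (k - B.κ j)) ∧ f = ∑ j, r j * ⇑(B.F j) :=
  gen_fintype B.gen k f hf

lemma FreeBasis.ind' (k : ℤ) (r : Q (GG N) → ℍ → ℂ) (hr : ∀ j, r j ∈ RR (k - B.κ j))
    (h : ∑ j, r j * ⇑(B.F j) = 0) (j : Q (GG N)) : r j = 0 :=
  B.ind k Finset.univ r hr h j (Finset.mem_univ j)

/-- the matrix of translates -/
noncomputable abbrev FreeBasis.Φ (z : ℍ) : Matrix (Q (GG N)) (Q (GG N)) ℂ := Phi B.F z

lemma FreeBasis.exists_det_ne : ∃ z1 : ℍ, (B.Φ z1).det ≠ 0 := by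
  obtain ⟨z1, R, h⟩ := exists_point_rightInv B.gen
  rw [Matrix.det_mul] at h
  exact ⟨z1, left_ne_zero_of_mul h⟩

lemma FreeBasis.exists_connection : ∃ A : Q (GG N) → Q (GG N) → ℍ → ℂ,
    (∀ i j, A i j ∈ RR (B.κ j + 2 - B.κ i)) ∧
    ∀ j x, serreDerivative (B.κ j) (tr (B.F j) x) = ∑ i, A i j * tr (B.F i) x := by
  have hex : ∀ j, ∃ r : Q (GG N) → ℍ → ℂ, (∀ i, r i ∈ RR (B.κ j + 2 - B.κ i)) ∧
      ∀ x, serreDerivative (B.κ j) (tr (B.F j) x) = ∑ i, r i * tr (B.F i) x := by
    intro j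
    obtain ⟨g, hg⟩ := serre_mem (GG_le N) (B.κ j) _ (coe_mem_MFfun (B.F j))
    obtain ⟨r, hr, hs⟩ := B.gen' _ _ (coe_mem_MFfun g)
    refine ⟨r, hr, fun x => ?_⟩
    rw [← tr_serre (B.F j) g hg x]
    exact tr_eq_sum Finset.univ B.κ B.F _ g r hr hs x
  choose r hr hs using hex
  exact ⟨fun i j => r j i, fun i j => hr j i, hs⟩

theorem FreeBasis.det_ne_zero (z0 : ℍ) : (B.Φ z0).det ≠ 0 := by
  classical
  intro hdet
  obtain ⟨v, hv, hv0⟩ := Matrix.exists_vecMul_eq_zero_iff.mpr hdet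
  obtain ⟨z1, hz1⟩ := B.exists_det_ne
  obtain ⟨A, hA, hAs⟩ := B.exists_connection
  set y : Q (GG N) → ℂ → ℂ := fun j w => ∑ x, v x * (tr (B.F j) x ∘ ofComplex) w with hy
  set C : Q (GG N) → Q (GG N) → ℂ → ℂ := fun i j w => 2 * π * Complex.I *
    ((A i j ∘ ofComplex) w + if i = j then (B.κ j : ℂ) * 12⁻¹ * (E2 ∘ ofComplex) w else 0) with hC
  have hud : ∀ j x, DifferentiableOn ℂ (tr (B.F j) x ∘ ofComplex) upperHalfPlaneSet :=
    fun j x => UpperHalfPlane.mdifferentiable_iff.mp (tr_mdiff (B.F j) x)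
  have hyd : ∀ j, DifferentiableOn ℂ (y j) upperHalfPlaneSet := by
    intro j
    exact DifferentiableOn.fun_sum fun x _ => (hud j x).const_mul _
  have hCd : ∀ i j, DifferentiableOn ℂ (C i j) upperHalfPlaneSet := by
    intro i j
    refine DifferentiableOn.const_mul (DifferentiableOn.add ?_ ?_) _
    · exact UpperHalfPlane.mdifferentiable_iff.mp (MFfun_mdiff (hA i j))
    · split_ifs
      · exact (UpperHalfPlane.mdifferentiable_iff.mp E2_mdifferentiable).const_mul _
      · exact differentiableOn_const _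
  have hode : ∀ j, ∀ w ∈ upperHalfPlaneSet, deriv (y j) w = ∑ i, C i j w * y i w := by
    intro j w hw
    have hda : ∀ x, DifferentiableAt ℂ (tr (B.F j) x ∘ ofComplex) w := fun x =>
      (hud j x).differentiableAt (isOpen_upperHalfPlaneSet.mem_nhds hw)
    have h1 : deriv (y j) w = ∑ x, v x * deriv (tr (B.F j) x ∘ ofComplex) w := by
      simp only [hy]
      rw [deriv_fun_sum (fun x _ => (hda x).const_mul _)]
      exact Finset.sum_congr rfl fun x _ => deriv_const_mul _ (hda x)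
    have h2 : ∀ x, deriv (tr (B.F j) x ∘ ofComplex) w
        = ∑ i, C i j w * (tr (B.F i) x ∘ ofComplex) w := by
      intro x
      have h3 := congrFun (hAs j x) ⟨w, hw⟩
      simp only [serreDerivative_apply, normalizedDerivOfComplex, Finset.sum_apply,
        Pi.mul_apply] at h3
      have hw' : ofComplex w = ⟨w, hw⟩ := ofComplex_apply_of_im_pos hw
      simp only [hC, comp_apply, hw', mul_add, add_mul, Finset.sum_add_distrib]
      have h4 : ∑ i, 2 * π * Complex.I * (if i = j then (B.κ j : ℂ) * 12⁻¹ * E2 ⟨w, hw⟩ else 0)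
          * tr (B.F i) x ⟨w, hw⟩ = 2 * π * Complex.I * ((B.κ j : ℂ) * 12⁻¹ * E2 ⟨w, hw⟩)
          * tr (B.F j) x ⟨w, hw⟩ := by
        rw [Finset.sum_eq_single j]
        · simp
        · intro i _ hi
          simp [hi]
        · simp
      rw [h4]
      have h5 : ∑ i, 2 * π * Complex.I * A i j ⟨w, hw⟩ * tr (B.F i) x ⟨w, hw⟩
          = 2 * π * Complex.I * ∑ i, A i j ⟨w, hw⟩ * tr (B.F i) x ⟨w, hw⟩ := by
        rw [Finset.mul_sum]
        exact Finset.sum_congr rfl fun i _ => by ring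
      rw [h5, ← h3]
      have hpi : (2 * π * Complex.I : ℂ) ≠ 0 := by
        simp [Real.pi_ne_zero]
      field_simp
      ring
    rw [h1]
    simp only [h2, hy, Finset.mul_sum]
    rw [Finset.sum_comm]
    exact Finset.sum_congr rfl fun i _ => Finset.sum_congr rfl fun x _ => by ring
  have h0 : ∀ j, y j z0 = 0 := by
    intro j
    have := congrFun hv0 j
    simpa [hy, Matrix.vecMul, dotProduct, Phi] using this
  have hall := ode_unique y C upperHalfPlaneSet isOpen_upperHalfPlaneSet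
    (Complex.isConnected_of_upperHalfPlane subset_rfl (by grind)).isPreconnected hyd hCd hode
    z0 z0.2 h0
  apply hz1
  apply Matrix.exists_vecMul_eq_zero_iff.mp
  refine ⟨v, hv, ?_⟩
  funext j
  have := hall j z1 z1.2
  simpa [hy, Matrix.vecMul, dotProduct, Phi] using this

end FAGenus
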