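import Fermat.Agent.Genus.Lead

/-! The number of free generators is the index. -/

open UpperHalfPlane ModularForm Matrix.SpecialLinearGroup OnePoint CongruenceSubgroup Function
  Filter Topology EisensteinSeries Derivative SlashInvariantForm
open scoped Manifold MatrixGroups ModularForm Real

namespace FAGenus

open FA_IS

local notation "Δ" => ModularForm.discriminant

section general

variable {𝒢 : Subgroup (GL (Fin 2) ℝ)} [𝒢.IsArithmetic] [𝒢.HasDetOne]
  {J : Type} {κ : J → ℤ} {F : ∀ j, ModularForm 𝒢 (κ j)}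

omit [𝒢.IsArithmetic] in
lemma F_ne_zero (hind : Ind κ F) (j : J) : (⇑(F j) : ℍ → ℂ) ≠ 0 := by
  classical
  intro h
  have := hind (κ j) {j} (fun i => if i = j then 1 else 0) (by
    intro i
    split_ifs with hi
    · subst hi
      rw [sub_self]
      exact one_mem_RR
    · exact Submodule.zero_mem _) (by simp [h]) j (Finset.mem_singleton_self j)
  simp at this

lemma card_le (h𝒢 : 𝒢 ≤ 𝒮ℒ) (E : EigenData 𝒢) (hgen : Gen κ F) (hind : Ind κ F)
    (hκ : ∀ j, Even (κ j)) (s : Finset J) : s.card ≤ Fintype.card (Q 𝒢) := by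
  classical
  have hli : LinearIndependent ℂ (fun j : s => (fun a => lead E (F j) a : Q 𝒢 → ℂ)) := by
    rw [Fintype.linearIndependent_iff]
    intro g hg i
    set c : J → ℂ := fun j => if h : j ∈ s then g ⟨j, h⟩ else 0 with hc
    have := lead_ker h𝒢 E hgen hind hκ s c (by
      intro a
      have h1 := congrFun hg a
      rw [← Finset.sum_coe_sort s (fun j => c j * lead E (F j) a)]
      rw [Pi.zero_apply] at h1
      rw [← h1]
      simp only [Finset.sum_apply, Pi.smul_apply, smul_eq_mul]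
      refine Finset.sum_congr rfl fun i _ => ?_
      simp [hc, i.2]) i i.2
    simpa [hc, i.2] using this
  have := hli.fintype_card_le_finrank
  simpa using this

lemma finite_J (h𝒢 : 𝒢 ≤ 𝒮ℒ) (E : EigenData 𝒢) (hgen : Gen κ F) (hind : Ind κ F)
    (hκ : ∀ j, Even (κ j)) : Finite J := by
  by_contra h
  rw [not_finite_iff_infinite] at h
  obtain ⟨s, hs⟩ := Infinite.exists_subset_card_eq J (Fintype.card (Q 𝒢) + 1)
  have := card_le h𝒢 E hgen hind hκ s
  omega

omit [𝒢.IsArithmetic] in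
lemma gen_fintype [Fintype J] (hgen : Gen κ F) (k : ℤ) (f : ℍ → ℂ) (hf : f ∈ MFfun 𝒢 k) :
    ∃ r : J → ℍ → ℂ, (∀ j, r j ∈ RR (k - κ j)) ∧ f = ∑ j, r j * ⇑(F j) := by
  obtain ⟨r, hr, h⟩ := hgen k f hf
  refine ⟨r, hr, ?_⟩
  rw [h, Finsupp.sum_fintype _ _ (fun j => zero_mul _)]

end general


section level

variable (N : ℕ) [NeZero N]

lemma tr_TT_ne (q : Q (GG N)) (hq : q ≠ q0 (GG N)) : tr (TT N) (q0 (GG N)) ≠ tr (TT N) q := by
  intro h
  apply A0_ne_zero N
  unfold A0
  exact Finset.prod_eq_zero (Finset.mem_erase.mpr ⟨hq, Finset.mem_univ q⟩) (sub_eq_zero.mpr h)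

lemma tr_TT_injective : Function.Injective (fun x : Q (GG N) => tr (TT N) x) := by
  intro x y h
  simp only at h
  obtain ⟨γ, rfl⟩ := exists_sl x
  have h1 := congrArg (fun u => u ∣[(12 : ℤ)] γ) h
  simp only [tr_slash', inv_smul_smul] at h1
  by_contra hne
  refine tr_TT_ne N ((sl γ)⁻¹ • y) ?_ h1
  intro h2
  apply hne
  rw [← h2, smul_inv_smul]

lemma exists_sep : ∃ z : ℍ, Function.Injective (fun x : Q (GG N) => tr (TT N) x z) := by
  classical
  have h : ∏ p ∈ (Finset.univ : Finset (Q (GG N))).offDiag, (tr (TT N) p.1 - tr (TT N) p.2) ≠ 0 := by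
    intro h0
    rw [UpperHalfPlane.prod_eq_zero_iff (fun p _ => (tr_mdiff _ _).sub (tr_mdiff _ _))] at h0
    obtain ⟨p, hp, hp0⟩ := h0
    rw [Finset.mem_offDiag] at hp
    exact hp.2.2 (tr_TT_injective N (sub_eq_zero.mp hp0))
  obtain ⟨z, hz⟩ := Function.ne_iff.mp h
  refine ⟨z, fun x y hxy => ?_⟩
  by_contra hne
  apply hz
  rw [Finset.prod_apply, Pi.zero_apply]
  refine Finset.prod_eq_zero (i := (x, y)) (by simp [hne]) ?_
  simpa [sub_eq_zero] using hxy

lemma TT_pow_mem (n : ℕ) : (⇑(TT N) : ℍ → ℂ) ^ n ∈ MFfun (GG N) (12 * n) := by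
  induction n with
  | zero =>
    have h : (1 : ℍ → ℂ) ∈ MFfun (GG N) 0 := ⟨1, rfl⟩
    simpa using h
  | succ n ih =>
    rw [pow_succ]
    exact MFfun_mul (by push_cast; ring) ih (coe_mem_MFfun _)

lemma tr_TT_pow (n : ℕ) (g : ModularForm (GG N) (12 * n)) (hg : ⇑g = (⇑(TT N) : ℍ → ℂ) ^ n)
    (x : Q (GG N)) : tr g x = (tr (TT N) x) ^ n := by
  obtain ⟨γ, rfl⟩ := exists_sl x
  rw [tr_sl, tr_sl, hg]
  have := prod_slash_SL (w := 12) (Finset.range n) (fun _ => (⇑(TT N) : ℍ → ℂ)) γ⁻¹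
  simpa [Finset.prod_const, Finset.card_range] using this

variable {N}
variable {J : Type} [Fintype J] {κ : J → ℤ} {F : ∀ j, ModularForm (GG N) (κ j)}

/-- the matrix of translates -/
noncomputable def Phi (F : ∀ j, ModularForm (GG N) (κ j)) (z : ℍ) : Matrix (Q (GG N)) J ℂ :=
  Matrix.of fun x j => tr (F j) x z

lemma exists_point_rightInv (hgen : Gen κ F) :
    ∃ (z1 : ℍ) (R : Matrix J (Q (GG N)) ℂ), (Phi F z1 * R).det ≠ 0 := by
  classical
  obtain ⟨z1, hz1⟩ := exists_sep N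
  set e := Fintype.equivFin (Q (GG N)) with he
  have hex : ∀ y : Q (GG N), ∃ r : J → ℍ → ℂ, (∀ j, r j ∈ RR (12 * ((e y : ℕ) : ℤ) - κ j)) ∧
      (⇑(TT N) : ℍ → ℂ) ^ (e y : ℕ) = ∑ j, r j * ⇑(F j) :=
    fun y => gen_fintype hgen _ _ (TT_pow_mem N _)
  choose r hr hrs using hex
  refine ⟨z1, Matrix.of fun j y => r y j z1, ?_⟩
  have hV : Phi F z1 * (Matrix.of fun j y => r y j z1) =
      (Matrix.vandermonde (fun i => tr (TT N) (e.symm i) z1)).submatrix e e := by
    ext x y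
    obtain ⟨g, hg⟩ := TT_pow_mem N (e y : ℕ)
    have h1 := tr_eq_sum Finset.univ κ F _ g (r y) (hr y) (hg.trans (hrs y)) x
    rw [tr_TT_pow N _ g hg x] at h1
    have h2 := congrFun h1 z1
    simp only [Matrix.mul_apply, Phi, Matrix.of_apply, Matrix.submatrix_apply,
      Matrix.vandermonde_apply, Equiv.symm_apply_apply]
    simp only [Pi.pow_apply, Finset.sum_apply, Pi.mul_apply] at h2
    rw [h2]
    exact Finset.sum_congr rfl fun j _ => mul_comm _ _
  rw [hV, Matrix.det_submatrix_equiv_self, Matrix.det_vandermonde_ne_zero_iff]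
  exact hz1.comp e.symm.injective

lemma card_ge (hgen : Gen κ F) : Fintype.card (Q (GG N)) ≤ Fintype.card J := by
  classical
  obtain ⟨z1, R, h⟩ := exists_point_rightInv hgen
  have h1 : (Phi F z1 * R).rank = Fintype.card (Q (GG N)) :=
    Matrix.rank_of_isUnit _ ((Matrix.isUnit_iff_isUnit_det _).mpr (isUnit_iff_ne_zero.mpr h))
  have h2 := Matrix.rank_mul_le_left (Phi F z1) R
  have h3 := Matrix.rank_le_card_width (Phi F z1)
  omega

end level

end FAGenus
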