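import Fermat.Agent.Genus.Forms

/-! The Serre derivative maps `M_k(𝒢)` to `M_{k+2}(𝒢)`. -/

open UpperHalfPlane ModularForm Matrix.SpecialLinearGroup OnePoint CongruenceSubgroup Function
  Filter Topology EisensteinSeries Derivative
open scoped Manifold MatrixGroups ModularForm Real

namespace FAGenus

open FA_IS

lemma bdd_normalizedDeriv {u : ℍ → ℂ} (hu : MDiff u) (hb : IsBoundedAtImInfty u) :
    IsBoundedAtImInfty (normalizedDerivOfComplex u) := by
  rw [isBoundedAtImInfty_iff] at hb ⊢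
  obtain ⟨M, A, h⟩ := hb
  refine ⟨‖((2 * π * Complex.I)⁻¹ : ℂ)‖ * (M / 1), max A 0 + 2, fun z hz => ?_⟩
  rw [normalizedDerivOfComplex, norm_mul]
  refine mul_le_mul_of_nonneg_left ?_ (norm_nonneg _)
  have him : ∀ w ∈ Metric.closedBall (z : ℂ) 1, max A 0 + 1 ≤ w.im := by
    intro w hw
    have h1 : |(w - z).im| ≤ ‖w - z‖ := Complex.abs_im_le_norm _
    have h2 : ‖w - z‖ ≤ 1 := by simpa [dist_eq_norm] using hw
    have h3 := abs_le.mp (h1.trans h2)
    have h4 : (w - z).im = w.im - z.im := by simp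
    rw [h4] at h3
    linarith [h3.1]
  have hpos : ∀ w ∈ Metric.closedBall (z : ℂ) 1, 0 < w.im := fun w hw => by
    have := him w hw
    have := le_max_right A 0
    linarith
  rw [UpperHalfPlane.mdifferentiable_iff] at hu
  apply Complex.norm_deriv_le_of_forall_mem_sphere_norm_le one_pos
  · apply DifferentiableOn.diffContOnCl
    rw [closure_ball _ one_ne_zero]
    exact hu.mono fun w hw => hpos w hw
  · intro w hw
    have hw' := Metric.sphere_subset_closedBall hw
    rw [comp_apply, ofComplex_apply_of_im_pos (hpos w hw')]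
    apply h
    have := him w hw'
    have := le_max_left A 0
    show A ≤ w.im
    linarith

lemma bdd_serre {u : ℍ → ℂ} (k : ℂ) (hu : MDiff u) (hb : IsBoundedAtImInfty u) :
    IsBoundedAtImInfty (serreDerivative k u) := by
  have h1 := bdd_normalizedDeriv hu hb
  have h2 : IsBoundedAtImInfty (fun z => k * 12⁻¹ * E2 z * u z) := by
    have := ((Filter.const_boundedAtFilter atImInfty (k * 12⁻¹)).mul isBoundedAtImInfty_E2).mul hb
    exact this
  exact h1.sub h2

lemma serre_mem {𝒢 : Subgroup (GL (Fin 2) ℝ)} [𝒢.IsArithmetic] [𝒢.HasDetOne] (h𝒢 : 𝒢 ≤ 𝒮ℒ) (k : ℤ)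
    (f : ℍ → ℂ) (hf : f ∈ MFfun 𝒢 k) : serreDerivative k f ∈ MFfun 𝒢 (k + 2) := by
  obtain ⟨F, rfl⟩ := hf
  refine ⟨mkMF 𝒢 (k + 2) (serreDerivative k F) ?_ (serreDerivative_mdifferentiable _ F.holo') ?_,
    rfl⟩
  · intro γ' hγ'
    obtain ⟨γ, rfl⟩ := h𝒢 hγ'
    have hF : MDiff (⇑F : ℍ → ℂ) := F.holo'
    exact serreDerivative_slash_invariant hF (F.slash_action_eq' _ hγ')
  · intro γ
    have hF : MDiff (⇑F : ℍ → ℂ) := F.holo'
    rw [serreDerivative_slash_equivariant hF]
    refine bdd_serre _ ?_ (ModularFormClass.bdd_at_infty_slash F γ)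
    rw [SL_slash]
    exact hF.slash k _

end FAGenus
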