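import Fermat.Agent.Genus.Serre

/-! Translates of forms, compatibility with level one coefficients. -/

open UpperHalfPlane ModularForm Matrix.SpecialLinearGroup OnePoint CongruenceSubgroup Function
  Filter Topology EisensteinSeries Derivative SlashInvariantForm
open scoped Manifold MatrixGroups ModularForm Real

namespace FAGenus

open FA_IS

variable {𝒢 : Subgroup (GL (Fin 2) ℝ)}

/-- `SL(2,ℤ) → 𝒮ℒ` -/
noncomputable abbrev sl : SL(2, ℤ) →* 𝒮ℒ := (mapGL ℝ : SL(2, ℤ) →* GL (Fin 2) ℝ).rangeRestrict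

lemma sl_smul_q0 (γ : SL(2, ℤ)) : sl γ • q0 𝒢 = (⟦⟨mapGL ℝ γ, γ, rfl⟩⟧ : Q 𝒢) := by
  unfold q0
  show (((sl γ * 1 : 𝒮ℒ)) : 𝒮ℒ ⧸ (𝒢.subgroupOf 𝒮ℒ)) = _
  rw [mul_one]
  rfl

lemma exists_sl (q : Q 𝒢) : ∃ γ : SL(2, ℤ), q = sl γ • q0 𝒢 := by
  induction q using Quotient.inductionOn with
  | h r =>
    obtain ⟨_, γ, rfl⟩ := r
    exact ⟨γ, (sl_smul_q0 γ).symm⟩

section
variable {F : Type*} [FunLike F ℍ ℂ] {k : ℤ} [ModularFormClass F 𝒢 k]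

lemma tr_sl (f : F) (γ : SL(2, ℤ)) : tr f (sl γ • q0 𝒢) = (f : ℍ → ℂ) ∣[k] γ⁻¹ := by
  rw [sl_smul_q0, tr_mk]

lemma tr_slash' (f : F) (q : Q 𝒢) (γ : SL(2, ℤ)) : tr f q ∣[k] γ = tr f ((sl γ)⁻¹ • q) :=
  tr_slash f q γ

end

lemma tr_eq_sum {J : Type*} (s : Finset J) (κ : J → ℤ) (F : ∀ j, ModularForm 𝒢 (κ j)) (k : ℤ)
    (g : ModularForm 𝒢 k) (r : J → ℍ → ℂ) (hr : ∀ j, r j ∈ RR (k - κ j))
    (h : ⇑g = ∑ j ∈ s, r j * ⇑(F j)) (x : Q 𝒢) : tr g x = ∑ j ∈ s, r j * tr (F j) x := by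
  obtain ⟨γ, rfl⟩ := exists_sl x
  rw [tr_sl, h, SlashAction.sum_slash]
  refine Finset.sum_congr rfl fun j _ => ?_
  have := mul_slash_SL2 (k - κ j) (κ j) γ⁻¹ (r j) (F j)
  rw [sub_add_cancel, RR_slash (hr j)] at this
  rw [this, tr_sl]

lemma tr_serre {k : ℤ} (f : ModularForm 𝒢 k) (g : ModularForm 𝒢 (k + 2))
    (h : ⇑g = serreDerivative k f) (x : Q 𝒢) : tr g x = serreDerivative k (tr f x) := by
  obtain ⟨γ, rfl⟩ := exists_sl x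
  have hf : MDiff (⇑f : ℍ → ℂ) := f.holo'
  rw [tr_sl, tr_sl, h, serreDerivative_slash_equivariant hf]

end FAGenus
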